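/-
S36 block [ONE] (helper21), file 1: **closed points of a chart lying on exactly one vertical
component** (abstract form).

`R` a chart (noetherian domain, `Frac R = F`), `𝔫` a maximal ideal, `B = R_𝔫 ⊆ F` (`locAt 𝔫`).

* `prime_and_pid_of_map_eq` : if `P ≤ 𝔫` is a prime with `R ⧸ P` a Dedekind domain which is not a field
  and `P B = τ B` for some `τ ≠ 0` of `B`, then `τ` is a prime element of `B` and `B ⧸ τ` is a
  principal ideal ring (a discrete valuation ring); hence `B` is factorial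
  (`uniqueFactorizationMonoid_of_map_eq`) — the generalisation of
  `N4.Cover.Globalize.prime_and_pid` from `P = (ϖ)` to a component `P` of a (possibly reducible, possibly
  non-reduced) special fibre which is locally principal at `𝔫`.
* `map_vCentre_eq_span` : the saturation argument.  `V i` finitely many valuation rings of `F`
  containing `R` with `ϖ ∈ 𝔪_{V i}`, `𝔪_{V i} ^ E ⊆ ϖ V i`, and `ϖ R = ⋂ (ϖ V i ∩ R)` (the chart is
  normal and the `V i` are all the vertical valuations).  If `V i₀` is the only one whose centre lies in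
  `𝔫` and `ϖ` is a uniformiser of `V i₀`, then `centre(V i₀) B = ϖ B`.
* `centre_eq_map` / `centre_eq_span` : the centre of `V i₀` on `B` (in the vocabulary
  `S36.Local.LocalRoot.centre` of block [L]) is `centre(V i₀) B`.
* `one_branch` : the package consumed by block [L] at such a point: `UniqueFactorizationMonoid B`,
  and `B ⧸ centre` is a principal ideal ring for the branch through the point.
-/
import Mathlib
import Fermat.Agent.P3G.KrullChart
import Fermat.Agent.N4.Cover.LocalUFD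
import Fermat.Agent.S36.Local.LocalRoot

set_option autoImplicit false
set_option linter.unusedSectionVars false
set_option linter.style.haveILetI false

namespace Fermat.Agent.S36.One.OneBranch

open Fermat.Agent.N4.Cover.Globalize Fermat.Agent.P3G.Krull Fermat.Agent.P3G.KrullChart

/-! ### A locally principal component with Dedekind coordinate ring -/

section Algebra

variable {R F : Type*} [CommRing R] [IsDomain R] [IsNoetherianRing R] [Field F] [Algebra R F]
  [IsFractionRing R F]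

/-- **The local hypotheses of `LocalUFD` at a point of a locally principal Dedekind component.** -/
theorem prime_and_pid_of_map_eq (P : Ideal R) [hPp : P.IsPrime] (hD : IsDedekindDomain (R ⧸ P))
    (hnf : ¬ IsField (R ⧸ P)) (𝔫 : Ideal R) [h𝔫max : 𝔫.IsMaximal] (hP𝔫 : P ≤ 𝔫)
    (τ : locAt (F := F) 𝔫) (hτ0 : τ ≠ 0)
    (hmap : P.map (algebraMap R (locAt (F := F) 𝔫)) = Ideal.span {τ}) :
    Prime τ ∧ IsPrincipalIdealRing (locAt (F := F) 𝔫 ⧸ Ideal.span {τ}) := by
  set S := locAt (F := F) 𝔫 with hS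
  haveI := hD
  -- the image of `𝔫` in the quotient is a nonzero maximal ideal
  have hmax : (𝔫.map (Ideal.Quotient.mk P)).IsMaximal := by
    rcases Ideal.map_eq_top_or_isMaximal_of_surjective (Ideal.Quotient.mk P)
      Ideal.Quotient.mk_surjective h𝔫max with h | h
    · exfalso
      have h1 : (1 : R ⧸ P) ∈ 𝔫.map (Ideal.Quotient.mk P) := by rw [h]; trivial
      rw [← map_one (Ideal.Quotient.mk P),
        Ideal.mem_map_iff_of_surjective _ Ideal.Quotient.mk_surjective] at h1
      obtain ⟨r, hr, hr1⟩ := h1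
      have : r - 1 ∈ P := by rw [← Ideal.Quotient.eq]; exact hr1
      have h2 : (1 : R) = r - (r - 1) := by ring
      exact h𝔫max.ne_top ((Ideal.eq_top_iff_one _).2 (h2 ▸ 𝔫.sub_mem hr (hP𝔫 this)))
    · exact h
  haveI := hmax.isPrime
  have hne : 𝔫.map (Ideal.Quotient.mk P) ≠ ⊥ := Ring.ne_bot_of_isMaximal_of_not_isField hmax hnf
  -- the quotient of the localisation is the localisation of the quotient
  haveI hloc : IsLocalization.AtPrime (S ⧸ P.map (algebraMap R S))
      (𝔫.map (Ideal.Quotient.mk P)) := by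
    have h0 : IsLocalization (Algebra.algebraMapSubmonoid (R ⧸ P) 𝔫.primeCompl)
        (S ⧸ P.map (algebraMap R S)) := inferInstance
    rw [algebraMapSubmonoid_primeCompl P 𝔫 hP𝔫] at h0
    exact h0
  haveI : IsDomain (S ⧸ P.map (algebraMap R S)) :=
    IsLocalization.isDomain_of_le_nonZeroDivisors (R := R ⧸ P) (S ⧸ P.map (algebraMap R S))
      (Ideal.primeCompl_le_nonZeroDivisors (𝔫.map (Ideal.Quotient.mk P)))
  have hdvr : IsDiscreteValuationRing (S ⧸ P.map (algebraMap R S)) :=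
    IsLocalization.AtPrime.isDiscreteValuationRing_of_dedekind_domain (R ⧸ P) hne _
  rw [← hmap]
  refine ⟨?_, inferInstance⟩
  have hprime : (P.map (algebraMap R S)).IsPrime :=
    (Ideal.Quotient.isDomain_iff_prime _).1 inferInstance
  rw [hmap] at hprime
  exact (Ideal.span_singleton_prime hτ0).1 hprime

/-- **Factoriality at a point of a locally principal Dedekind component.** -/
theorem uniqueFactorizationMonoid_of_map_eq (P : Ideal R) [P.IsPrime]
    (hD : IsDedekindDomain (R ⧸ P)) (hnf : ¬ IsField (R ⧸ P)) (𝔫 : Ideal R) [𝔫.IsMaximal]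
    (hP𝔫 : P ≤ 𝔫) (τ : locAt (F := F) 𝔫) (hτ0 : τ ≠ 0)
    (hmap : P.map (algebraMap R (locAt (F := F) 𝔫)) = Ideal.span {τ}) :
    UniqueFactorizationMonoid (locAt (F := F) 𝔫) := by
  haveI : IsLocalRing (locAt (F := F) 𝔫) := isLocalRing_locAt 𝔫
  haveI : IsNoetherianRing (locAt (F := F) 𝔫) := isNoetherianRing_locAt 𝔫
  obtain ⟨h1, h2⟩ := prime_and_pid_of_map_eq P hD hnf 𝔫 hP𝔫 τ hτ0 hmap
  exact Fermat.Agent.N4.Cover.LocalUFD.uniqueFactorizationMonoid h1 h2

end Algebra

/-! ### Saturation: the centre of the only branch through the point is generated by `ϖ` -/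

section Saturation

variable {R F : Type*} [CommRing R] [IsDomain R] [IsNoetherianRing R] [Field F] [Algebra R F]
  [IsFractionRing R F]
variable {ι : Type*} [Finite ι] (V : ι → ValuationSubring F)
  (hV : ∀ i (r : R), algebraMap R F r ∈ V i) (ϖ : R)
  (hsat : ∀ r : R, (∀ i, algebraMap R F r * (algebraMap R F ϖ)⁻¹ ∈ V i) → ϖ ∣ r)
  (E : ℕ) (hpow : ∀ i (x : F), x ∈ (V i).nonunits → x ^ E * (algebraMap R F ϖ)⁻¹ ∈ V i)
  (𝔫 : Ideal R) [h𝔫 : 𝔫.IsPrime] (i₀ : ι)
  (honly : ∀ i, vCentre (V i) (hV i) ≤ 𝔫 → i = i₀)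
  (hunif : ∀ x : F, x ∈ (V i₀).nonunits → x * (algebraMap R F ϖ)⁻¹ ∈ V i₀)

include hsat hpow honly hunif in
/-- **Saturation at a point on one branch.**  Every element of the centre of `V i₀` is divisible by
`ϖ` in `R_𝔫`. -/
theorem dvd_of_mem_vCentre {a : R} (ha : a ∈ vCentre (V i₀) (hV i₀)) :
    algebraMap R (locAt (F := F) 𝔫) ϖ ∣ algebraMap R (locAt (F := F) 𝔫) a := by
  classical
  haveI := Fintype.ofFinite ι
  -- an element outside `𝔫` lying in the centre of every `V i`, `i ≠ i₀`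
  have hex : ∀ i, ∃ c : R, c ∉ 𝔫 ∧ (i ≠ i₀ → c ∈ vCentre (V i) (hV i)) := by
    intro i
    by_cases hi : vCentre (V i) (hV i) ≤ 𝔫
    · exact ⟨1, fun h => h𝔫.ne_top ((Ideal.eq_top_iff_one _).2 h), fun h => absurd (honly i hi) h⟩
    · obtain ⟨c, hc, hcn⟩ := Set.not_subset.1 hi
      exact ⟨c, hcn, fun _ => hc⟩
  choose c hc hc' using hex
  set C : R := ∏ i, c i ^ E with hC
  have hCn : C ∉ 𝔫 := by
    intro h
    obtain ⟨i, -, hi⟩ := (Ideal.IsPrime.prod_mem_iff (hp := h𝔫)).1 h
    exact hc i (h𝔫.mem_of_pow_mem E hi)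
  have hmem : ∀ i, algebraMap R F (C * a) * (algebraMap R F ϖ)⁻¹ ∈ V i := by
    intro i
    by_cases hi : i = i₀
    · subst hi
      have h1 := hunif _ ((mem_vCentre_iff (V i) (hV i)).1 ha)
      have : algebraMap R F (C * a) * (algebraMap R F ϖ)⁻¹ =
          algebraMap R F C * (algebraMap R F a * (algebraMap R F ϖ)⁻¹) := by
        rw [map_mul]; ring
      rw [this]
      exact mul_mem (hV i C) h1
    · have h1 := hpow i _ ((mem_vCentre_iff (V i) (hV i)).1 (hc' i hi))
      have hCe : C = c i ^ E * ∏ j ∈ Finset.univ.erase i, c j ^ E := by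
        rw [hC, ← Finset.mul_prod_erase Finset.univ (fun j => c j ^ E) (Finset.mem_univ i)]
      have : algebraMap R F (C * a) * (algebraMap R F ϖ)⁻¹ =
          (algebraMap R F (c i) ^ E * (algebraMap R F ϖ)⁻¹) *
            algebraMap R F ((∏ j ∈ Finset.univ.erase i, c j ^ E) * a) := by
        rw [hCe, map_mul, map_mul, map_mul, map_pow]; ring
      rw [this]
      exact mul_mem h1 (hV i _)
  obtain ⟨b, hb⟩ := hsat _ hmem
  have hC0 := algebraMap_ne_zero_of_notMem (F := F) 𝔫 hCn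
  refine ⟨⟨algebraMap R F b / algebraMap R F C, div_mem_locAt 𝔫 b hCn⟩, ?_⟩
  apply Subtype.ext
  rw [MulMemClass.coe_mul, coe_algebraMap_locAt, coe_algebraMap_locAt]
  show algebraMap R F a = algebraMap R F ϖ * (algebraMap R F b / algebraMap R F C)
  rw [mul_div_assoc', ← map_mul, ← hb, eq_div_iff hC0, map_mul]
  ring

include hsat hpow honly hunif in
/-- **The centre of the only branch through `𝔫` is `ϖ R_𝔫`.** -/
theorem map_vCentre_eq_span (hϖ : algebraMap R F ϖ ∈ (V i₀).nonunits) :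
    (vCentre (V i₀) (hV i₀)).map (algebraMap R (locAt (F := F) 𝔫)) =
      Ideal.span {algebraMap R (locAt (F := F) 𝔫) ϖ} := by
  apply le_antisymm
  · rw [Ideal.map_le_iff_le_comap]
    intro a ha
    rw [Ideal.mem_comap, Ideal.mem_span_singleton]
    exact dvd_of_mem_vCentre V hV ϖ hsat E hpow 𝔫 i₀ honly hunif ha
  · rw [Ideal.span_singleton_le_iff_mem]
    exact Ideal.mem_map_of_mem _ ((mem_vCentre_iff (V i₀) (hV i₀)).2 hϖ)

end Saturation

/-! ### The centre on `R_𝔫` in the vocabulary of block [L] -/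

section Centre

open Fermat.Agent.S36.Local.LocalRoot

variable {R F : Type*} [CommRing R] [IsDomain R] [IsNoetherianRing R] [Field F] [Algebra R F]
  [IsFractionRing R F]
variable (W : ValuationSubring F) (hW : ∀ r : R, algebraMap R F r ∈ W)
  (𝔫 : Ideal R) [h𝔫 : 𝔫.IsPrime]

include hW in
/-- A valuation ring `W ⊇ R` whose centre lies in `𝔫` contains `R_𝔫`. -/
theorem mem_of_mem_locAt (hle : vCentre W hW ≤ 𝔫) (b : locAt (F := F) 𝔫) :
    algebraMap (locAt (F := F) 𝔫) F b ∈ W := by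
  obtain ⟨a, t, ht, hbt⟩ := (mem_locAt_iff 𝔫 (b : F)).1 b.2
  have h1 : W.valuation (algebraMap R F t) = 1 :=
    valuation_eq_one_of_notMem_vCentre W hW (fun h => ht (hle h))
  show (b : F) ∈ W
  rw [← W.valuation_le_one_iff]
  have := congrArg W.valuation hbt
  rw [map_mul, h1, mul_one] at this
  rw [this]
  exact (W.valuation_le_one_iff _).2 (hW a)

/-- The centre of `W` on `R_𝔫` is the extension of its centre on `R`. -/
theorem centre_eq_map (hle : vCentre W hW ≤ 𝔫) :
    centre W (mem_of_mem_locAt W hW 𝔫 hle) =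
      (vCentre W hW).map (algebraMap R (locAt (F := F) 𝔫)) := by
  apply le_antisymm
  · intro b hb
    rw [mem_centre] at hb
    obtain ⟨a, t, ht, hbt⟩ := (mem_locAt_iff 𝔫 (b : F)).1 b.2
    have ha : a ∈ vCentre W hW := by
      rw [mem_vCentre_iff, ← hbt]
      exact nu_mul' W hb (hW t)
    have ht0 := algebraMap_ne_zero_of_notMem (F := F) 𝔫 ht
    have hb' : b = algebraMap R (locAt (F := F) 𝔫) a *
        ⟨algebraMap R F 1 / algebraMap R F t, div_mem_locAt 𝔫 1 ht⟩ := by
      apply Subtype.ext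
      rw [MulMemClass.coe_mul, coe_algebraMap_locAt]
      show (b : F) = algebraMap R F a * (algebraMap R F 1 / algebraMap R F t)
      rw [← hbt, map_one]
      field_simp
    rw [hb']
    exact Ideal.mul_mem_right _ _ (Ideal.mem_map_of_mem _ ha)
  · rw [Ideal.map_le_iff_le_comap]
    intro a ha
    rw [Ideal.mem_comap, mem_centre]
    show ((algebraMap R (locAt (F := F) 𝔫) a : locAt (F := F) 𝔫) : F) ∈ W.nonunits
    rw [coe_algebraMap_locAt]
    exact (mem_vCentre_iff W hW).1 ha

end Centre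

/-! ### The package at a point on exactly one branch -/

section Package

open Fermat.Agent.S36.Local.LocalRoot

variable {R F : Type*} [CommRing R] [IsDomain R] [IsNoetherianRing R] [Field F] [Algebra R F]
  [IsFractionRing R F]
variable {ι : Type*} [Finite ι] (V : ι → ValuationSubring F)
  (hV : ∀ i (r : R), algebraMap R F r ∈ V i) (ϖ : R)
  (hsat : ∀ r : R, (∀ i, algebraMap R F r * (algebraMap R F ϖ)⁻¹ ∈ V i) → ϖ ∣ r)
  (E : ℕ) (hpow : ∀ i (x : F), x ∈ (V i).nonunits → x ^ E * (algebraMap R F ϖ)⁻¹ ∈ V i)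
  (𝔫 : Ideal R) [h𝔫 : 𝔫.IsMaximal] (i₀ : ι)
  (hi₀ : vCentre (V i₀) (hV i₀) ≤ 𝔫)
  (honly : ∀ i, vCentre (V i) (hV i) ≤ 𝔫 → i = i₀)
  (hunif : ∀ x : F, x ∈ (V i₀).nonunits → x * (algebraMap R F ϖ)⁻¹ ∈ V i₀)
  (hϖ : algebraMap R F ϖ ∈ (V i₀).nonunits)

/-- Dedekind domains are preserved by ring isomorphisms. -/
theorem isDedekindDomain_of_equiv {A B : Type*} [CommRing A] [CommRing B]
    [IsDedekindDomain A] (e : A ≃+* B) : IsDedekindDomain B := by
  haveI : IsDomain B := e.symm.toMulEquiv.isDomain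
  haveI : IsNoetherianRing B := isNoetherianRing_of_ringEquiv A e
  haveI : Ring.DimensionLEOne B := Ring.DimensionLEOne.of_ringEquiv e.symm
  haveI : IsIntegrallyClosed B := IsIntegrallyClosed.of_equiv e
  exact { }

include hsat in
/-- The saturation hypothesis forces `ϖ ≠ 0`. -/
theorem uniformiser_ne_zero [Nonempty ι] : ϖ ≠ 0 := by
  rintro rfl
  have h := hsat 1 (fun i => by rw [map_zero, inv_zero, mul_zero]; exact (V i).zero_mem)
  exact one_ne_zero (zero_dvd_iff.1 h)

include hsat hpow honly hunif hϖ hi₀ in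
/-- **Closed point on exactly one branch, with a Dedekind coordinate ring.**  The local ring `R_𝔫` is
factorial, `ϖ` is a prime element generating the centre of the branch, and the branch is smooth at
the point (`R_𝔫 ⧸ centre` is a principal ideal ring). -/
theorem one_branch (hD : IsDedekindDomain (R ⧸ vCentre (V i₀) (hV i₀)))
    (hnf : ¬ IsField (R ⧸ vCentre (V i₀) (hV i₀))) :
    Prime (algebraMap R (locAt (F := F) 𝔫) ϖ) ∧
    centre (V i₀) (mem_of_mem_locAt (V i₀) (hV i₀) 𝔫 hi₀) =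
      Ideal.span {algebraMap R (locAt (F := F) 𝔫) ϖ} ∧
    UniqueFactorizationMonoid (locAt (F := F) 𝔫) ∧
    IsPrincipalIdealRing
      (locAt (F := F) 𝔫 ⧸ centre (V i₀) (mem_of_mem_locAt (V i₀) (hV i₀) 𝔫 hi₀)) := by
  haveI : Nonempty ι := ⟨i₀⟩
  have hϖ0 : ϖ ≠ 0 := uniformiser_ne_zero V ϖ hsat
  have hτ0 : algebraMap R (locAt (F := F) 𝔫) ϖ ≠ 0 := by
    intro h0
    exact hϖ0 ((IsLocalization.injective (locAt (F := F) 𝔫) 𝔫.primeCompl_le_nonZeroDivisors)
      (by rw [h0, map_zero]))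
  have hmap := map_vCentre_eq_span V hV ϖ hsat E hpow 𝔫 i₀ honly hunif hϖ
  have hc : centre (V i₀) (mem_of_mem_locAt (V i₀) (hV i₀) 𝔫 hi₀) =
      Ideal.span {algebraMap R (locAt (F := F) 𝔫) ϖ} := by
    rw [centre_eq_map (V i₀) (hV i₀) 𝔫 hi₀, hmap]
  obtain ⟨h1, h2⟩ := prime_and_pid_of_map_eq (vCentre (V i₀) (hV i₀)) hD hnf 𝔫 hi₀ _ hτ0 hmap
  refine ⟨h1, hc, ?_, ?_⟩
  · exact uniqueFactorizationMonoid_of_map_eq (vCentre (V i₀) (hV i₀)) hD hnf 𝔫 hi₀ _ hτ0 hmap
  · rw [hc]; exact h2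

include hsat hpow honly hunif hϖ hi₀ in
/-- The same, with the coordinate ring of the branch given as the range of a reduction map
`θ : R → Ω` with kernel the centre of `V i₀`. -/
theorem one_branch_of_reduction {Ω : Type*} [CommRing Ω] (θ : R →+* Ω)
    (hker : RingHom.ker θ = vCentre (V i₀) (hV i₀))
    (hD : IsDedekindDomain θ.range) (hnf : ¬ IsField θ.range) :
    Prime (algebraMap R (locAt (F := F) 𝔫) ϖ) ∧
    centre (V i₀) (mem_of_mem_locAt (V i₀) (hV i₀) 𝔫 hi₀) =
      Ideal.span {algebraMap R (locAt (F := F) 𝔫) ϖ} ∧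
    UniqueFactorizationMonoid (locAt (F := F) 𝔫) ∧
    IsPrincipalIdealRing
      (locAt (F := F) 𝔫 ⧸ centre (V i₀) (mem_of_mem_locAt (V i₀) (hV i₀) 𝔫 hi₀)) := by
  let e : (R ⧸ vCentre (V i₀) (hV i₀)) ≃+* θ.range :=
    (Ideal.quotEquivOfEq hker.symm).trans (RingHom.quotientKerEquivRange θ)
  haveI := hD
  have hD' : IsDedekindDomain (R ⧸ vCentre (V i₀) (hV i₀)) := isDedekindDomain_of_equiv e.symm
  have hnf' : ¬ IsField (R ⧸ vCentre (V i₀) (hV i₀)) := fun h =>
    hnf (e.symm.toMulEquiv.isField h)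
  exact one_branch V hV ϖ hsat E hpow 𝔫 i₀ hi₀ honly hunif hϖ hD' hnf'

end Package

end Fermat.Agent.S36.One.OneBranch
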