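/-
S36 block [ONE] (helper21), file 2: **the dictionary of closed points of the special fibre at level
`q² M₀`** (which of the three vertical valuations `V20`, `V11`, `V02` are centred at a given closed
point), hypothesis-driven on the incidence table of block [V].

`R₂ ⊆ F₂` a chart of the top level, `V20 V11 V02` the vertical valuation rings of `F₂`; `R₁ ⊆ F₁` a chart
of the middle level with its two vertical valuation rings `V10 V01`; `φ : F₁ → F₂` a degeneracy map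
(`α` or `β`) restricting to `φR : R₁ → R₂`.

* `comap_vCentre` : if `W.comap φ = U` then `centre(W) ∩ R₁ = centre(U)`.
* `exists_vCentre_le` : every prime `𝔫 ∋ ϖ` of `R₂` contains the centre of some `V i` (saturation).
* `classify` : a prime `𝔫 ∋ ϖ` contains exactly one of the three centres, or contains `P02` and one of
  `P20`, `P11`, or contains `P20` and `P11`.
* `crossing_alpha` / `crossing_beta` : in the last two cases the contraction of `𝔫` along `α`
  (resp. `β`) contains BOTH vertical primes of the middle level — `𝔫` lies over a crossing point of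
  level `q M₀` (then block [R2] applies: all three components pass through `𝔫`).
* `fam3`, `only_of_*` : the family `![V20, V11, V02]` and the `honly` hypothesis of
  `OneBranch.one_branch` in each of the three one-branch cases.
-/
import Mathlib
import Fermat.Agent.S36.One.OneBranch

set_option autoImplicit false
set_option linter.unusedSectionVars false
set_option linter.style.haveILetI false

namespace Fermat.Agent.S36.One.Dictionary

open Fermat.Agent.P3G.Krull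

/-! ### Contraction of centres along a degeneracy map -/

section Comap

variable {R₁ F₁ R₂ F₂ : Type*} [CommRing R₁] [Field F₁] [Algebra R₁ F₁]
  [CommRing R₂] [Field F₂] [Algebra R₂ F₂]
  (φ : F₁ →+* F₂) (φR : R₁ →+* R₂)
  (hφ : ∀ r : R₁, algebraMap R₂ F₂ (φR r) = φ (algebraMap R₁ F₁ r))

/-- `x` is a nonunit of the valuation ring `A` iff `x = 0` or `x⁻¹ ∉ A`. -/
theorem mem_nonunits_iff_inv_notMem {L : Type*} [Field L] (A : ValuationSubring L) (x : L) :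
    x ∈ A.nonunits ↔ x = 0 ∨ x⁻¹ ∉ A := by
  rw [ValuationSubring.mem_nonunits_iff]
  by_cases hx : x = 0
  · subst hx
    simp
  · have hv0 : A.valuation x ≠ 0 := (Valuation.ne_zero_iff _).2 hx
    rw [← A.valuation_le_one_iff, map_inv₀, not_le, one_lt_inv₀ (zero_lt_iff.2 hv0)]
    simp [hx]

include hφ in
/-- `centre(W) ∩ R₁ = centre(W ∩ F₁)`. -/
theorem comap_vCentre (U : ValuationSubring F₁) (hU : ∀ r : R₁, algebraMap R₁ F₁ r ∈ U)
    (W : ValuationSubring F₂) (hW : ∀ r : R₂, algebraMap R₂ F₂ r ∈ W) (hcomap : W.comap φ = U) :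
    (vCentre W hW).comap φR = vCentre U hU := by
  ext r
  rw [Ideal.mem_comap, mem_vCentre_iff, mem_vCentre_iff, hφ, ← hcomap,
    mem_nonunits_iff_inv_notMem, mem_nonunits_iff_inv_notMem, map_eq_zero]
  have h1 : ∀ x : F₁, x ∈ W.comap φ ↔ φ x ∈ W := fun x => Iff.rfl
  rw [h1, map_inv₀]

include hφ in
/-- If the centre of `W` lies in `𝔫`, the centre of `W ∩ F₁` lies in the contraction of `𝔫`. -/
theorem vCentre_le_comap (U : ValuationSubring F₁) (hU : ∀ r : R₁, algebraMap R₁ F₁ r ∈ U)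
    (W : ValuationSubring F₂) (hW : ∀ r : R₂, algebraMap R₂ F₂ r ∈ W) (hcomap : W.comap φ = U)
    {𝔫 : Ideal R₂} (h : vCentre W hW ≤ 𝔫) : vCentre U hU ≤ 𝔫.comap φR := by
  rw [← comap_vCentre φ φR hφ U hU W hW hcomap]
  exact Ideal.comap_mono h

end Comap

/-! ### Some vertical component passes through every closed point of the special fibre -/

section Nonempty

variable {R F : Type*} [CommRing R] [IsDomain R] [Field F] [Algebra R F]
variable {ι : Type*} [Finite ι] (V : ι → ValuationSubring F)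
  (hV : ∀ i (r : R), algebraMap R F r ∈ V i) (ϖ : R)
  (hsat : ∀ r : R, (∀ i, algebraMap R F r * (algebraMap R F ϖ)⁻¹ ∈ V i) → ϖ ∣ r)
  (E : ℕ) (hpow : ∀ i (x : F), x ∈ (V i).nonunits → x ^ E * (algebraMap R F ϖ)⁻¹ ∈ V i)
  (𝔫 : Ideal R) [h𝔫 : 𝔫.IsPrime]

include hsat hpow in
/-- **Some component passes through `𝔫`.** -/
theorem exists_vCentre_le (hϖ𝔫 : ϖ ∈ 𝔫) : ∃ i, vCentre (V i) (hV i) ≤ 𝔫 := by
  classical
  haveI := Fintype.ofFinite ι
  by_contra hcon
  push Not at hcon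
  have hex : ∀ i, ∃ c : R, c ∉ 𝔫 ∧ c ∈ vCentre (V i) (hV i) := by
    intro i
    obtain ⟨c, hc, hcn⟩ := Set.not_subset.1 (hcon i)
    exact ⟨c, hcn, hc⟩
  choose c hc hc' using hex
  set C : R := ∏ i, c i ^ E with hC
  have hCn : C ∉ 𝔫 := by
    intro h
    obtain ⟨i, -, hi⟩ := (Ideal.IsPrime.prod_mem_iff (hp := h𝔫)).1 h
    exact hc i (h𝔫.mem_of_pow_mem E hi)
  have hmem : ∀ i, algebraMap R F C * (algebraMap R F ϖ)⁻¹ ∈ V i := by
    intro i
    have h1 := hpow i _ ((mem_vCentre_iff (V i) (hV i)).1 (hc' i))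
    have hCe : C = c i ^ E * ∏ j ∈ Finset.univ.erase i, c j ^ E := by
      rw [hC, ← Finset.mul_prod_erase Finset.univ (fun j => c j ^ E) (Finset.mem_univ i)]
    have : algebraMap R F C * (algebraMap R F ϖ)⁻¹ =
        (algebraMap R F (c i) ^ E * (algebraMap R F ϖ)⁻¹) *
          algebraMap R F (∏ j ∈ Finset.univ.erase i, c j ^ E) := by
      rw [hCe, map_mul, map_pow]; ring
    rw [this]
    exact mul_mem h1 (hV i _)
  obtain ⟨b, hb⟩ := hsat C hmem
  exact hCn (hb ▸ 𝔫.mul_mem_right b hϖ𝔫)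

end Nonempty

/-! ### The three vertical valuations of the top level -/

section Three

variable {R F : Type*} [CommRing R] [IsDomain R] [Field F] [Algebra R F]
  (V20 V11 V02 : ValuationSubring F)

/-- The family `![V20, V11, V02]`. -/
def fam3 : Fin 3 → ValuationSubring F := ![V20, V11, V02]

@[simp] theorem fam3_zero : fam3 V20 V11 V02 0 = V20 := rfl
@[simp] theorem fam3_one : fam3 V20 V11 V02 1 = V11 := rfl
@[simp] theorem fam3_two : fam3 V20 V11 V02 2 = V02 := rfl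

variable {V20 V11 V02}

theorem fam3_mem (h20 : ∀ r : R, algebraMap R F r ∈ V20) (h11 : ∀ r : R, algebraMap R F r ∈ V11)
    (h02 : ∀ r : R, algebraMap R F r ∈ V02) (i : Fin 3) (r : R) :
    algebraMap R F r ∈ fam3 V20 V11 V02 i := by
  fin_cases i
  · exact h20 r
  · exact h11 r
  · exact h02 r

variable (h20 : ∀ r : R, algebraMap R F r ∈ V20) (h11 : ∀ r : R, algebraMap R F r ∈ V11)
  (h02 : ∀ r : R, algebraMap R F r ∈ V02) (ϖ : R)
  (hsat : ∀ r : R, (∀ i, algebraMap R F r * (algebraMap R F ϖ)⁻¹ ∈ fam3 V20 V11 V02 i) → ϖ ∣ r)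
  (E : ℕ)
  (hpow : ∀ i (x : F), x ∈ (fam3 V20 V11 V02 i).nonunits →
    x ^ E * (algebraMap R F ϖ)⁻¹ ∈ fam3 V20 V11 V02 i)
  (𝔫 : Ideal R) [h𝔫 : 𝔫.IsPrime]

include hsat hpow in
/-- **Classification of the closed points of the special fibre.**  A prime `𝔫 ∋ ϖ` lies on exactly
one of the three components, or on `C02` and one of `C20`, `C11`, or on `C20` and `C11`. -/
theorem classify (hϖ𝔫 : ϖ ∈ 𝔫) :
    (vCentre V20 h20 ≤ 𝔫 ∧ ¬ vCentre V11 h11 ≤ 𝔫 ∧ ¬ vCentre V02 h02 ≤ 𝔫) ∨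
    (¬ vCentre V20 h20 ≤ 𝔫 ∧ vCentre V11 h11 ≤ 𝔫 ∧ ¬ vCentre V02 h02 ≤ 𝔫) ∨
    (¬ vCentre V20 h20 ≤ 𝔫 ∧ ¬ vCentre V11 h11 ≤ 𝔫 ∧ vCentre V02 h02 ≤ 𝔫) ∨
    ((vCentre V20 h20 ≤ 𝔫 ∨ vCentre V11 h11 ≤ 𝔫) ∧ vCentre V02 h02 ≤ 𝔫) ∨
    (vCentre V20 h20 ≤ 𝔫 ∧ vCentre V11 h11 ≤ 𝔫) := by
  obtain ⟨i, hi⟩ := exists_vCentre_le (fam3 V20 V11 V02) (fam3_mem h20 h11 h02) ϖ hsat E hpow 𝔫 hϖ𝔫
  have hi' : vCentre V20 h20 ≤ 𝔫 ∨ vCentre V11 h11 ≤ 𝔫 ∨ vCentre V02 h02 ≤ 𝔫 := by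
    fin_cases i
    · exact Or.inl hi
    · exact Or.inr (Or.inl hi)
    · exact Or.inr (Or.inr hi)
  by_cases a : vCentre V20 h20 ≤ 𝔫 <;> by_cases b : vCentre V11 h11 ≤ 𝔫 <;>
    by_cases c : vCentre V02 h02 ≤ 𝔫 <;> simp_all

/-- `honly` of `OneBranch.one_branch` at a point on `C20` only. -/
theorem only_of_20 (h : vCentre V20 h20 ≤ 𝔫 ∧ ¬ vCentre V11 h11 ≤ 𝔫 ∧ ¬ vCentre V02 h02 ≤ 𝔫)
    (i : Fin 3)
    (hi : vCentre (fam3 V20 V11 V02 i) (fam3_mem h20 h11 h02 i) ≤ 𝔫) : i = 0 := by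
  fin_cases i
  · rfl
  · exact absurd hi h.2.1
  · exact absurd hi h.2.2

/-- `honly` of `OneBranch.one_branch` at a point on `C11` only. -/
theorem only_of_11 (h : ¬ vCentre V20 h20 ≤ 𝔫 ∧ vCentre V11 h11 ≤ 𝔫 ∧ ¬ vCentre V02 h02 ≤ 𝔫)
    (i : Fin 3)
    (hi : vCentre (fam3 V20 V11 V02 i) (fam3_mem h20 h11 h02 i) ≤ 𝔫) : i = 1 := by
  fin_cases i
  · exact absurd hi h.1
  · rfl
  · exact absurd hi h.2.2

/-- `honly` of `OneBranch.one_branch` at a point on `C02` only. -/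
theorem only_of_02 (h : ¬ vCentre V20 h20 ≤ 𝔫 ∧ ¬ vCentre V11 h11 ≤ 𝔫 ∧ vCentre V02 h02 ≤ 𝔫)
    (i : Fin 3)
    (hi : vCentre (fam3 V20 V11 V02 i) (fam3_mem h20 h11 h02 i) ≤ 𝔫) : i = 2 := by
  fin_cases i
  · exact absurd hi h.1
  · exact absurd hi h.2.1
  · rfl

end Three

/-! ### Points on two components lie over a crossing point of the middle level -/

section Crossing

variable {R₁ F₁ R₂ F₂ : Type*} [CommRing R₁] [Field F₁] [Algebra R₁ F₁]
  [CommRing R₂] [Field F₂] [Algebra R₂ F₂]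
  {V10 V01 : ValuationSubring F₁} {V20 V11 V02 : ValuationSubring F₂}
  (h10 : ∀ r : R₁, algebraMap R₁ F₁ r ∈ V10) (h01 : ∀ r : R₁, algebraMap R₁ F₁ r ∈ V01)
  (h20 : ∀ r : R₂, algebraMap R₂ F₂ r ∈ V20) (h11 : ∀ r : R₂, algebraMap R₂ F₂ r ∈ V11)
  (h02 : ∀ r : R₂, algebraMap R₂ F₂ r ∈ V02)
  (φ : F₁ →+* F₂) (φR : R₁ →+* R₂)
  (hφ : ∀ r : R₁, algebraMap R₂ F₂ (φR r) = φ (algebraMap R₁ F₁ r))
  (𝔫 : Ideal R₂)

include hφ in
/-- **Along `α`** (`V20, V11` over `V10`, `V02` over `V01`): a point on `C02` and on one of `C20`,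
`C11` lies over a crossing point of the middle level. -/
theorem crossing_alpha (c20 : V20.comap φ = V10) (c11 : V11.comap φ = V10)
    (c02 : V02.comap φ = V01)
    (h : (vCentre V20 h20 ≤ 𝔫 ∨ vCentre V11 h11 ≤ 𝔫) ∧ vCentre V02 h02 ≤ 𝔫) :
    vCentre V10 h10 ≤ 𝔫.comap φR ∧ vCentre V01 h01 ≤ 𝔫.comap φR := by
  refine ⟨?_, vCentre_le_comap φ φR hφ V01 h01 V02 h02 c02 h.2⟩
  rcases h.1 with h1 | h1
  · exact vCentre_le_comap φ φR hφ V10 h10 V20 h20 c20 h1
  · exact vCentre_le_comap φ φR hφ V10 h10 V11 h11 c11 h1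

include hφ in
/-- **Along `β`** (`V20` over `V10`, `V11, V02` over `V01`): a point on `C20` and on one of `C11`,
`C02` lies over a crossing point of the middle level. -/
theorem crossing_beta (c20 : V20.comap φ = V10) (c11 : V11.comap φ = V01)
    (c02 : V02.comap φ = V01)
    (h : vCentre V20 h20 ≤ 𝔫 ∧ (vCentre V11 h11 ≤ 𝔫 ∨ vCentre V02 h02 ≤ 𝔫)) :
    vCentre V10 h10 ≤ 𝔫.comap φR ∧ vCentre V01 h01 ≤ 𝔫.comap φR := by
  refine ⟨vCentre_le_comap φ φR hφ V10 h10 V20 h20 c20 h.1, ?_⟩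
  rcases h.2 with h1 | h1
  · exact vCentre_le_comap φ φR hφ V01 h01 V11 h11 c11 h1
  · exact vCentre_le_comap φ φR hφ V01 h01 V02 h02 c02 h1

end Crossing

end Fermat.Agent.S36.One.Dictionary
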