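/-
S36 leaf [BRANCH] (helper6): **every vertical branch through every closed point is smooth.**

`R` a chart (noetherian domain with fraction field `F`), `V ⊇ R` a valuation ring of `F` (a vertical
component), `P = vCentre V` its centre on `R`.  The statement `(I-R)(R-b)` consumed by block [L]
(`S36/Local/LocalRoot`), "`R_𝔫 ⧸ centre V` is a principal ideal ring", holds at EVERY prime `𝔫 ⊇ P`
as soon as `R ⧸ P` is a Dedekind domain — a GLOBAL statement about the component, which needs no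
regularity of `R_𝔫` (so it covers the triple points, the one-component points and the cusps alike):

* (B1) `res_mem_of_isIntegral`, `res_mem` : `res : R → κ` a residue map, `γ : R₀ → R` with `R` integral
  over `γ R₀`, `S ⊆ κ` an integrally closed subring with `res (γ R₀) ⊆ S` and `res R ⊆ Frac S`
  (residue degree one): then `res R ⊆ S`;  `quotientKerEquiv : R ⧸ ker res ≃+* S`,
  `isDedekindDomain_quotient`;
* (B2) `isPrincipalIdealRing_quotient_map` : `P ≤ 𝔫` primes of `R`, `R ⧸ P` Dedekind ⟹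
  `R_𝔫 ⧸ P R_𝔫` is a principal ideal ring (generalises `N4.Cover.Globalize.prime_and_pid`);
  `isDiscreteValuationRing_quotient_map` if moreover `P ≠ 𝔫`;
* (B3) `map_vCentre_eq_centre` : `(vCentre V).map (R → R_𝔫) = LocalRoot.centre V` for `vCentre V ≤ 𝔫`;
* `isPrincipalIdealRing_quotient_centre` (+ `_of_res`) : `(R-b)` verbatim.
-/
import Mathlib
import Fermat.Agent.P3G.Krull
import Fermat.Agent.S36.Local.LocalRoot

set_option autoImplicit false
set_option linter.unusedSectionVars false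
set_option linter.style.haveILetI false

namespace Fermat.Agent.S36.One.BranchDedekind

open Fermat.Agent.N4.Cover.Globalize Fermat.Agent.P3G.Krull Fermat.Agent.S36.Local

/-! ### (B1) the residue ring of a branch is the reduction of the base level -/

section B1

variable {κ : Type*} [Field κ]

/-- An element of a field `κ` which is integral over the integrally closed subring `S` and is a
quotient of two elements of `S` lies in `S`. -/
theorem mem_of_isIntegral_of_frac (S : Subring κ) [IsIntegrallyClosed S] {x : κ}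
    (hint : IsIntegral S x) {a b : κ} (ha : a ∈ S) (hb : b ∈ S) (hb0 : b ≠ 0) (hx : x * b = a) :
    x ∈ S := by
  set L := FractionRing S with hL
  have hinj : Function.Injective (Algebra.ofId S κ) := Subtype.val_injective
  let φ : L →ₐ[S] κ := IsFractionRing.liftAlgHom (g := Algebra.ofId S κ) hinj
  have hφ : ∀ s : S, φ (algebraMap S L s) = (s : κ) := fun s => by
    show IsFractionRing.lift hinj (algebraMap S L s) = _
    rw [IsFractionRing.lift_algebraMap]; rfl
  have hb0' : algebraMap S L ⟨b, hb⟩ ≠ 0 := by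
    intro h0
    have : (⟨b, hb⟩ : S) = 0 := IsFractionRing.injective S L (by rw [h0, map_zero])
    exact hb0 (congrArg Subtype.val this)
  set y : L := algebraMap S L ⟨a, ha⟩ / algebraMap S L ⟨b, hb⟩ with hy
  have hφy : φ y = x := by
    rw [hy, map_div₀, hφ, hφ]
    show a / b = x
    rw [← hx, mul_div_assoc, div_self hb0, mul_one]
  have hyint : IsIntegral S y := by
    rw [← isIntegral_algHom_iff φ φ.toRingHom.injective, hφy]
    exact hint
  obtain ⟨s, hs⟩ := IsIntegrallyClosed.algebraMap_eq_of_integral hyint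
  rw [← hφy, ← hs, hφ]
  exact s.2

variable {R₀ R : Type*} [CommRing R₀] [CommRing R]

/-- The residue of an element of `R` integral over `γ R₀` is integral over any subring `S ⊆ κ`
containing the residues of `γ R₀`. -/
theorem isIntegral_res (γ : R₀ →+* R) (res : R →+* κ) (S : Subring κ)
    (hS : ∀ r₀ : R₀, res (γ r₀) ∈ S) {r : R} (hint : γ.IsIntegralElem r) :
    IsIntegral S (res r) := by
  obtain ⟨p, hp, hpr⟩ := hint
  let g : R₀ →+* S := (res.comp γ).codRestrict S hS
  refine ⟨p.map g, hp.map g, ?_⟩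
  rw [Polynomial.eval₂_map]
  have hcomp : (algebraMap S κ).comp g = res.comp γ := by
    ext r₀; rfl
  rw [hcomp, ← Polynomial.hom_eval₂, hpr, map_zero]

/-- **(B1)** `res r ∈ S` for `r` integral over `γ R₀` with residue in `Frac S`. -/
theorem res_mem_of_isIntegral (γ : R₀ →+* R) (res : R →+* κ) (S : Subring κ)
    [IsIntegrallyClosed S] (hS : ∀ r₀ : R₀, res (γ r₀) ∈ S) {r : R} (hint : γ.IsIntegralElem r)
    (hfrac : ∃ a ∈ S, ∃ b ∈ S, b ≠ 0 ∧ res r * b = a) : res r ∈ S := by
  obtain ⟨a, ha, b, hb, hb0, hx⟩ := hfrac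
  exact mem_of_isIntegral_of_frac S (isIntegral_res γ res S hS hint) ha hb hb0 hx

/-- **(B1)** `res R ⊆ S`. -/
theorem res_mem (γ : R₀ →+* R) (res : R →+* κ) (S : Subring κ) [IsIntegrallyClosed S]
    (hS : ∀ r₀ : R₀, res (γ r₀) ∈ S) (hint : ∀ r : R, γ.IsIntegralElem r)
    (hfrac : ∀ r : R, ∃ a ∈ S, ∃ b ∈ S, b ≠ 0 ∧ res r * b = a) (r : R) : res r ∈ S :=
  res_mem_of_isIntegral γ res S hS (hint r) (hfrac r)

variable {res : R →+* κ} {S : Subring κ}

/-- `res` as a map into `S`. -/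
def resS (hmem : ∀ r : R, res r ∈ S) : R →+* S := res.codRestrict S hmem

@[simp] theorem coe_resS (hmem : ∀ r : R, res r ∈ S) (r : R) : ((resS hmem r : S) : κ) = res r :=
  rfl

theorem resS_surjective (hmem : ∀ r : R, res r ∈ S) (hsurj : ∀ s ∈ S, ∃ r : R, res r = s) :
    Function.Surjective (resS hmem) := by
  intro s
  obtain ⟨r, hr⟩ := hsurj s s.2
  exact ⟨r, Subtype.ext hr⟩

theorem ker_resS (hmem : ∀ r : R, res r ∈ S) : RingHom.ker (resS hmem) = RingHom.ker res := by
  ext r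
  rw [RingHom.mem_ker, RingHom.mem_ker]
  constructor
  · intro h0; exact congrArg Subtype.val h0
  · intro h0; exact Subtype.ext h0

/-- `R ⧸ P ≃+* S` for `P = ker res`, `res R = S`. -/
noncomputable def quotientKerEquiv (hmem : ∀ r : R, res r ∈ S)
    (hsurj : ∀ s ∈ S, ∃ r : R, res r = s) {P : Ideal R} (hP : RingHom.ker res = P) :
    (R ⧸ P) ≃+* S :=
  (Ideal.quotEquivOfEq (hP.symm.trans (ker_resS hmem).symm)).trans
    (RingHom.quotientKerEquivOfSurjective (resS_surjective hmem hsurj))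

/-- Dedekind domains are preserved by ring isomorphisms. -/
theorem isDedekindDomain_of_equiv {A B : Type*} [CommRing A] [CommRing B]
    [IsDedekindDomain A] (e : A ≃+* B) : IsDedekindDomain B := by
  haveI : IsDomain B := e.symm.toMulEquiv.isDomain
  haveI : IsNoetherianRing B := isNoetherianRing_of_ringEquiv A e
  haveI : Ring.DimensionLEOne B := Ring.DimensionLEOne.of_ringEquiv e.symm
  haveI : IsIntegrallyClosed B := IsIntegrallyClosed.of_equiv e
  exact { }

/-- `R ⧸ P` is a Dedekind domain if `S` is. -/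
theorem isDedekindDomain_quotient [IsDedekindDomain S] (hmem : ∀ r : R, res r ∈ S)
    (hsurj : ∀ s ∈ S, ∃ r : R, res r = s) {P : Ideal R} (hP : RingHom.ker res = P) :
    IsDedekindDomain (R ⧸ P) :=
  isDedekindDomain_of_equiv (quotientKerEquiv hmem hsurj hP).symm

end B1

/-! ### (B2) localising a Dedekind branch -/

section B2

variable {R F : Type*} [CommRing R] [IsDomain R] [IsNoetherianRing R] [Field F] [Algebra R F]
  [IsFractionRing R F]

/-- The image of a prime `𝔫 ⊇ P` in `R ⧸ P` is prime. -/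
theorem isPrime_map_mk (P 𝔫 : Ideal R) [h𝔫 : 𝔫.IsPrime] (hP : P ≤ 𝔫) :
    (𝔫.map (Ideal.Quotient.mk P)).IsPrime :=
  Ideal.map_isPrime_of_surjective Ideal.Quotient.mk_surjective (by rw [Ideal.mk_ker]; exact hP)

/-- The quotient of the localisation is the localisation of the quotient. -/
theorem isLocalization_quotient_map (P 𝔫 : Ideal R) [𝔫.IsPrime] (hP : P ≤ 𝔫) :
    haveI := isPrime_map_mk P 𝔫 hP
    IsLocalization.AtPrime
      (locAt (F := F) 𝔫 ⧸ P.map (algebraMap R (locAt (F := F) 𝔫)))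
      (𝔫.map (Ideal.Quotient.mk P)) := by
  haveI := isPrime_map_mk P 𝔫 hP
  have h0 : IsLocalization (Algebra.algebraMapSubmonoid (R ⧸ P) 𝔫.primeCompl)
      (locAt (F := F) 𝔫 ⧸ P.map (algebraMap R (locAt (F := F) 𝔫))) := inferInstance
  rw [algebraMapSubmonoid_primeCompl P 𝔫 hP] at h0
  exact h0

/-- **(B2)** `R_𝔫 ⧸ P R_𝔫` is a principal ideal ring for primes `P ≤ 𝔫` with `R ⧸ P` Dedekind. -/
theorem isPrincipalIdealRing_quotient_map (P 𝔫 : Ideal R) [hPp : P.IsPrime] [𝔫.IsPrime]
    (hP : P ≤ 𝔫) (hD : IsDedekindDomain (R ⧸ P)) :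
    IsPrincipalIdealRing (locAt (F := F) 𝔫 ⧸ P.map (algebraMap R (locAt (F := F) 𝔫))) := by
  set S := locAt (F := F) 𝔫 with hS
  set Q := S ⧸ P.map (algebraMap R S) with hQ
  haveI := hD
  haveI := isPrime_map_mk P 𝔫 hP
  haveI hloc : IsLocalization.AtPrime Q (𝔫.map (Ideal.Quotient.mk P)) :=
    isLocalization_quotient_map (F := F) P 𝔫 hP
  haveI : IsDomain Q :=
    IsLocalization.isDomain_of_le_nonZeroDivisors (R := R ⧸ P) Q
      (Ideal.primeCompl_le_nonZeroDivisors (𝔫.map (Ideal.Quotient.mk P)))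
  haveI : IsDedekindDomain Q :=
    IsLocalization.isDedekindDomain (R ⧸ P)
      (Ideal.primeCompl_le_nonZeroDivisors (𝔫.map (Ideal.Quotient.mk P))) Q
  haveI : IsLocalRing Q := IsLocalization.AtPrime.isLocalRing Q (𝔫.map (Ideal.Quotient.mk P))
  apply IsPrincipalIdealRing.of_finite_primes
  apply Set.Finite.subset (Set.toFinite {(⊥ : Ideal Q), IsLocalRing.maximalIdeal Q})
  intro I hI
  by_cases hbot : I = ⊥
  · exact Or.inl hbot
  · exact Or.inr (IsLocalRing.eq_maximalIdeal (Ideal.IsPrime.isMaximal hI hbot))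

/-- `R_𝔫 ⧸ P R_𝔫` is a domain for primes `P ≤ 𝔫`. -/
theorem isDomain_quotient_map (P 𝔫 : Ideal R) [hPp : P.IsPrime] [𝔫.IsPrime] (hP : P ≤ 𝔫) :
    IsDomain (locAt (F := F) 𝔫 ⧸ P.map (algebraMap R (locAt (F := F) 𝔫))) := by
  haveI := isPrime_map_mk P 𝔫 hP
  haveI := isLocalization_quotient_map (F := F) P 𝔫 hP
  exact IsLocalization.isDomain_of_le_nonZeroDivisors (R := R ⧸ P) _
    (Ideal.primeCompl_le_nonZeroDivisors (𝔫.map (Ideal.Quotient.mk P)))

/-- **(B2')** `R_𝔫 ⧸ P R_𝔫` is a discrete valuation ring for primes `P < 𝔫` with `R ⧸ P` Dedekind. -/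
theorem isDiscreteValuationRing_quotient_map (P 𝔫 : Ideal R) [hPp : P.IsPrime] [𝔫.IsPrime]
    (hP : P ≤ 𝔫) (hne : P ≠ 𝔫) (hD : IsDedekindDomain (R ⧸ P)) :
    @IsDiscreteValuationRing (locAt (F := F) 𝔫 ⧸ P.map (algebraMap R (locAt (F := F) 𝔫))) _
      (isDomain_quotient_map (F := F) P 𝔫 hP) := by
  haveI := hD
  haveI := isDomain_quotient_map (F := F) P 𝔫 hP
  haveI := isPrime_map_mk P 𝔫 hP
  haveI hloc := isLocalization_quotient_map (F := F) P 𝔫 hP
  have hne' : 𝔫.map (Ideal.Quotient.mk P) ≠ ⊥ := by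
    intro h0
    apply hne
    apply le_antisymm hP
    intro x hx
    have : Ideal.Quotient.mk P x ∈ 𝔫.map (Ideal.Quotient.mk P) := Ideal.mem_map_of_mem _ hx
    rw [h0, Ideal.mem_bot] at this
    exact Ideal.Quotient.eq_zero_iff_mem.1 this
  exact IsLocalization.AtPrime.isDiscreteValuationRing_of_dedekind_domain (R ⧸ P) hne' _

end B2

/-! ### (B3) the centre of a valuation ring on the local ring of a point -/

section B3

variable {R F : Type*} [CommRing R] [IsDomain R] [Field F] [Algebra R F] [IsFractionRing R F]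

/-- A valuation ring `V ⊇ R` whose centre is contained in `𝔫` contains `R_𝔫`. -/
theorem mem_of_mem_locAt (V : ValuationSubring F) (hV : ∀ r : R, algebraMap R F r ∈ V)
    (𝔫 : Ideal R) [𝔫.IsPrime] (hle : vCentre V hV ≤ 𝔫) {y : F} (hy : y ∈ locAt (F := F) 𝔫) :
    y ∈ V := by
  obtain ⟨a, t, ht, hyt⟩ := (mem_locAt_iff 𝔫 y).1 hy
  have h1 : V.valuation (algebraMap R F t) = 1 :=
    valuation_eq_one_of_notMem_vCentre V hV (fun h => ht (hle h))
  rw [← V.valuation_le_one_iff]
  have := congrArg V.valuation hyt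
  rw [map_mul, h1, mul_one] at this
  rw [this]
  exact (V.valuation_le_one_iff _).2 (hV a)

/-- `R_𝔫 ⊆ V`, in the form used by `LocalRoot.centre`. -/
theorem algebraMap_locAt_mem (V : ValuationSubring F) (hV : ∀ r : R, algebraMap R F r ∈ V)
    (𝔫 : Ideal R) [𝔫.IsPrime] (hle : vCentre V hV ≤ 𝔫) (b : locAt (F := F) 𝔫) :
    algebraMap (locAt (F := F) 𝔫) F b ∈ V :=
  mem_of_mem_locAt V hV 𝔫 hle b.2

/-- **(B3)** The centre of `V` on `R_𝔫` is the extension of its centre on `R`. -/
theorem map_vCentre_eq_centre (V : ValuationSubring F) (hV : ∀ r : R, algebraMap R F r ∈ V)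
    (𝔫 : Ideal R) [𝔫.IsPrime] (hle : vCentre V hV ≤ 𝔫) :
    (vCentre V hV).map (algebraMap R (locAt (F := F) 𝔫)) =
      LocalRoot.centre V (algebraMap_locAt_mem V hV 𝔫 hle) := by
  apply le_antisymm
  · rw [Ideal.map_le_iff_le_comap]
    intro r hr
    rw [Ideal.mem_comap, LocalRoot.mem_centre]
    exact (mem_vCentre_iff V hV).1 hr
  · intro b hb
    rw [LocalRoot.mem_centre] at hb
    obtain ⟨a, t, ht, hbt⟩ := (mem_locAt_iff 𝔫 (b : F)).1 b.2
    have ha : a ∈ vCentre V hV := by
      rw [mem_vCentre_iff, ← hbt]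
      exact LocalRoot.nu_mul' V hb (hV t)
    have ht0 := algebraMap_ne_zero_of_notMem (F := F) 𝔫 ht
    have hb' : b = algebraMap R (locAt (F := F) 𝔫) a *
        ⟨(algebraMap R F t)⁻¹, inv_mem_locAt 𝔫 ht⟩ := by
      apply Subtype.ext
      rw [MulMemClass.coe_mul]
      show (b : F) = algebraMap R F a * (algebraMap R F t)⁻¹
      rw [← hbt, mul_assoc, mul_inv_cancel₀ ht0, mul_one]
    rw [hb']
    exact Ideal.mul_mem_right _ _ (Ideal.mem_map_of_mem _ ha)

variable [IsNoetherianRing R]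

/-- **`(I-R)(R-b)`**: if `R ⧸ vCentre V` is a Dedekind domain, then `R_𝔫 ⧸ centre V` is a principal
ideal ring at EVERY prime `𝔫` containing the centre of `V`. -/
theorem isPrincipalIdealRing_quotient_centre (V : ValuationSubring F)
    (hV : ∀ r : R, algebraMap R F r ∈ V) (𝔫 : Ideal R) [𝔫.IsPrime] (hle : vCentre V hV ≤ 𝔫)
    (hD : IsDedekindDomain (R ⧸ vCentre V hV)) :
    IsPrincipalIdealRing
      (locAt (F := F) 𝔫 ⧸ LocalRoot.centre V (algebraMap_locAt_mem V hV 𝔫 hle)) := by
  rw [← map_vCentre_eq_centre V hV 𝔫 hle]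
  exact isPrincipalIdealRing_quotient_map (F := F) (vCentre V hV) 𝔫 hle hD

/-- **`(I-R)(R-b)`, from a residue map**: `res : R → κ` with kernel the centre of `V` and image a
Dedekind subring `S` of `κ`. -/
theorem isPrincipalIdealRing_quotient_centre_of_res (V : ValuationSubring F)
    (hV : ∀ r : R, algebraMap R F r ∈ V) (𝔫 : Ideal R) [𝔫.IsPrime] (hle : vCentre V hV ≤ 𝔫)
    {κ : Type*} [Field κ] {res : R →+* κ} {S : Subring κ} [IsDedekindDomain S]
    (hker : RingHom.ker res = vCentre V hV) (hmem : ∀ r : R, res r ∈ S)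
    (hsurj : ∀ s ∈ S, ∃ r : R, res r = s) :
    IsPrincipalIdealRing
      (locAt (F := F) 𝔫 ⧸ LocalRoot.centre V (algebraMap_locAt_mem V hV 𝔫 hle)) :=
  isPrincipalIdealRing_quotient_centre V hV 𝔫 hle (isDedekindDomain_quotient hmem hsurj hker)

/-- **`(I-R)(R-b)`, from integrality**: `γ : R₀ → R` with `R` integral over `γ R₀`, `res : R → κ`
with kernel the centre of `V`, `S = res (γ R₀)` a Dedekind subring of `κ` whose fraction field
contains `res R` (residue degree one along `γ`). -/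
theorem isPrincipalIdealRing_quotient_centre_of_isIntegral (V : ValuationSubring F)
    (hV : ∀ r : R, algebraMap R F r ∈ V) (𝔫 : Ideal R) [𝔫.IsPrime] (hle : vCentre V hV ≤ 𝔫)
    {κ R₀ : Type*} [Field κ] [CommRing R₀] (γ : R₀ →+* R) {res : R →+* κ} {S : Subring κ}
    [IsDedekindDomain S] (hker : RingHom.ker res = vCentre V hV)
    (hS : ∀ x : κ, x ∈ S ↔ ∃ r₀ : R₀, res (γ r₀) = x) (hint : ∀ r : R, γ.IsIntegralElem r)
    (hfrac : ∀ r : R, ∃ a ∈ S, ∃ b ∈ S, b ≠ 0 ∧ res r * b = a) :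
    IsPrincipalIdealRing
      (locAt (F := F) 𝔫 ⧸ LocalRoot.centre V (algebraMap_locAt_mem V hV 𝔫 hle)) := by
  have hS' : ∀ r₀ : R₀, res (γ r₀) ∈ S := fun r₀ => (hS _).2 ⟨r₀, rfl⟩
  refine isPrincipalIdealRing_quotient_centre_of_res V hV 𝔫 hle hker
    (res_mem γ res S hS' hint hfrac) ?_
  intro s hs
  obtain ⟨r₀, hr₀⟩ := (hS s).1 hs
  exact ⟨γ r₀, hr₀⟩

end B3

end Fermat.Agent.S36.One.BranchDedekind
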