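/-
S36 leaf [BRANCH] (helper6), concrete part: **the branches of the charts of level `q² M0'` are the
Dedekind reductions `RbarFin / RbarInf K N O` of the base level `N = M0'`.**

`N` a level of good reduction (`hN`, `hprime`, `hDed`, `hA2` exactly as in `P3G/TwoComponentsB`),
`R = chartAlg O F {s}` ANY chart of ANY `O`-algebra field `F` (application: `F = FF K (N q²)`,
`s = j` resp. `j⁻¹`), `Θ : R →+* κ((Q))` a residue map (`Θ = ev_i` restricted to the chart, for one of
the vertical valuation rings `V20`, `V11`, `V02`).  `BranchFin` / `BranchInf` record the four facts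
needed:

* `const` : `Θ` reduces the constants;
* `gen`   : `Θ s = j̄ ^ n` (`n = 1` on `C20`, `C11`; `n = q²` on `C02`), resp. `(j̄⁻¹) ^ n`;
* `range` : `Θ` only takes values of `θ_N` on `G_N` (RESIDUE DEGREE ONE over the Gauss ring of
  level `N` — the `[V]` input, SecondVal style);
* `lift`  : every value of `θ_N` on the base chart is a value of `Θ` (`Θ ∘ γ = θ_N`, `γ = α∘α`
  resp. `β∘β` on charts).

Conclusions: `Θ R = RbarFin K N O` (`mem_rbar`, `surj`), `R ⧸ ker Θ` is a Dedekind domain, and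
`(I-R)(R-b)`: `R_𝔫 ⧸ centre V` is a principal ideal ring at EVERY prime `𝔫 ⊇ vCentre V = ker Θ`.
-/
import Mathlib
import Fermat.Agent.P3G.TwoComponentsB
import Fermat.Agent.P3G.TwoComponentsInfB2
import Fermat.Agent.S36.One.BranchDedekind

set_option autoImplicit false
set_option linter.unusedSectionVars false
set_option linter.style.haveILetI false

open ModularCurve Fermat.Agent.S28.Gauss Fermat.Agent.N4.Setting Fermat.Agent.N4.FibreEmbedding
open Fermat.Agent.N4.Chart Fermat.Agent.N4.IntClosure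
open Fermat.Agent.N4F.E.GaussDVR Polynomial
open Fermat.Agent.N4F.E IsLocalRing Fermat.Agent.P3G.RbarFin Fermat.Agent.P3G.RbarInf
open Fermat.Agent.N4.Cover.Globalize Fermat.Agent.P3G.Krull Fermat.Agent.S36.Local
open Fermat.Agent.S36.One.BranchDedekind

noncomputable section

namespace Fermat.Agent.S36.One.BranchInst

variable (K : Type) [Field K] [CharZero K] (N : ℕ) [NeZero N]
  (O : Subring K) [IsDiscreteValuationRing ↥O] [IsFractionRing ↥O K]

set_option quotPrecheck false in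
local notation "κ" => IsLocalRing.ResidueField ↥O

variable {F : Type*} [Field F] [Algebra ↥O F] {s : F}

/-! ### The finite chart -/

section Fin

/-- A residue map `Θ` on a chart `chartAlg O F {s}` which identifies the corresponding branch with
the special fibre of the finite chart of the good level `N`. -/
structure BranchFin (Θ : ↥(chartAlg ↥O F {s}) →+* LaurentSeries κ) : Prop where
  const : ∀ a : ↥O, Θ (algebraMap ↥O ↥(chartAlg ↥O F {s}) a) =
    HahnSeries.C (IsLocalRing.residue ↥O a)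
  gen : ∃ n : ℕ, Θ (chartGen (Set.mem_singleton s)) = jqModC κ ^ n
  range : ∀ r : ↥(chartAlg ↥O F {s}), ∃ a : ↥(gaussSubalgebra K N O), Θ r = theta K N O a
  lift : ∀ r₀ : ↥(Rfin K N O), ∃ r : ↥(chartAlg ↥O F {s}), Θ r = thetaFin K N O r₀

variable (hN : IsUnit ((N : ℕ) : ↥O))
  (hprime : (fibreIdeal K N O (Rfin K N O)).IsPrime)
  (hDed : IsDedekindDomain (↥(Rfin K N O) ⧸ fibreIdeal K N O (Rfin K N O)))
  (hA2 : ∀ x : ↥(gaussSubalgebra K N O),
    theta K N O x ∈ modularFunctionFieldFullC (IsLocalRing.ResidueField ↥O) N)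
  {Θ : ↥(chartAlg ↥O F {s}) →+* LaurentSeries (IsLocalRing.ResidueField ↥O)}

include hN hprime hDed hA2 in
/-- `Θ R ⊆ RbarFin K N O`. -/
theorem BranchFin.mem_rbar (h : BranchFin K N O (F := F) (s := s) Θ) (r : ↥(chartAlg ↥O F {s})) :
    Θ r ∈ RbarFin K N O := by
  obtain ⟨a, ha⟩ := h.range r
  obtain ⟨n, hn⟩ := h.gen
  have h1 := Fermat.Agent.P3G.TwoComponentsB.isIntegralElem_map_chart
    (HahnSeries.C : κ →+* LaurentSeries κ) Θ h.const r
  have hg : Θ (chartGen (Set.mem_singleton s)) =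
      ((jF κ N ^ n : FF κ N) : LaurentSeries κ) := hn
  rw [hg, ha] at h1
  rw [ha]
  exact Fermat.Agent.P3G.TwoComponentsB.theta_mem_rbarFin_of_isIntegralElem K N O hN hprime hDed
    hA2 a (W := jF κ N ^ n)
    (Subalgebra.pow_mem _ (subset_chartAlg _ (Set.mem_singleton _)) n) h1

/-- `RbarFin K N O ⊆ Θ R`. -/
theorem BranchFin.surj (h : BranchFin K N O (F := F) (s := s) Θ) (x : LaurentSeries κ) (hx : x ∈ RbarFin K N O) :
    ∃ r : ↥(chartAlg ↥O F {s}), Θ r = x := by
  obtain ⟨r₀, rfl⟩ := hx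
  exact h.lift r₀

include hN hprime hDed hA2 in
/-- The branch `R ⧸ ker Θ` is a Dedekind domain. -/
theorem BranchFin.isDedekindDomain_quotient (h : BranchFin K N O (F := F) (s := s) Θ)
    {P : Ideal ↥(chartAlg ↥O F {s})} (hP : RingHom.ker Θ = P) :
    IsDedekindDomain (↥(chartAlg ↥O F {s}) ⧸ P) := by
  haveI : IsDedekindDomain ↥(RbarFin K N O) := isDedekindDomain_RbarFin K N O hprime hDed
  exact BranchDedekind.isDedekindDomain_quotient (S := RbarFin K N O)
    (h.mem_rbar K N O hN hprime hDed hA2) (h.surj K N O) hP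

include hN hprime hDed hA2 in
/-- **`(I-R)(R-b)` on a finite-type branch**: at every prime `𝔫` of the chart containing the centre
of `V`, the quotient of `R_𝔫` by the centre of `V` is a principal ideal ring. -/
theorem BranchFin.isPrincipalIdealRing [IsFractionRing ↥(chartAlg ↥O F {s}) F]
    [IsNoetherianRing ↥(chartAlg ↥O F {s})] (h : BranchFin K N O (F := F) (s := s) Θ)
    (V : ValuationSubring F) (hV : ∀ r : ↥(chartAlg ↥O F {s}), algebraMap _ F r ∈ V)
    (hker : RingHom.ker Θ = vCentre V hV) (𝔫 : Ideal ↥(chartAlg ↥O F {s})) [𝔫.IsPrime]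
    (hle : vCentre V hV ≤ 𝔫) :
    IsPrincipalIdealRing
      (locAt (F := F) 𝔫 ⧸ LocalRoot.centre V (algebraMap_locAt_mem V hV 𝔫 hle)) :=
  isPrincipalIdealRing_quotient_centre V hV 𝔫 hle
    (h.isDedekindDomain_quotient K N O hN hprime hDed hA2 hker)

end Fin

/-! ### The chart at infinity -/

section Inf

/-- The same at infinity: `Θ s = (j̄⁻¹) ^ n`, values in `RbarInf K N O`. -/
structure BranchInf (Θ : ↥(chartAlg ↥O F {s}) →+* LaurentSeries κ) : Prop where
  const : ∀ a : ↥O, Θ (algebraMap ↥O ↥(chartAlg ↥O F {s}) a) =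
    HahnSeries.C (IsLocalRing.residue ↥O a)
  gen : ∃ n : ℕ, Θ (chartGen (Set.mem_singleton s)) = (jqModC κ)⁻¹ ^ n
  range : ∀ r : ↥(chartAlg ↥O F {s}), ∃ a : ↥(gaussSubalgebra K N O), Θ r = theta K N O a
  lift : ∀ r₀ : ↥(Rinf K N O), ∃ r : ↥(chartAlg ↥O F {s}), Θ r = thetaInf K N O r₀

variable (hN : IsUnit ((N : ℕ) : ↥O))
  (hprimeInf : (fibreIdeal K N O (Rinf K N O)).IsPrime)
  (hDedInf : IsDedekindDomain (↥(Rinf K N O) ⧸ fibreIdeal K N O (Rinf K N O)))
  (hA2 : ∀ x : ↥(gaussSubalgebra K N O),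
    theta K N O x ∈ modularFunctionFieldFullC (IsLocalRing.ResidueField ↥O) N)
  {Θ : ↥(chartAlg ↥O F {s}) →+* LaurentSeries (IsLocalRing.ResidueField ↥O)}

include hN hprimeInf hDedInf hA2 in
/-- `Θ R ⊆ RbarInf K N O`. -/
theorem BranchInf.mem_rbar (h : BranchInf K N O (F := F) (s := s) Θ) (r : ↥(chartAlg ↥O F {s})) :
    Θ r ∈ RbarInf K N O := by
  obtain ⟨a, ha⟩ := h.range r
  obtain ⟨n, hn⟩ := h.gen
  have h1 := Fermat.Agent.P3G.TwoComponentsB.isIntegralElem_map_chart
    (HahnSeries.C : κ →+* LaurentSeries κ) Θ h.const r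
  have hg : Θ (chartGen (Set.mem_singleton s)) =
      (((jF κ N)⁻¹ ^ n : FF κ N) : LaurentSeries κ) := hn
  rw [hg, ha] at h1
  rw [ha]
  exact Fermat.Agent.P3G.TwoComponentsInfB2.theta_mem_rbarInf_of_isIntegralElem K N O hN hprimeInf
    hDedInf hA2 a (W := (jF κ N)⁻¹ ^ n)
    (Subalgebra.pow_mem _ (subset_chartAlg _ (Set.mem_singleton _)) n) h1

/-- `RbarInf K N O ⊆ Θ R`. -/
theorem BranchInf.surj (h : BranchInf K N O (F := F) (s := s) Θ) (x : LaurentSeries κ) (hx : x ∈ RbarInf K N O) :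
    ∃ r : ↥(chartAlg ↥O F {s}), Θ r = x := by
  obtain ⟨r₀, rfl⟩ := hx
  exact h.lift r₀

include hN hprimeInf hDedInf hA2 in
/-- The branch `R ⧸ ker Θ` is a Dedekind domain. -/
theorem BranchInf.isDedekindDomain_quotient (h : BranchInf K N O (F := F) (s := s) Θ)
    {P : Ideal ↥(chartAlg ↥O F {s})} (hP : RingHom.ker Θ = P) :
    IsDedekindDomain (↥(chartAlg ↥O F {s}) ⧸ P) := by
  haveI : IsDedekindDomain ↥(RbarInf K N O) := isDedekindDomain_RbarInf K N O hprimeInf hDedInf
  exact BranchDedekind.isDedekindDomain_quotient (S := RbarInf K N O)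
    (h.mem_rbar K N O hN hprimeInf hDedInf hA2) (h.surj K N O) hP

include hN hprimeInf hDedInf hA2 in
/-- **`(I-R)(R-b)` on a branch of a chart at infinity.** -/
theorem BranchInf.isPrincipalIdealRing [IsFractionRing ↥(chartAlg ↥O F {s}) F]
    [IsNoetherianRing ↥(chartAlg ↥O F {s})] (h : BranchInf K N O (F := F) (s := s) Θ)
    (V : ValuationSubring F) (hV : ∀ r : ↥(chartAlg ↥O F {s}), algebraMap _ F r ∈ V)
    (hker : RingHom.ker Θ = vCentre V hV) (𝔫 : Ideal ↥(chartAlg ↥O F {s})) [𝔫.IsPrime]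
    (hle : vCentre V hV ≤ 𝔫) :
    IsPrincipalIdealRing
      (locAt (F := F) 𝔫 ⧸ LocalRoot.centre V (algebraMap_locAt_mem V hV 𝔫 hle)) :=
  isPrincipalIdealRing_quotient_centre V hV 𝔫 hle
    (h.isDedekindDomain_quotient K N O hN hprimeInf hDedInf hA2 hker)

end Inf

end Fermat.Agent.S36.One.BranchInst
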