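/-
S36 leaf [BRANCH] (helper6), adapter: **from a vertical valuation ring in `SecondVal` style to
`BranchFin` / `BranchInf`.**

`V` a valuation subring of an `O`-algebra field `F` (application: one of `V20`, `V11`, `V02` of
`F = FF K (N q²)`), `ev : ↥V →+* κ((Q))` its place (`ev y = 0 ↔ y ∈ 𝔪_V`), `γ : FF K N →+* F` a
degeneracy map (`α∘α` resp. `β∘β`) with `γ G_N ⊆ V`, `ev ∘ γ = θ_N` on `G_N`, and RESIDUE DEGREE ONE
in the valuation form of `FibreTwo.SecondVal.deg_one` / `CountEF.deg_one`: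
`∀ y ∈ V, ∃ a ∈ G_N, y - γ a ∈ 𝔪_V`.

* `deg_one_comp` : residue degree one is transitive along a tower `F₀ → F₁ → F₂`;
* `ev_eq_theta_of_deg_one` : `ev` only takes values of `θ_N`;
* `branchFin_of_deg_one` / `branchInf_of_deg_one` : the structures of `One/BranchInst`;
* `ker_evChart` : `ker (ev ∘ incl) = vCentre V`;
* `BranchFin.not_isField_quotient`, `BranchInf.not_isField_quotient` : the branch is not a field
  (the `hnf` of `OneBranch.one_branch` / `Cusp.Regular.cusp_branch`).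
-/
import Mathlib
import Fermat.Agent.S36.One.BranchInst

set_option autoImplicit false
set_option linter.unusedSectionVars false
set_option linter.style.haveILetI false

open ModularCurve Fermat.Agent.S28.Gauss Fermat.Agent.N4.Setting Fermat.Agent.N4.FibreEmbedding
open Fermat.Agent.N4.Chart Fermat.Agent.N4.IntClosure
open Fermat.Agent.N4F.E.DegreeLevelRaise Fermat.Agent.N4F.E.GaussDVR Polynomial
open Fermat.Agent.N4F.E IsLocalRing Fermat.Agent.P3G.RbarFin Fermat.Agent.P3G.RbarInf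
open Fermat.Agent.N4.Cover.Globalize Fermat.Agent.P3G.Krull Fermat.Agent.S36.Local
open Fermat.Agent.S36.One.BranchDedekind Fermat.Agent.S36.One.BranchInst

noncomputable section

namespace Fermat.Agent.S36.One.BranchOfVal

/-! ### Residue degree one is transitive -/

section Tower

variable {F₀ F₁ F₂ : Type*} [Field F₀] [Field F₁] [Field F₂]

/-- A nonzero element is a non-unit of `V` iff its inverse is not in `V`. -/
theorem mem_nonunits_iff_inv_notMem {F : Type*} [Field F] (V : ValuationSubring F) {x : F}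
    (hx : x ≠ 0) : x ∈ V.nonunits ↔ x⁻¹ ∉ V := by
  rw [ValuationSubring.mem_nonunits_iff, ← V.valuation_le_one_iff, map_inv₀, not_le]
  have hv : V.valuation x ≠ 0 := (Valuation.ne_zero_iff _).2 hx
  rw [one_lt_inv₀ (zero_lt_iff.2 hv)]

/-- The non-units of a comap. -/
theorem mem_nonunits_comap_iff (V₂ : ValuationSubring F₂) (φ : F₁ →+* F₂) (x : F₁) :
    x ∈ (V₂.comap φ).nonunits ↔ φ x ∈ V₂.nonunits := by
  by_cases hx : x = 0
  · subst hx
    rw [map_zero]
    exact ⟨fun _ => V₂.nonunits.zero_mem, fun _ => (V₂.comap φ).nonunits.zero_mem⟩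
  · have hφx : φ x ≠ 0 := (map_ne_zero φ).2 hx
    rw [mem_nonunits_iff_inv_notMem _ hx, mem_nonunits_iff_inv_notMem _ hφx,
      ValuationSubring.mem_comap, map_inv₀]

/-- Residue degree one along `ψ : F₀ → F₁` (over the subring `G₀`) and along `φ : F₁ → F₂` compose. -/
theorem deg_one_comp (G₀ : Subring F₀) (V₁ : ValuationSubring F₁) (V₂ : ValuationSubring F₂)
    (ψ : F₀ →+* F₁) (φ : F₁ →+* F₂) (hcomap : V₂.comap φ = V₁)
    (h₁ : ∀ y ∈ V₁, ∃ a ∈ G₀, y - ψ a ∈ V₁.nonunits)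
    (h₂ : ∀ y ∈ V₂, ∃ b ∈ V₁, y - φ b ∈ V₂.nonunits) :
    ∀ y ∈ V₂, ∃ a ∈ G₀, y - (φ.comp ψ) a ∈ V₂.nonunits := by
  intro y hy
  obtain ⟨b, hb, hyb⟩ := h₂ y hy
  obtain ⟨a, ha, hba⟩ := h₁ b hb
  refine ⟨a, ha, ?_⟩
  have h3 : φ (b - ψ a) ∈ V₂.nonunits :=
    (mem_nonunits_comap_iff V₂ φ (b - ψ a)).1 (by rw [hcomap]; exact hba)
  have : y - (φ.comp ψ) a = (y - φ b) + φ (b - ψ a) := by
    rw [RingHom.comp_apply, map_sub]; ring
  rw [this]
  exact V₂.nonunits.add_mem hyb h3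

end Tower

variable (K : Type) [Field K] [CharZero K] (N : ℕ) [NeZero N]
  (O : Subring K) [IsDiscreteValuationRing ↥O] [IsFractionRing ↥O K]

set_option quotPrecheck false in
local notation "κ" => IsLocalRing.ResidueField ↥O

variable {F : Type*} [Field F] [Algebra ↥O F] {s : F}

/-! ### From a place to a residue map on the chart -/

section Place

variable (V : ValuationSubring F)
  (ev : ↥V →+* LaurentSeries (IsLocalRing.ResidueField ↥O))
  (hker : ∀ y : ↥V, ev y = 0 ↔ (y : F) ∈ V.nonunits)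
  (hRV : ∀ r : ↥(chartAlg ↥O F {s}), algebraMap ↥(chartAlg ↥O F {s}) F r ∈ V)
  (γ : FF K N →+* F)
  (hγV : ∀ x ∈ gaussSubalgebra K N O, γ x ∈ V)
  (hevγ : ∀ (x : FF K N) (hx : x ∈ gaussSubalgebra K N O),
    ev ⟨γ x, hγV x hx⟩ = theta K N O ⟨x, hx⟩)
  (hdeg : ∀ y ∈ V, ∃ a : ↥(gaussSubalgebra K N O), y - γ (a : FF K N) ∈ V.nonunits)
  (hγO : ∀ a : ↥O, γ ((algebraMap ↥O ↥(gaussSubalgebra K N O) a : ↥(gaussSubalgebra K N O)) :
    FF K N) = algebraMap ↥O F a)

/-- The chart, inside `V`. -/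
def inclV (O : Subring K) {F : Type*} [Field F] [Algebra ↥O F] {s : F} (V : ValuationSubring F)
    (hRV : ∀ r : ↥(chartAlg ↥O F {s}), algebraMap ↥(chartAlg ↥O F {s}) F r ∈ V) : ↥(chartAlg ↥O F {s}) →+* ↥V :=
  (chartAlg ↥O F {s}).val.toRingHom.codRestrict V.toSubring hRV

/-- The place of `V`, restricted to the chart. -/
def evChart (O : Subring K) [IsDiscreteValuationRing ↥O] {F : Type*} [Field F] [Algebra ↥O F]
    {s : F} (V : ValuationSubring F)
    (ev : ↥V →+* LaurentSeries (IsLocalRing.ResidueField ↥O))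
    (hRV : ∀ r : ↥(chartAlg ↥O F {s}), algebraMap ↥(chartAlg ↥O F {s}) F r ∈ V) :
    ↥(chartAlg ↥O F {s}) →+* LaurentSeries (IsLocalRing.ResidueField ↥O) :=
  ev.comp (inclV K O V hRV)

theorem evChart_apply (r : ↥(chartAlg ↥O F {s})) :
    evChart K O V ev hRV r = ev ⟨(r : F), hRV r⟩ := rfl

include hker in
/-- `ker (ev ∘ incl) = vCentre V`. -/
theorem ker_evChart :
    RingHom.ker (evChart K O V ev hRV) = vCentre V hRV := by
  ext r
  rw [RingHom.mem_ker, evChart_apply, hker, mem_vCentre_iff]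
  rfl

include hker hevγ hdeg in
/-- Residue degree one: `ev` only takes values of `θ_N`. -/
theorem ev_eq_theta_of_deg_one (y : ↥V) :
    ∃ a : ↥(gaussSubalgebra K N O), ev y = theta K N O a := by
  obtain ⟨a, ha⟩ := hdeg (y : F) y.2
  refine ⟨a, ?_⟩
  have h1 : ev (y - ⟨γ (a : FF K N), hγV _ a.2⟩) = 0 := by
    rw [hker]; exact ha
  rw [map_sub, sub_eq_zero] at h1
  rw [h1, hevγ (a : FF K N) a.2]

include hker hevγ hdeg hγO in
/-- **`BranchFin` from a place in `SecondVal` style.** -/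
theorem branchFin_of_deg_one
    (hγR : ∀ r₀ : ↥(Rfin K N O), γ (r₀ : FF K N) ∈ chartAlg ↥O F {s})
    (hgen : ∃ n : ℕ, evChart K O V ev hRV (chartGen (Set.mem_singleton s)) = jqModC κ ^ n) :
    BranchFin K N O (evChart K O V ev hRV) where
  const a := by
    rw [evChart_apply]
    have h1 : ((algebraMap ↥O ↥(chartAlg ↥O F {s}) a : ↥(chartAlg ↥O F {s})) : F) =
        γ ((algebraMap ↥O ↥(gaussSubalgebra K N O) a : ↥(gaussSubalgebra K N O)) : FF K N) := by
      rw [hγO]; rfl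
    have h2 : (⟨((algebraMap ↥O ↥(chartAlg ↥O F {s}) a : ↥(chartAlg ↥O F {s})) : F),
          hRV (algebraMap ↥O ↥(chartAlg ↥O F {s}) a)⟩ : ↥V) =
        ⟨γ ((algebraMap ↥O ↥(gaussSubalgebra K N O) a : ↥(gaussSubalgebra K N O)) : FF K N),
          hγV _ (algebraMap ↥O ↥(gaussSubalgebra K N O) a).2⟩ := Subtype.ext h1
    rw [h2, hevγ]
    exact theta_algebraMap K N O a
  gen := hgen
  range r := ev_eq_theta_of_deg_one K N O V ev hker γ hγV hevγ hdeg _
  lift r₀ := by
    refine ⟨⟨γ (r₀ : FF K N), hγR r₀⟩, ?_⟩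
    rw [evChart_apply, thetaFin_apply]
    exact hevγ _ _

include hker hevγ hdeg hγO in
/-- **`BranchInf` from a place in `SecondVal` style.** -/
theorem branchInf_of_deg_one
    (hγR : ∀ r₀ : ↥(Rinf K N O), γ (r₀ : FF K N) ∈ chartAlg ↥O F {s})
    (hgen : ∃ n : ℕ, evChart K O V ev hRV (chartGen (Set.mem_singleton s)) = (jqModC κ)⁻¹ ^ n) :
    BranchInf K N O (evChart K O V ev hRV) where
  const a := by
    rw [evChart_apply]
    have h1 : ((algebraMap ↥O ↥(chartAlg ↥O F {s}) a : ↥(chartAlg ↥O F {s})) : F) =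
        γ ((algebraMap ↥O ↥(gaussSubalgebra K N O) a : ↥(gaussSubalgebra K N O)) : FF K N) := by
      rw [hγO]; rfl
    have h2 : (⟨((algebraMap ↥O ↥(chartAlg ↥O F {s}) a : ↥(chartAlg ↥O F {s})) : F),
          hRV (algebraMap ↥O ↥(chartAlg ↥O F {s}) a)⟩ : ↥V) =
        ⟨γ ((algebraMap ↥O ↥(gaussSubalgebra K N O) a : ↥(gaussSubalgebra K N O)) : FF K N),
          hγV _ (algebraMap ↥O ↥(gaussSubalgebra K N O) a).2⟩ := Subtype.ext h1
    rw [h2, hevγ]
    exact theta_algebraMap K N O a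
  gen := hgen
  range r := ev_eq_theta_of_deg_one K N O V ev hker γ hγV hevγ hdeg _
  lift r₀ := by
    refine ⟨⟨γ (r₀ : FF K N), hγR r₀⟩, ?_⟩
    rw [evChart_apply, thetaInf_apply]
    exact hevγ _ _

end Place

/-! ### The branch is not a field -/

section NotField

variable (hN : IsUnit ((N : ℕ) : ↥O))
  (hA2 : ∀ x : ↥(gaussSubalgebra K N O),
    theta K N O x ∈ modularFunctionFieldFullC (IsLocalRing.ResidueField ↥O) N)
  {Θ : ↥(chartAlg ↥O F {s}) →+* LaurentSeries (IsLocalRing.ResidueField ↥O)}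

include hN hA2 in
theorem _root_.Fermat.Agent.S36.One.BranchInst.BranchFin.not_isField_quotient
    (hprime : (fibreIdeal K N O (Rfin K N O)).IsPrime)
    (hDed : IsDedekindDomain (↥(Rfin K N O) ⧸ fibreIdeal K N O (Rfin K N O)))
    (h : BranchFin K N O (F := F) (s := s) Θ)
    {P : Ideal ↥(chartAlg ↥O F {s})} (hP : RingHom.ker Θ = P) :
    ¬ IsField (↥(chartAlg ↥O F {s}) ⧸ P) := by
  intro hf
  have e := BranchDedekind.quotientKerEquiv (S := RbarFin K N O)
    (h.mem_rbar K N O hN hprime hDed hA2) (h.surj K N O) hP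
  exact not_isField_RbarFin K N O hprime (e.symm.toMulEquiv.isField hf)

include hN hA2 in
theorem _root_.Fermat.Agent.S36.One.BranchInst.BranchInf.not_isField_quotient
    (hprimeInf : (fibreIdeal K N O (Rinf K N O)).IsPrime)
    (hDedInf : IsDedekindDomain (↥(Rinf K N O) ⧸ fibreIdeal K N O (Rinf K N O)))
    (h : BranchInf K N O (F := F) (s := s) Θ)
    {P : Ideal ↥(chartAlg ↥O F {s})} (hP : RingHom.ker Θ = P) :
    ¬ IsField (↥(chartAlg ↥O F {s}) ⧸ P) := by
  intro hf
  have e := BranchDedekind.quotientKerEquiv (S := RbarInf K N O)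
    (h.mem_rbar K N O hN hprimeInf hDedInf hA2) (h.surj K N O) hP
  exact not_isField_RbarInf K N O hprimeInf (e.symm.toMulEquiv.isField hf)

end NotField

end Fermat.Agent.S36.One.BranchOfVal
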