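/-
S36 block [ONE] (helper21), file 5: **the `lift` field of `BranchInf` for the component `C02` on the
chart at infinity** (and, more generally, lifting residues of functions integral over `O[1/j'']` to
the chart `{j ≠ 0}`).

On the chart at infinity `R = chartAlg O F {1/j}` of level `q² M₀'` the natural lift `β₂β₁ r₀` of an
element `r₀` of the chart at infinity of level `M₀'` is integral over `O[1/j'']`, NOT over `O[1/j]`
(there are points of characteristic `0` with `j'' = 0 ≠ j`), so it need not lie in `R`.  But: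

* `val_lt_one_of_evZ` : in a valuation ring of residue characteristic `q`, `Φ_q(x, y) = 0` and
  `v(y) < 1` force `v(x) < 1` (Kronecker's congruence `Φ_q ≡ (X^q - Y)(X - Y^q)`);
* `inv_mem_of_inv_mem` : hence for a local subring `B`, integrally closed in `F`, with `q ∈ 𝔪_B`:
  `1/j ∈ B ⟹ 1/j' ∈ B` (in characteristic `q`, `j = 0 ⟺ j' = 0`);
* `mem_locAt_of_mem_chartAlg` : so at every closed point `𝔫 ∋ q` of `R`, everything integral over
  `O[1/j'']` lies in `R_𝔫`;
* `exists_one_add_mul_mem` : a function lying in `R_𝔫` for ALL closed points `𝔫 ∋ π` can be multiplied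
  into `R` by an element `≡ 1` modulo `π`;
* `exists_lift` : therefore every `x ∈ V` integral over `O[1/j'']` is congruent modulo `𝔪_V` to an
  element of `R`, for every valuation ring `V ⊇ R` with `π ∈ 𝔪_V` — the `lift` field of
  `One/BranchInst.BranchInf` for `(R, V02)` with `x = β₂β₁ r₀`.
-/
import Mathlib
import Fermat.Agent.S36.Cusp.Regular
import Fermat.Agent.N4.Chart

set_option autoImplicit false
set_option linter.unusedSectionVars false
set_option linter.unusedVariables false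
set_option linter.style.haveILetI false

open Polynomial

namespace Fermat.Agent.S36.One.LiftInf

open Fermat.Agent.N4.Cover.Globalize Fermat.Agent.N4.Chart Fermat.Agent.P3G.Krull
open Fermat.Agent.N4.Kronecker Fermat.Agent.N4.ModPolyDescent Fermat.Agent.N4.ModPolyShape
open Fermat.Agent.S36.Cusp.Dichotomy Fermat.Agent.S36.Cusp.Package Fermat.Agent.S36.Cusp.Regular

/-! ### Kronecker's congruence in a valuation ring -/

section Val

variable {F : Type*} [Field F] (q : ℕ) [hq : Fact q.Prime]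

/-- **Kronecker's congruence in a valuation ring of residue characteristic `q`**: if
`Φ_q(x, y) = 0` with `x, y ∈ V` then `y^q ≡ x` or `y ≡ x^q` modulo `𝔪_V`. -/
theorem val_kronecker (V : ValuationSubring F) (hqV : V.valuation (q : F) < 1) {x y : F}
    (hx : x ∈ V) (hy : y ∈ V) (h : evZ x y (modPoly q) = 0) :
    V.valuation (y ^ q - x) < 1 ∨ V.valuation (y - x ^ q) < 1 := by
  set k := IsLocalRing.ResidueField ↥V with hk
  set res : ↥V →+* k := IsLocalRing.residue ↥V with hres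
  have hqm : ((q : ℕ) : ↥V) ∈ IsLocalRing.maximalIdeal ↥V := by
    rw [ValuationSubring.valuation_lt_one_iff]
    simpa using hqV
  haveI : CharP k q := by
    rw [CharP.charP_iff_prime_eq_zero hq.out]
    have h0 : res ((q : ℕ) : ↥V) = 0 := (IsLocalRing.residue_eq_zero_iff _).2 hqm
    rwa [map_natCast] at h0
  have h1 : evZ (⟨x, hx⟩ : ↥V) ⟨y, hy⟩ (modPoly q) = 0 := by
    apply Subtype.ext
    have := map_evZ V.subtype (⟨x, hx⟩ : ↥V) ⟨y, hy⟩ (modPoly q)
    rw [ZeroMemClass.coe_zero, ← h]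
    exact this
  have h2 : evZ (res ⟨x, hx⟩) (res ⟨y, hy⟩) (modPoly q) = 0 := by
    rw [← map_evZ, h1, map_zero]
  rw [evZ_modPoly_of_charP] at h2
  have hval : ∀ z : ↥V, res z = 0 → V.valuation (z : F) < 1 := fun z hz =>
    (ValuationSubring.valuation_lt_one_iff V z).1 ((IsLocalRing.residue_eq_zero_iff _).1 hz)
  rcases mul_eq_zero.1 h2 with h3 | h3
  · left
    have := hval (⟨y, hy⟩ ^ q - ⟨x, hx⟩) (by rw [map_sub, map_pow]; exact h3)
    simpa using this
  · right
    have := hval (⟨y, hy⟩ - ⟨x, hx⟩ ^ q) (by rw [map_sub, map_pow]; exact h3)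
    simpa using this

/-- In residue characteristic `q`: `Φ_q(x, y) = 0` and `v(y) < 1` imply `v(x) < 1`. -/
theorem val_lt_one_of_evZ (V : ValuationSubring F) (hqV : V.valuation (q : F) < 1) {x y : F}
    (h : evZ x y (modPoly q) = 0) (hy : V.valuation y < 1) : V.valuation x < 1 := by
  have hyV : y ∈ V := (V.valuation_le_one_iff y).1 hy.le
  have hxV : x ∈ V := mem_of_evZ_eq_zero V (modPoly_monic q) (evZ_modPoly_comm q h) hyV
  have hq0 : q ≠ 0 := hq.out.ne_zero
  rcases val_kronecker q V hqV hxV hyV h with h1 | h1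
  · -- `x = y^q - (y^q - x)`
    have hyq : V.valuation (y ^ q) < 1 := by
      rw [map_pow]; exact pow_lt_one' hy hq0
    have : x = y ^ q - (y ^ q - x) := by ring
    rw [this]
    exact lt_of_le_of_lt (Valuation.map_sub _ _ _) (max_lt hyq h1)
  · -- `x^q = y - (y - x^q)`
    have hxq : V.valuation (x ^ q) < 1 := by
      have : x ^ q = y - (y - x ^ q) := by ring
      rw [this]
      exact lt_of_le_of_lt (Valuation.map_sub _ _ _) (max_lt hy h1)
    by_contra hcon
    rw [not_lt] at hcon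
    rw [map_pow] at hxq
    exact absurd (one_le_pow₀ hcon) (not_le.2 hxq)

variable {B : LocalSubring F} [IsIntegrallyClosedIn B.toSubring F]

/-- **In characteristic `q`, `j = 0 ⟺ j' = 0`**, for a local subring integrally closed in `F`:
`1/j ∈ B ⟹ 1/j' ∈ B`. -/
theorem inv_mem_of_inv_mem (hqB : InMax B (q : F)) {j j' : F} (hj0 : j ≠ 0) (hj'0 : j' ≠ 0)
    (h : evZ j j' (modPoly q) = 0) (ha : j⁻¹ ∈ B.toSubring) : j'⁻¹ ∈ B.toSubring := by
  refine mem_of_forall_dominating fun V hV => ?_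
  by_contra hcon
  rw [not_le, map_inv₀, one_lt_inv₀ (zero_lt_iff.2 ((Valuation.ne_zero_iff _).2 hj'0))] at hcon
  have hqV : V.valuation (q : F) < 1 := valuation_lt_one_of_inMax hV hqB
  have hj : V.valuation j < 1 := val_lt_one_of_evZ q V hqV h hcon
  have hjinv : V.valuation j⁻¹ ≤ 1 := (V.valuation_le_one_iff _).2 (hV.1 ha)
  rw [map_inv₀, inv_le_one₀ (zero_lt_iff.2 ((Valuation.ne_zero_iff _).2 hj0))] at hjinv
  exact absurd hj (not_lt.2 hjinv)

/-- Two steps: `1/j ∈ B ⟹ 1/j'' ∈ B`. -/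
theorem inv_mem_of_inv_mem₂ (hqB : InMax B (q : F)) {j j' j'' : F} (hj0 : j ≠ 0) (hj'0 : j' ≠ 0)
    (hj''0 : j'' ≠ 0) (h₁ : evZ j j' (modPoly q) = 0) (h₂ : evZ j' j'' (modPoly q) = 0)
    (ha : j⁻¹ ∈ B.toSubring) : j''⁻¹ ∈ B.toSubring :=
  inv_mem_of_inv_mem q hqB hj'0 hj''0 h₂ (inv_mem_of_inv_mem q hqB hj0 hj'0 h₁ ha)

end Val

/-! ### Functions integral over `O[c]`, `c ∈ R_𝔫` -/

section Integral

variable {O : Type*} [CommRing O] {R F : Type*} [CommRing R] [IsDomain R] [IsNoetherianRing R]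
  [IsIntegrallyClosed R] [Field F] [Algebra R F] [IsFractionRing R F] [Algebra O R] [Algebra O F]
  [IsScalarTower O R F]

/-- Everything integral over `O[c]`, `c ∈ R_𝔫`, lies in `R_𝔫` (`R` integrally closed). -/
theorem mem_locAt_of_mem_chartAlg (𝔫 : Ideal R) [𝔫.IsPrime] {c : F} (hc : c ∈ locAt (F := F) 𝔫)
    {x : F} (hx : x ∈ chartAlg O F {c}) : x ∈ locAt (F := F) 𝔫 := by
  haveI := isIntegrallyClosedIn_locSub (F := F) 𝔫
  set S : Subring F := (locSub (F := F) 𝔫).toSubring with hS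
  have hle : ∀ y ∈ Algebra.adjoin O ({c} : Set F), y ∈ S := by
    intro y hy
    induction hy using Algebra.adjoin_induction with
    | mem z hz =>
      rw [Set.mem_singleton_iff] at hz
      rw [hz]; exact hc
    | algebraMap r =>
      rw [IsScalarTower.algebraMap_apply O R F]
      exact algebraMap_mem_locAt 𝔫 _
    | add y z _ _ hy hz => exact S.add_mem hy hz
    | mul y z _ _ hy hz => exact S.mul_mem hy hz
  let φ : ↥(Algebra.adjoin O ({c} : Set F)) →+* ↥S :=
    { toFun := fun y => ⟨y.1, hle y.1 y.2⟩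
      map_one' := rfl
      map_mul' := fun _ _ => rfl
      map_zero' := rfl
      map_add' := fun _ _ => rfl }
  have hint : IsIntegral ↥S x :=
    (mem_chartAlg_iff.1 hx).map_of_comp_eq φ (RingHom.id F) (by ext; rfl)
  obtain ⟨y, hy⟩ := IsIntegrallyClosedIn.algebraMap_eq_of_integral hint
  rw [← hy]
  exact y.2

end Integral

/-! ### Partition of unity modulo `π` -/

section Partition

variable {R F : Type*} [CommRing R] [IsDomain R] [Field F] [Algebra R F] [IsFractionRing R F]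

/-- The denominator ideal of `x ∈ F`. -/
def denomIdeal (x : F) : Ideal R where
  carrier := {a | ∃ r : R, algebraMap R F a * x = algebraMap R F r}
  add_mem' := by
    rintro a b ⟨r, hr⟩ ⟨s, hs⟩
    exact ⟨r + s, by rw [map_add, add_mul, hr, hs, map_add]⟩
  zero_mem' := ⟨0, by rw [map_zero, zero_mul]⟩
  smul_mem' := by
    rintro c a ⟨r, hr⟩
    exact ⟨c * r, by rw [smul_eq_mul, map_mul, mul_assoc, hr, map_mul]⟩

theorem mem_denomIdeal {x : F} {a : R} :
    a ∈ denomIdeal (R := R) x ↔ ∃ r : R, algebraMap R F a * x = algebraMap R F r := Iff.rfl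

/-- **Partition of unity.**  If `x` lies in `R_𝔫` for every closed point `𝔫 ∋ π`, then `(1 + π c) x ∈ R`
for some `c ∈ R`. -/
theorem exists_one_add_mul_mem (π : R) {x : F}
    (hx : ∀ (𝔫 : Ideal R) [𝔫.IsPrime], 𝔫.IsMaximal → π ∈ 𝔫 → x ∈ locAt (F := F) 𝔫) :
    ∃ c r : R, (1 + algebraMap R F π * algebraMap R F c) * x = algebraMap R F r := by
  have htop : denomIdeal (R := R) x ⊔ Ideal.span {π} = ⊤ := by
    by_contra hne
    obtain ⟨𝔫, h𝔫, hle⟩ := Ideal.exists_le_maximal _ hne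
    haveI := h𝔫.isPrime
    have hπ : π ∈ 𝔫 := hle (Ideal.mem_sup_right (Ideal.mem_span_singleton_self π))
    obtain ⟨a, s, hs, hxs⟩ := (mem_locAt_iff 𝔫 x).1 (hx 𝔫 h𝔫 hπ)
    apply hs
    apply hle
    apply Ideal.mem_sup_left
    exact ⟨a, by rw [mul_comm]; exact hxs⟩
  have h1 : (1 : R) ∈ denomIdeal (R := R) x ⊔ Ideal.span {π} := by rw [htop]; trivial
  obtain ⟨a, ha, b, hb, hab⟩ := Submodule.mem_sup.1 h1
  obtain ⟨c', rfl⟩ := Ideal.mem_span_singleton'.1 hb
  obtain ⟨r, hr⟩ := ha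
  refine ⟨-c', r, ?_⟩
  rw [← hr]
  have : a = 1 - c' * π := by rw [← hab]; ring
  rw [this, map_sub, map_one, map_mul, map_neg]
  ring

end Partition

/-! ### The lift -/

section Lift

variable {O : Type*} [CommRing O] {R F : Type*} [CommRing R] [IsDomain R] [IsNoetherianRing R]
  [IsIntegrallyClosed R] [Field F] [Algebra R F] [IsFractionRing R F] [Algebra O R] [Algebra O F]
  [IsScalarTower O R F]
variable (q : ℕ) [hq : Fact q.Prime] (π : R) (hπq : algebraMap R F π = (q : F))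
  {j j' j'' : F} (hj0 : j ≠ 0) (hj'0 : j' ≠ 0) (hj''0 : j'' ≠ 0)
  (h₁ : evZ j j' (modPoly q) = 0) (h₂ : evZ j' j'' (modPoly q) = 0)
  (a : R) (haj : algebraMap R F a = j⁻¹)

include hπq hj0 hj'0 hj''0 h₁ h₂ haj in
/-- At every closed point `𝔫 ∋ π` of the chart `{j ≠ 0}`: `1/j'' ∈ R_𝔫`. -/
theorem inv_mem_locAt (𝔫 : Ideal R) [𝔫.IsPrime] (hπ𝔫 : π ∈ 𝔫) : j''⁻¹ ∈ locAt (F := F) 𝔫 := by
  haveI := isIntegrallyClosedIn_locSub (F := F) 𝔫
  have hqB : InMax (locSub (F := F) 𝔫) (q : F) := by rw [← hπq]; exact inMax_of_mem 𝔫 hπ𝔫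
  have ha : j⁻¹ ∈ (locSub (F := F) 𝔫).toSubring := by
    rw [← haj]; exact algebraMap_mem_locAt 𝔫 a
  exact inv_mem_of_inv_mem₂ q hqB hj0 hj'0 hj''0 h₁ h₂ ha

include hπq hj0 hj'0 hj''0 h₁ h₂ haj in
/-- **A function integral over `O[1/j'']` becomes an element of the chart `{j ≠ 0}` after
multiplication by an element `≡ 1` modulo `π`.** -/
theorem exists_one_add_mul_mem_of_mem_chartAlg {x : F} (hx : x ∈ chartAlg O F {j''⁻¹}) :
    ∃ c r : R, (1 + algebraMap R F π * algebraMap R F c) * x = algebraMap R F r :=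
  exists_one_add_mul_mem π fun 𝔫 _ _ hπ𝔫 =>
    mem_locAt_of_mem_chartAlg (O := O) 𝔫
      (inv_mem_locAt q π hπq hj0 hj'0 hj''0 h₁ h₂ a haj 𝔫 hπ𝔫) hx

include hπq hj0 hj'0 hj''0 h₁ h₂ haj in
/-- **The lift**: for a valuation ring `V ⊇ R` with `π ∈ 𝔪_V`, every `x ∈ V` integral over `O[1/j'']`
is congruent modulo `𝔪_V` to an element of `R`. -/
theorem exists_lift (V : ValuationSubring F) (hV : ∀ r : R, algebraMap R F r ∈ V)
    (hπV : algebraMap R F π ∈ V.nonunits) {x : F} (hxV : x ∈ V)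
    (hx : x ∈ chartAlg O F {j''⁻¹}) : ∃ r : R, algebraMap R F r - x ∈ V.nonunits := by
  obtain ⟨c, r, hcr⟩ :=
    exists_one_add_mul_mem_of_mem_chartAlg (O := O) q π hπq hj0 hj'0 hj''0 h₁ h₂ a haj hx
  refine ⟨r, ?_⟩
  have : algebraMap R F r - x = algebraMap R F π * (algebraMap R F c * x) := by
    rw [← hcr]; ring
  rw [this]
  exact Fermat.Agent.S36.Local.LocalRoot.nu_mul' V hπV (V.mul_mem _ _ (hV c) hxV)

end Lift

end Fermat.Agent.S36.One.LiftInf
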