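/-
S36 block [ONE]/[BRANCH] (helper21): **the sixth `BranchInf` term — the component `C02` on the chart
at infinity of level `q² M₀`.**

For `T : ThreeVal K M0 q O sv` the place `T.ev02` of the third valuation ring `V02`, restricted to the
chart at infinity `Rinf K (M0 q q) O`, is a `BranchInst.BranchInf K M0 O`:

* `const`, `range` : formal (`ev02 ∘ β₂β₁ = θ_{M0}`, residue degree one of `V02` over `G_{M0}` along
  `β₂β₁` = `T.deg_one_V02` chained with `sv.deg_one`);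
* `gen` : `ev02 (1/j) = (j̄⁻¹) ^ (q q)`;
* `lift` : NOT formal (`β₂β₁ r₀` is integral over `O[1/j'']`, not over `O[1/j]`): `LiftInf.exists_lift`.

Consequences: `ker = vCentre V02`, the branch `Rinf ⧸ vCentre V02` is a Dedekind domain, not a field,
and `(I-R)(R-b)` holds at every prime of the chart at infinity through `C02`.
-/
import Mathlib
import Fermat.Agent.S36.V.ThreeVal
import Fermat.Agent.S36.One.BranchOfVal
import Fermat.Agent.S36.One.LiftInf
import Fermat.Agent.S36.C.SemiGaussTop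

set_option autoImplicit false
set_option linter.unusedSectionVars false
set_option linter.unusedVariables false
set_option linter.style.haveILetI false

open ModularCurve Fermat.Agent.S28.Gauss Fermat.Agent.N4.Setting Fermat.Agent.N4.FibreEmbedding
open Fermat.Agent.N4.Chart Fermat.Agent.N4.Kronecker Fermat.Agent.N4.ModPolyDescent
open Fermat.Agent.N4F.E.DegreeLevelRaise Fermat.Agent.N4F.E.GaussDVR Polynomial
open Fermat.Agent.N4F.E IsLocalRing Fermat.Agent.P3G.RbarFin Fermat.Agent.P3G.RbarInf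
open Fermat.Agent.N4.Cover.Globalize Fermat.Agent.P3G.Krull Fermat.Agent.S36.Local
open Fermat.Agent.P3G.SecondValuation Fermat.Agent.S36.V.ThreeVal
open Fermat.Agent.S36.One.BranchInst Fermat.Agent.S36.One.BranchOfVal
open Fermat.Agent.S36.C.SemiGaussTower Fermat.Agent.S36.C.SemiGaussTop

noncomputable section

namespace Fermat.Agent.S36.One.BranchTopInf02

variable (K : Type) [Field K] [CharZero K] (M0 q : ℕ) [NeZero M0] [hq : Fact q.Prime]
  (O : Subring K) [IsDiscreteValuationRing ↥O] [IsFractionRing ↥O K]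

set_option quotPrecheck false in
local notation "κ" => IsLocalRing.ResidueField ↥O

/-- `β₂ ∘ β₁ : F₀ → F₂` as a `K`-algebra homomorphism. -/
def psi2 : FF K M0 →ₐ[K] FF K (M0 * q * q) := (betaF K (M0 * q) q).comp (betaF K M0 q)

theorem psi2_apply (x : FF K M0) :
    psi2 K M0 q x = betaF K (M0 * q) q (betaF K M0 q x) := rfl

/-! ### The two modular equations `Φ_q(j, j') = 0 = Φ_q(j', j'')` at the top level -/

/-- `Φ_q(j, j') = 0`, `j' = β₂ j₁`. -/
theorem evZ_top_one :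
    evZ (jF K (M0 * q * q)) (betaF K (M0 * q) q (jF K (M0 * q))) (modPoly q) = 0 := by
  have h := Integrality.evZ_modPoly_alpha_beta K (M0 * q) q
  rwa [alphaF_jF] at h

/-- `Φ_q(j', j'') = 0`, `j' = β₂ j₁ = β₂ α₁ j₀`, `j'' = β₂ β₁ j₀`. -/
theorem evZ_top_two :
    evZ (betaF K (M0 * q) q (jF K (M0 * q))) (psi2 K M0 q (jF K M0)) (modPoly q) = 0 := by
  have h := Integrality.evZ_modPoly_alpha_beta K M0 q
  have h2 := congrArg (betaF K (M0 * q) q : FF K (M0 * q) →+* FF K (M0 * q * q)) h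
  rw [map_evZ, map_zero, alphaF_jF] at h2
  exact h2

/-! ### The third valuation ring contains the charts -/

section Three

variable {K M0 q O}
variable {sv : SecondVal K M0 q O} (T : ThreeVal K M0 q O sv)

/-- `α₂ x ∈ V02 ↔ x ∈ V01`. -/
theorem alpha_mem_V02_iff (x : FF K (M0 * q)) :
    alphaF K (M0 * q) q x ∈ T.V02 ↔ x ∈ sv.V := by
  rw [← T.comap_alpha_V02]; rfl

/-- `β₂ x ∈ V02 ↔ x ∈ V01`. -/
theorem beta_mem_V02_iff (x : FF K (M0 * q)) :
    betaF K (M0 * q) q x ∈ T.V02 ↔ x ∈ sv.V := by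
  rw [← T.comap_beta_V02]; rfl

/-- `α₂α₁ G₀ ⊆ V02`. -/
theorem phi2_mem_V02 (g : FF K M0) (hg : g ∈ gaussSubalgebra K M0 O) :
    phi2 K M0 q g ∈ T.V02 :=
  (alpha_mem_V02_iff T _).2 (sv.alpha_mem g hg)

/-- `β₂β₁ G₀ ⊆ V02`. -/
theorem psi2_mem_V02 (g : FF K M0) (hg : g ∈ gaussSubalgebra K M0 O) :
    psi2 K M0 q g ∈ T.V02 :=
  (beta_mem_V02_iff T _).2 (sv.beta_mem g hg)

/-- The chart at infinity of the top level lies in `V02`. -/
theorem hRV (r : ↥(Rinf K (M0 * q * q) O)) :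
    algebraMap ↥(Rinf K (M0 * q * q) O) (FF K (M0 * q * q)) r ∈ T.V02 :=
  Rinf_le_of_gauss K M0 q O (fun _ : Unit => T.V02) (fun _ => phi2_mem_V02 T) () r

/-- `ev02 ∘ β₂β₁ = θ_{M0}` on `G_{M0}`. -/
theorem ev02_psi2 (g : FF K M0) (hg : g ∈ gaussSubalgebra K M0 O) :
    T.ev02 ⟨psi2 K M0 q g, psi2_mem_V02 T g hg⟩ = theta K M0 O ⟨g, hg⟩ := by
  rw [← sv.ev_beta g hg]
  exact T.ev02_beta _ (sv.beta_mem g hg) _

/-- `ev02 ∘ α₂α₁ = θ_{M0}(Q^{q q})` on `G_{M0}`. -/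
theorem ev02_phi2 (g : FF K M0) (hg : g ∈ gaussSubalgebra K M0 O) :
    T.ev02 ⟨phi2 K M0 q g, phi2_mem_V02 T g hg⟩ =
      qExpand κ q (qExpand κ q (theta K M0 O ⟨g, hg⟩)) := by
  rw [← sv.ev_alpha g hg]
  exact T.ev02_alpha _ (sv.alpha_mem g hg) _

/-- Residue degree one of `V02` over `G_{M0}` along `β₂β₁`. -/
theorem deg_one_V02_base (y : FF K (M0 * q * q)) (hy : y ∈ T.V02) :
    ∃ a : ↥(gaussSubalgebra K M0 O), y - psi2 K M0 q (a : FF K M0) ∈ T.V02.nonunits := by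
  obtain ⟨a, ha, h⟩ := deg_one_comp (gaussSubalgebra K M0 O).toSubring sv.V T.V02
    (betaF K M0 q : FF K M0 →+* FF K (M0 * q)) (b2 K M0 q) T.comap_beta_V02
    (fun y hy => by
      obtain ⟨a, ha⟩ := sv.deg_one y hy
      exact ⟨a, a.2, ha⟩)
    (fun y hy => by
      obtain ⟨b, hb⟩ := T.deg_one_V02 y hy
      exact ⟨b, b.2, hb⟩) y hy
  exact ⟨⟨a, ha⟩, h⟩

end Three

/-! ### The `BranchInf` term -/

section Branch

variable {K M0 q O}
variable [CharP (IsLocalRing.ResidueField ↥O) q]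
variable {sv : SecondVal K M0 q O} (T : ThreeVal K M0 q O sv)

/-- `q ∈ 𝔪_{V02}`. -/
theorem natCast_mem_nonunits_V02 : ((q : ℕ) : FF K (M0 * q * q)) ∈ T.V02.nonunits := by
  have hmem : ((q : ℕ) : FF K (M0 * q * q)) ∈ T.V02 := natCast_mem _ q
  have h0 : T.ev02 ⟨_, hmem⟩ = 0 := by
    have e : (⟨((q : ℕ) : FF K (M0 * q * q)), hmem⟩ : ↥T.V02) = ((q : ℕ) : ↥T.V02) :=
      Subtype.ext (by simp)
    rw [e, map_natCast]
    haveI := AlphaSide.charP_laurent K q O
    exact CharP.cast_eq_zero _ q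
  exact (T.ev02_eq_zero_iff _).1 h0

/-- `ev02 (1/j) = (j̄⁻¹) ^ (q q)`. -/
theorem ev02_gen :
    evChart K O T.V02 T.ev02 (hRV T) (chartGen (Set.mem_singleton (jF K (M0 * q * q))⁻¹)) =
      (jqModC κ)⁻¹ ^ (q * q) := by
  rw [evChart_apply]
  have key : ∀ (x : FF K (M0 * q * q)) (hx : x ∈ T.V02), x = phi2 K M0 q (jF K M0)⁻¹ →
      T.ev02 ⟨x, hx⟩ = (jqModC κ)⁻¹ ^ (q * q) := by
    rintro x hx rfl
    rw [ev02_phi2 T _ (jF_inv_mem_gaussSubalgebra K M0 O), theta_jF_inv, map_inv₀, map_inv₀,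
      GaussResidue.qExpand_jqModC_eq_pow, map_pow, GaussResidue.qExpand_jqModC_eq_pow, ← pow_mul,
      inv_pow]
  exact key _ _ (phi2_jF_inv K M0 q).symm

variable [IsNoetherianRing ↥(Rinf K (M0 * q * q) O)]
  [IsFractionRing ↥(Rinf K (M0 * q * q) O) (FF K (M0 * q * q))]

set_option synthInstance.maxHeartbeats 400000 in
set_option maxHeartbeats 1600000 in
/-- **The `lift` field for `(Rinf, V02)`**: every value of `θ_{M0}` on the chart at infinity of
level `M0` is a value of `ev02` on the chart at infinity of level `M0 q q`. -/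
theorem exists_lift_inf02 (r₀ : ↥(Rinf K M0 O)) :
    ∃ r : ↥(Rinf K (M0 * q * q) O),
      evChart K O T.V02 T.ev02 (hRV T) r = thetaInf K M0 O r₀ := by
  have hr₀G : (r₀ : FF K M0) ∈ gaussSubalgebra K M0 O :=
    chartAlg_le_gaussSubalgebra K M0 O (sInf_le_gauss K M0 O) r₀.2
  have hxV : psi2 K M0 q (r₀ : FF K M0) ∈ T.V02 := psi2_mem_V02 T _ hr₀G
  have hxc : psi2 K M0 q (r₀ : FF K M0) ∈
      chartAlg ↥O (FF K (M0 * q * q)) {(psi2 K M0 q (jF K M0))⁻¹} := by
    have h := phi_mem_chartAlg K M0 O (psi2 K M0 q) r₀.2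
    rwa [map_inv₀] at h
  have hj'0 : betaF K (M0 * q) q (jF K (M0 * q)) ≠ 0 :=
    (_root_.map_ne_zero _).2 (jF_ne_zero K (M0 * q))
  have hj''0 : psi2 K M0 q (jF K M0) ≠ 0 := (_root_.map_ne_zero _).2 (jF_ne_zero K M0)
  have hπq : algebraMap ↥(Rinf K (M0 * q * q) O) (FF K (M0 * q * q))
      (algebraMap ↥O ↥(Rinf K (M0 * q * q) O) ((q : ℕ) : ↥O)) = ((q : ℕ) : FF K (M0 * q * q)) := by
    rw [map_natCast, map_natCast]
  have hπV : algebraMap ↥(Rinf K (M0 * q * q) O) (FF K (M0 * q * q))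
      (algebraMap ↥O ↥(Rinf K (M0 * q * q) O) ((q : ℕ) : ↥O)) ∈ T.V02.nonunits := by
    rw [hπq]; exact natCast_mem_nonunits_V02 T
  obtain ⟨r, hr⟩ := LiftInf.exists_lift (O := ↥O) (R := ↥(Rinf K (M0 * q * q) O))
    (F := FF K (M0 * q * q)) q
    (algebraMap ↥O ↥(Rinf K (M0 * q * q) O) ((q : ℕ) : ↥O)) hπq
    (jF_ne_zero K (M0 * q * q)) hj'0 hj''0 (evZ_top_one K M0 q) (evZ_top_two K M0 q)
    (chartGen (Set.mem_singleton _)) rfl T.V02 (hRV T) hπV hxV hxc
  refine ⟨r, ?_⟩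
  rw [evChart_apply, thetaInf_apply]
  have h0 : T.ev02 (⟨_, hRV T r⟩ - ⟨_, hxV⟩) = 0 := (T.ev02_eq_zero_iff _).2 hr
  rw [map_sub, sub_eq_zero] at h0
  exact h0.trans (ev02_psi2 T _ hr₀G)

/-- **The sixth `BranchInf` term**: the place of `V02` on the chart at infinity of level `M0 q q`. -/
theorem branchInf_V02 : BranchInf K M0 O (evChart K O T.V02 T.ev02 (hRV T)) where
  const a := by
    rw [evChart_apply]
    have key : ∀ (x : FF K (M0 * q * q)) (hx : x ∈ T.V02),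
        x = psi2 K M0 q ((algebraMap ↥O ↥(gaussSubalgebra K M0 O) a :
          ↥(gaussSubalgebra K M0 O)) : FF K M0) →
        T.ev02 ⟨x, hx⟩ = HahnSeries.C (IsLocalRing.residue ↥O a) := by
      rintro x hx rfl
      rw [ev02_psi2 T _ (algebraMap ↥O ↥(gaussSubalgebra K M0 O) a).2]
      exact theta_algebraMap K M0 O a
    refine key _ _ ?_
    exact (phi_algebraMap_O K M0 O (psi2 K M0 q) a).symm
  gen := ⟨q * q, ev02_gen T⟩
  range r := ev_eq_theta_of_deg_one K M0 O T.V02 T.ev02 T.ev02_eq_zero_iff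
    (psi2 K M0 q : FF K M0 →+* FF K (M0 * q * q)) (psi2_mem_V02 T) (ev02_psi2 T)
    (deg_one_V02_base T) _
  lift := exists_lift_inf02 T

/-- `ker (ev02 | Rinf) = vCentre V02`. -/
theorem ker_evChart_V02 :
    RingHom.ker (evChart K O T.V02 T.ev02 (hRV T)) = vCentre T.V02 (hRV T) :=
  ker_evChart K O T.V02 T.ev02 T.ev02_eq_zero_iff (hRV T)

variable (hN : IsUnit ((M0 : ℕ) : ↥O))
  (hprimeInf : (fibreIdeal K M0 O (Rinf K M0 O)).IsPrime)
  (hDedInf : IsDedekindDomain (↥(Rinf K M0 O) ⧸ fibreIdeal K M0 O (Rinf K M0 O)))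
  (hA2 : ∀ x : ↥(gaussSubalgebra K M0 O),
    theta K M0 O x ∈ modularFunctionFieldFullC (IsLocalRing.ResidueField ↥O) M0)

include hN hprimeInf hDedInf hA2 in
/-- The branch `C02` of the chart at infinity is a Dedekind domain
(`hD 2` of `Cusp/Plug`, `Cusp/AllCusps`). -/
theorem isDedekindDomain_quotient_V02 :
    IsDedekindDomain (↥(Rinf K (M0 * q * q) O) ⧸ vCentre T.V02 (hRV T)) :=
  (branchInf_V02 T).isDedekindDomain_quotient K M0 O hN hprimeInf hDedInf hA2 (ker_evChart_V02 T)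

include hN hprimeInf hDedInf hA2 in
/-- The branch `C02` of the chart at infinity is not a field (`hnf 2`). -/
theorem not_isField_quotient_V02 :
    ¬ IsField (↥(Rinf K (M0 * q * q) O) ⧸ vCentre T.V02 (hRV T)) :=
  (branchInf_V02 T).not_isField_quotient K M0 O hN hA2 hprimeInf hDedInf (ker_evChart_V02 T)

set_option maxHeartbeats 1600000 in
set_option synthInstance.maxHeartbeats 400000 in
include hN hprimeInf hDedInf hA2 in
/-- **`(I-R)(R-b)` for `C02` on the chart at infinity**: at every prime `𝔫` through `C02`. -/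
theorem isPrincipalIdealRing_V02 (𝔫 : Ideal ↥(Rinf K (M0 * q * q) O)) [𝔫.IsPrime]
    (hle : vCentre T.V02 (hRV T) ≤ 𝔫) :
    IsPrincipalIdealRing
      (locAt (F := FF K (M0 * q * q)) 𝔫 ⧸
        LocalRoot.centre T.V02 (BranchDedekind.algebraMap_locAt_mem T.V02 (hRV T) 𝔫 hle)) :=
  (branchInf_V02 T).isPrincipalIdealRing K M0 O hN hprimeInf hDedInf hA2 T.V02 (hRV T)
    (ker_evChart_V02 T) 𝔫 hle

end Branch

end Fermat.Agent.S36.One.BranchTopInf02
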