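/-
S36 leaf [BRANCH] (helper6), instantiation at the top level: **the branches of the two charts of
`FF K (M₀ q²)` along the three vertical valuation rings `V20 = gaussVS`, `V11`, `V02` of a
`T : ThreeVal K M0 q O sv`.**

For the finite chart `Rfin K (M₀ q²) O` and `i = 0, 1, 2`, and for the chart at infinity
`Rinf K (M₀ q²) O` and `i = 0, 1` (the sixth term `(Rinf, V02)` is helper21's
`One/BranchTopInf02.lean`), the place `ev_i` restricted to the chart is a `BranchFin / BranchInf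
K M0 O` of `One/BranchInst`, with kernel `vCentre (V i)`.  Consequences (for every `hV`):

* `IsDedekindDomain (chart ⧸ vCentre (V i) (hV i))`, `¬ IsField _` (`hD`, `hnf` of `Cusp/Plug`,
  `One/OneInst`);
* `(I-R)(R-b)`: `IsPrincipalIdealRing (locAt 𝔫 ⧸ centre (V i) _)` at every prime `𝔫 ⊇ vCentre (V i)`.
-/
import Mathlib
import Fermat.Agent.S36.One.BranchOfVal
import Fermat.Agent.S36.V.ThreeVal
import Fermat.Agent.S36.C.ThreeValCover
import Fermat.Agent.P3G.FibreComp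

set_option autoImplicit false
set_option linter.unusedSectionVars false
set_option linter.style.haveILetI false

open ModularCurve Fermat.Agent.S28.Gauss Fermat.Agent.N4.Setting Fermat.Agent.N4.FibreEmbedding
open Fermat.Agent.N4.Chart Fermat.Agent.N4.IntClosure
open Fermat.Agent.N4F.E.DegreeLevelRaise Fermat.Agent.N4F.E.GaussDVR Polynomial
open Fermat.Agent.N4F.E IsLocalRing Fermat.Agent.P3G.RbarFin Fermat.Agent.P3G.RbarInf
open Fermat.Agent.N4.Cover.Globalize Fermat.Agent.P3G.Krull Fermat.Agent.S36.Local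
open Fermat.Agent.S36.One.BranchDedekind Fermat.Agent.S36.One.BranchInst
open Fermat.Agent.S36.One.BranchOfVal Fermat.Agent.P3G.SecondValuation
open Fermat.Agent.S36.V.ThreeVal Fermat.Agent.S36.C.ThreeValCover

noncomputable section

namespace Fermat.Agent.S36.One.BranchTop

/-! ### A chart lies in every valuation subring containing its generator -/

section Generic

variable {O F : Type*} [CommRing O] [Field F] [Algebra O F]

theorem chart_le_vs (V : ValuationSubring F)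
    (hO : ∀ a : O, algebraMap O F a ∈ V) {s : F} (hs : s ∈ V)
    (r : ↥(chartAlg O F {s})) : algebraMap ↥(chartAlg O F {s}) F r ∈ V := by
  have hx : (r : F) ∈ chartAlg O F {s} := r.2
  rw [mem_chartAlg_iff] at hx
  let Vs : Subalgebra O F :=
    { V.toSubring.toSubsemiring with
      algebraMap_mem' := hO }
  have hadj : Algebra.adjoin O ({s} : Set F) ≤ Vs :=
    Algebra.adjoin_le (Set.singleton_subset_iff.mpr hs)
  let φ : ↥(Algebra.adjoin O ({s} : Set F)) →+* ↥V :=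
    { toFun := fun a => ⟨a, hadj a.2⟩
      map_one' := rfl
      map_mul' := fun _ _ => rfl
      map_zero' := rfl
      map_add' := fun _ _ => rfl }
  have hxi : IsIntegral ↥V (r : F) := hx.map_of_comp_eq φ (RingHom.id F) (by ext a; rfl)
  obtain ⟨y, hy⟩ := IsIntegrallyClosed.algebraMap_eq_of_integral hxi
  show (r : F) ∈ V
  rw [← hy]
  exact y.2

end Generic

/-! ### The place of the Gauss valuation ring -/

section Gauss

variable (K : Type) [Field K] [CharZero K] (M : ℕ) [NeZero M]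
  (O : Subring K) [IsDiscreteValuationRing ↥O] [IsFractionRing ↥O K]

/-- The Gauss reduction `θ_M`, as a place of the valuation subring `gaussVS K M O`. -/
def evG : ↥(gaussVS K M O) →+* LaurentSeries (IsLocalRing.ResidueField ↥O) :=
  (theta K M O).comp ((gaussVS K M O).subtype.codRestrict (gaussSubalgebra K M O)
    fun x => (mem_gaussVS_iff K M O).mp x.2)

theorem evG_mk {x : FF K M} (h : x ∈ gaussVS K M O) :
    evG K M O ⟨x, h⟩ = theta K M O ⟨x, (mem_gaussVS_iff K M O).mp h⟩ := rfl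

theorem evG_eq_zero_iff (y : ↥(gaussVS K M O)) :
    evG K M O y = 0 ↔ (y : FF K M) ∈ (gaussVS K M O).nonunits := by
  obtain ⟨x, h⟩ := y
  rw [evG_mk]
  exact (Fermat.Agent.P3G.SecondValuation.mem_nonunits_gaussVS_iff K M O
    ((mem_gaussVS_iff K M O).mp h)).symm

end Gauss

/-! ### The top level -/

section Top

variable (K : Type) [Field K] [CharZero K] (M0 q : ℕ) [NeZero M0] [hq : Fact q.Prime]
  (O : Subring K) [IsDiscreteValuationRing ↥O] [IsFractionRing ↥O K]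

/-- `α₂ ∘ α₁ : F₀ → F₂`. -/
abbrev aa : FF K M0 →+* FF K (M0 * q * q) :=
  (a2 K M0 q).comp (alphaF K M0 q : FF K M0 →+* FF K (M0 * q))

/-- `β₂ ∘ β₁ : F₀ → F₂`. -/
abbrev bb : FF K M0 →+* FF K (M0 * q * q) :=
  (b2 K M0 q).comp (betaF K M0 q : FF K M0 →+* FF K (M0 * q))

theorem aa_apply (x : FF K M0) :
    aa K M0 q x = alphaF K (M0 * q) q (alphaF K M0 q x) := rfl

theorem bb_apply (x : FF K M0) :
    bb K M0 q x = betaF K (M0 * q) q (betaF K M0 q x) := rfl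

theorem aa_jF : aa K M0 q (jF K M0) = jF K (M0 * q * q) := by
  rw [aa_apply, alphaF_jF, alphaF_jF]

theorem aa_jF_inv : aa K M0 q (jF K M0)⁻¹ = (jF K (M0 * q * q))⁻¹ := by
  rw [map_inv₀, aa_jF]

theorem aa_algebraMap (a : ↥O) :
    aa K M0 q ((algebraMap ↥O ↥(gaussSubalgebra K M0 O) a : ↥(gaussSubalgebra K M0 O)) : FF K M0) =
      algebraMap ↥O (FF K (M0 * q * q)) a := by
  have h1 : ((algebraMap ↥O ↥(gaussSubalgebra K M0 O) a : ↥(gaussSubalgebra K M0 O)) : FF K M0) =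
      algebraMap K (FF K M0) (a : K) := rfl
  rw [h1, aa_apply, AlgHom.commutes, AlgHom.commutes]
  rfl

theorem bb_algebraMap (a : ↥O) :
    bb K M0 q ((algebraMap ↥O ↥(gaussSubalgebra K M0 O) a : ↥(gaussSubalgebra K M0 O)) : FF K M0) =
      algebraMap ↥O (FF K (M0 * q * q)) a := by
  have h1 : ((algebraMap ↥O ↥(gaussSubalgebra K M0 O) a : ↥(gaussSubalgebra K M0 O)) : FF K M0) =
      algebraMap K (FF K M0) (a : K) := rfl
  rw [h1, bb_apply, AlgHom.commutes, AlgHom.commutes]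
  rfl

/-- `α₂ α₁` maps the finite chart of the base level into the finite chart of the top level. -/
theorem aa_mem_Rfin (r₀ : ↥(Rfin K M0 O)) :
    aa K M0 q (r₀ : FF K M0) ∈ Rfin K (M0 * q * q) O :=
  Fermat.Agent.P3G.LevelIntegrality.alphaF_mem_Rfin K (M0 * q) q O
    (Fermat.Agent.P3G.LevelIntegrality.alphaF_mem_Rfin K M0 q O r₀.2)

/-- `β₂ β₁` maps the finite chart of the base level into the finite chart of the top level. -/
theorem bb_mem_Rfin (r₀ : ↥(Rfin K M0 O)) :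
    bb K M0 q (r₀ : FF K M0) ∈ Rfin K (M0 * q * q) O :=
  Fermat.Agent.P3G.LevelIntegrality.betaF_mem_Rfin K (M0 * q) q O
    (Fermat.Agent.P3G.LevelIntegrality.betaF_mem_Rfin K M0 q O r₀.2)

/-- `α₂ α₁` maps the chart at infinity of the base level into that of the top level. -/
theorem aa_mem_Rinf (r₀ : ↥(Rinf K M0 O)) :
    aa K M0 q (r₀ : FF K M0) ∈ Rinf K (M0 * q * q) O :=
  Fermat.Agent.P3G.BetaInf.alphaF_mem_Rinf K (M0 * q) q O
    (Fermat.Agent.P3G.BetaInf.alphaF_mem_Rinf K M0 q O r₀.2)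

end Top

/-! ### The three valuation rings -/

section Three

variable (K : Type) [Field K] [CharZero K] (M0 q : ℕ) [NeZero M0] [hq : Fact q.Prime]
  (O : Subring K) [IsDiscreteValuationRing ↥O] [IsFractionRing ↥O K]
  {sv : SecondVal K M0 q O} (T : ThreeVal K M0 q O sv)

/-- A place does not see the membership proof. -/
theorem ev_congr {F Ω : Type*} [Field F] [CommRing Ω] {V : ValuationSubring F} (ev : ↥V →+* Ω)
    {x y : F} (h : x = y) (hx : x ∈ V) (hy : y ∈ V) : ev ⟨x, hx⟩ = ev ⟨y, hy⟩ := by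
  subst h; rfl

/-! #### `α₂α₁ (G₀)`, `β₂β₁ (G₀)` inside the three rings -/

theorem aa_mem_V20 {x : FF K M0} (hx : x ∈ gaussSubalgebra K M0 O) :
    aa K M0 q x ∈ gaussVS K (M0 * q * q) O :=
  (mem_gaussVS_iff K (M0 * q * q) O).mpr
    (alphaF_mem K O (M0 * q) q (alphaF_mem K O M0 q hx))

theorem aa_mem_V11 {x : FF K M0} (hx : x ∈ gaussSubalgebra K M0 O) :
    aa K M0 q x ∈ T.V11 := by
  have h : alphaF K M0 q x ∈ T.V11.comap (a2 K M0 q) := by
    rw [T.comap_alpha_V11]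
    exact (mem_gaussVS_iff K (M0 * q) O).mpr (alphaF_mem K O M0 q hx)
  rw [ValuationSubring.mem_comap] at h
  exact h

theorem aa_mem_V02 {x : FF K M0} (hx : x ∈ gaussSubalgebra K M0 O) :
    aa K M0 q x ∈ T.V02 := by
  have h : alphaF K M0 q x ∈ T.V02.comap (a2 K M0 q) := by
    rw [T.comap_alpha_V02]
    exact sv.alpha_mem x hx
  rw [ValuationSubring.mem_comap] at h
  exact h

theorem bb_mem_V02 {x : FF K M0} (hx : x ∈ gaussSubalgebra K M0 O) :
    bb K M0 q x ∈ T.V02 := by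
  have h : betaF K M0 q x ∈ T.V02.comap (b2 K M0 q) := by
    rw [T.comap_beta_V02]
    exact sv.beta_mem x hx
  rw [ValuationSubring.mem_comap] at h
  exact h

/-! #### the places on `α₂α₁ (G₀)`, `β₂β₁ (G₀)` -/

theorem ev20_aa (x : FF K M0) (hx : x ∈ gaussSubalgebra K M0 O) :
    evG K (M0 * q * q) O ⟨aa K M0 q x, aa_mem_V20 K M0 q O hx⟩ = theta K M0 O ⟨x, hx⟩ := by
  rw [evG_mk]
  exact (theta_alphaF K O (M0 * q) q ⟨alphaF K M0 q x, alphaF_mem K O M0 q hx⟩).trans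
    (theta_alphaF K O M0 q ⟨x, hx⟩)

theorem ev11_aa (x : FF K M0) (hx : x ∈ gaussSubalgebra K M0 O) :
    T.ev11 ⟨aa K M0 q x, aa_mem_V11 K M0 q O T hx⟩ = theta K M0 O ⟨x, hx⟩ :=
  (T.ev11_alpha (alphaF K M0 q x) (alphaF_mem K O M0 q hx) _).trans
    (theta_alphaF K O M0 q ⟨x, hx⟩)

theorem ev02_bb (x : FF K M0) (hx : x ∈ gaussSubalgebra K M0 O) :
    T.ev02 ⟨bb K M0 q x, bb_mem_V02 K M0 q O T hx⟩ = theta K M0 O ⟨x, hx⟩ :=
  (T.ev02_beta (betaF K M0 q x) (sv.beta_mem x hx) _).trans (sv.ev_beta x hx)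

theorem ev02_aa (x : FF K M0) (hx : x ∈ gaussSubalgebra K M0 O) :
    T.ev02 ⟨aa K M0 q x, aa_mem_V02 K M0 q O T hx⟩ =
      qExpand (IsLocalRing.ResidueField ↥O) q
        (qExpand (IsLocalRing.ResidueField ↥O) q (theta K M0 O ⟨x, hx⟩)) := by
  rw [← sv.ev_alpha x hx]
  exact T.ev02_alpha (alphaF K M0 q x) (sv.alpha_mem x hx) _

/-! #### residue degree one over the Gauss ring of the base level -/

theorem deg_one_V02_G0 : ∀ y ∈ T.V02, ∃ a : ↥(gaussSubalgebra K M0 O),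
    y - bb K M0 q (a : FF K M0) ∈ T.V02.nonunits := by
  intro y hy
  obtain ⟨a, ha, h⟩ := deg_one_comp (gaussSubalgebra K M0 O).toSubring sv.V T.V02
    (betaF K M0 q : FF K M0 →+* FF K (M0 * q)) (b2 K M0 q) T.comap_beta_V02
    (fun y hy => by
      obtain ⟨a, h⟩ := sv.deg_one y hy
      exact ⟨a, a.2, h⟩)
    (fun y hy => by
      obtain ⟨a, h⟩ := T.deg_one_V02 y hy
      exact ⟨a, a.2, h⟩) y hy
  exact ⟨⟨a, ha⟩, h⟩

variable [CharP (IsLocalRing.ResidueField ↥O) q] (ι : K →+* ℂ) (hqM0 : ¬ q ∣ M0)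

include sv ι hqM0 in
theorem deg_one_V10_G0 : ∀ y ∈ gaussVS K (M0 * q) O, ∃ a ∈ (gaussSubalgebra K M0 O).toSubring,
    y - (alphaF K M0 q : FF K M0 →+* FF K (M0 * q)) a ∈ (gaussVS K (M0 * q) O).nonunits := by
  intro y hy
  obtain ⟨a, h⟩ := (Fermat.Agent.P3G.FibreComp.gauss_alpha K M0 q O sv ι hqM0).1 y hy
  exact ⟨a, a.2, h⟩

include T ι hqM0 in
theorem deg_one_V20_G0 : ∀ y ∈ gaussVS K (M0 * q * q) O, ∃ a : ↥(gaussSubalgebra K M0 O),
    y - aa K M0 q (a : FF K M0) ∈ (gaussVS K (M0 * q * q) O).nonunits := by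
  intro y hy
  have hcomap : (gaussVS K (M0 * q * q) O).comap (a2 K M0 q) = gaussVS K (M0 * q) O := by
    ext x
    rw [ValuationSubring.mem_comap, mem_gaussVS_iff, mem_gaussVS_iff]
    exact alphaF_mem_iff K O (M0 * q) q x
  obtain ⟨a, ha, h⟩ := deg_one_comp (gaussSubalgebra K M0 O).toSubring (gaussVS K (M0 * q) O)
    (gaussVS K (M0 * q * q) O)
    (alphaF K M0 q : FF K M0 →+* FF K (M0 * q)) (a2 K M0 q) hcomap
    (deg_one_V10_G0 K M0 q O (sv := sv) ι hqM0)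
    (fun y hy => by
      obtain ⟨a, h⟩ := T.deg_one_V20 y hy
      exact ⟨a, a.2, h⟩) y hy
  exact ⟨⟨a, ha⟩, h⟩

include ι hqM0 in
theorem deg_one_V11_G0 : ∀ y ∈ T.V11, ∃ a : ↥(gaussSubalgebra K M0 O),
    y - aa K M0 q (a : FF K M0) ∈ T.V11.nonunits := by
  intro y hy
  obtain ⟨a, ha, h⟩ := deg_one_comp (gaussSubalgebra K M0 O).toSubring (gaussVS K (M0 * q) O)
    T.V11
    (alphaF K M0 q : FF K M0 →+* FF K (M0 * q)) (a2 K M0 q) T.comap_alpha_V11
    (deg_one_V10_G0 K M0 q O (sv := sv) ι hqM0)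
    (fun y hy => by
      obtain ⟨a, h⟩ := T.deg_one_V11_alpha y hy
      exact ⟨a, a.2, h⟩) y hy
  exact ⟨⟨a, ha⟩, h⟩

end Three

/-! ### The charts inside the three valuation rings -/

section Charts

variable (K : Type) [Field K] [CharZero K] (M0 q : ℕ) [NeZero M0] [hq : Fact q.Prime]
  (O : Subring K) [IsDiscreteValuationRing ↥O] [IsFractionRing ↥O K]
  {sv : SecondVal K M0 q O} (T : ThreeVal K M0 q O sv)

/-- The finite chart of the top level lies in every valuation subring containing `α₂α₁ (G₀)`. -/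
theorem Rfin_le_of_aa (B : ValuationSubring (FF K (M0 * q * q)))
    (hB : ∀ x ∈ gaussSubalgebra K M0 O, aa K M0 q x ∈ B) (r : ↥(Rfin K (M0 * q * q) O)) :
    algebraMap ↥(Rfin K (M0 * q * q) O) (FF K (M0 * q * q)) r ∈ B :=
  chart_le_vs B
    (fun a => by
      rw [← aa_algebraMap K M0 q O a]
      exact hB _ (Subtype.property _))
    (by
      rw [← aa_jF K M0 q]
      exact hB _ (jF_mem_gaussSubalgebra K M0 O)) r

/-- The chart at infinity of the top level lies in every valuation subring containing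
`α₂α₁ (G₀)`. -/
theorem Rinf_le_of_aa (B : ValuationSubring (FF K (M0 * q * q)))
    (hB : ∀ x ∈ gaussSubalgebra K M0 O, aa K M0 q x ∈ B) (r : ↥(Rinf K (M0 * q * q) O)) :
    algebraMap ↥(Rinf K (M0 * q * q) O) (FF K (M0 * q * q)) r ∈ B :=
  chart_le_vs B
    (fun a => by
      rw [← aa_algebraMap K M0 q O a]
      exact hB _ (Subtype.property _))
    (by
      rw [← aa_jF_inv K M0 q]
      exact hB _ (jF_inv_mem_gaussSubalgebra K M0 O)) r

theorem Rfin_le_V20 (r : ↥(Rfin K (M0 * q * q) O)) :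
    algebraMap ↥(Rfin K (M0 * q * q) O) (FF K (M0 * q * q)) r ∈ gaussVS K (M0 * q * q) O :=
  Rfin_le_of_aa K M0 q O _ (fun _ hx => aa_mem_V20 K M0 q O hx) r

theorem Rfin_le_V11 (r : ↥(Rfin K (M0 * q * q) O)) :
    algebraMap ↥(Rfin K (M0 * q * q) O) (FF K (M0 * q * q)) r ∈ T.V11 :=
  Rfin_le_of_aa K M0 q O _ (fun _ hx => aa_mem_V11 K M0 q O T hx) r

theorem Rfin_le_V02 (r : ↥(Rfin K (M0 * q * q) O)) :
    algebraMap ↥(Rfin K (M0 * q * q) O) (FF K (M0 * q * q)) r ∈ T.V02 :=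
  Rfin_le_of_aa K M0 q O _ (fun _ hx => aa_mem_V02 K M0 q O T hx) r

theorem Rinf_le_V20 (r : ↥(Rinf K (M0 * q * q) O)) :
    algebraMap ↥(Rinf K (M0 * q * q) O) (FF K (M0 * q * q)) r ∈ gaussVS K (M0 * q * q) O :=
  Rinf_le_of_aa K M0 q O _ (fun _ hx => aa_mem_V20 K M0 q O hx) r

theorem Rinf_le_V11 (r : ↥(Rinf K (M0 * q * q) O)) :
    algebraMap ↥(Rinf K (M0 * q * q) O) (FF K (M0 * q * q)) r ∈ T.V11 :=
  Rinf_le_of_aa K M0 q O _ (fun _ hx => aa_mem_V11 K M0 q O T hx) r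

theorem Rinf_le_V02 (r : ↥(Rinf K (M0 * q * q) O)) :
    algebraMap ↥(Rinf K (M0 * q * q) O) (FF K (M0 * q * q)) r ∈ T.V02 :=
  Rinf_le_of_aa K M0 q O _ (fun _ hx => aa_mem_V02 K M0 q O T hx) r

/-- `hV` for the family `fam3` on the finite chart. -/
theorem hV_fin : ∀ (i : Fin 3) (r : ↥(Rfin K (M0 * q * q) O)),
    algebraMap ↥(Rfin K (M0 * q * q) O) (FF K (M0 * q * q)) r ∈ fam3 K M0 q O T.V11 T.V02 i := by
  intro i
  fin_cases i
  · exact Rfin_le_V20 K M0 q O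
  · exact Rfin_le_V11 K M0 q O T
  · exact Rfin_le_V02 K M0 q O T

/-- `hV` for the family `fam3` on the chart at infinity. -/
theorem hV_inf : ∀ (i : Fin 3) (r : ↥(Rinf K (M0 * q * q) O)),
    algebraMap ↥(Rinf K (M0 * q * q) O) (FF K (M0 * q * q)) r ∈ fam3 K M0 q O T.V11 T.V02 i := by
  intro i
  fin_cases i
  · exact Rinf_le_V20 K M0 q O
  · exact Rinf_le_V11 K M0 q O T
  · exact Rinf_le_V02 K M0 q O T

end Charts

/-! ### The five formal branch terms -/

section Terms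

variable (K : Type) [Field K] [CharZero K] (M0 q : ℕ) [NeZero M0] [hq : Fact q.Prime]
  (O : Subring K) [IsDiscreteValuationRing ↥O] [IsFractionRing ↥O K]
  [CharP (IsLocalRing.ResidueField ↥O) q]
  {sv : SecondVal K M0 q O} (T : ThreeVal K M0 q O sv) (ι : K →+* ℂ) (hqM0 : ¬ q ∣ M0)

/-- The place of `V20` on the finite chart (`= thetaFin K (M₀ q²) O`). -/
abbrev Th20Fin : ↥(Rfin K (M0 * q * q) O) →+* LaurentSeries (IsLocalRing.ResidueField ↥O) :=
  evChart K O (gaussVS K (M0 * q * q) O) (evG K (M0 * q * q) O) (Rfin_le_V20 K M0 q O)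

/-- The place of `V11` on the finite chart. -/
abbrev Th11Fin : ↥(Rfin K (M0 * q * q) O) →+* LaurentSeries (IsLocalRing.ResidueField ↥O) :=
  evChart K O T.V11 T.ev11 (Rfin_le_V11 K M0 q O T)

/-- The place of `V02` on the finite chart. -/
abbrev Th02Fin : ↥(Rfin K (M0 * q * q) O) →+* LaurentSeries (IsLocalRing.ResidueField ↥O) :=
  evChart K O T.V02 T.ev02 (Rfin_le_V02 K M0 q O T)

/-- The place of `V20` on the chart at infinity (`= thetaInf K (M₀ q²) O`). -/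
abbrev Th20Inf : ↥(Rinf K (M0 * q * q) O) →+* LaurentSeries (IsLocalRing.ResidueField ↥O) :=
  evChart K O (gaussVS K (M0 * q * q) O) (evG K (M0 * q * q) O) (Rinf_le_V20 K M0 q O)

/-- The place of `V11` on the chart at infinity. -/
abbrev Th11Inf : ↥(Rinf K (M0 * q * q) O) →+* LaurentSeries (IsLocalRing.ResidueField ↥O) :=
  evChart K O T.V11 T.ev11 (Rinf_le_V11 K M0 q O T)

/-- The place of `V02` on the chart at infinity. -/
abbrev Th02Inf : ↥(Rinf K (M0 * q * q) O) →+* LaurentSeries (IsLocalRing.ResidueField ↥O) :=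
  evChart K O T.V02 T.ev02 (Rinf_le_V02 K M0 q O T)

theorem Th20Fin_eq : Th20Fin K M0 q O = thetaFin K (M0 * q * q) O :=
  RingHom.ext fun _ => rfl

theorem Th20Inf_eq : Th20Inf K M0 q O = thetaInf K (M0 * q * q) O :=
  RingHom.ext fun _ => rfl

/-! #### the kernels -/

theorem ker_Th20Fin :
    RingHom.ker (Th20Fin K M0 q O) = vCentre (gaussVS K (M0 * q * q) O) (Rfin_le_V20 K M0 q O) :=
  ker_evChart K O _ _ (evG_eq_zero_iff K (M0 * q * q) O) _

theorem ker_Th11Fin :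
    RingHom.ker (Th11Fin K M0 q O T) = vCentre T.V11 (Rfin_le_V11 K M0 q O T) :=
  ker_evChart K O _ _ T.ev11_eq_zero_iff _

theorem ker_Th02Fin :
    RingHom.ker (Th02Fin K M0 q O T) = vCentre T.V02 (Rfin_le_V02 K M0 q O T) :=
  ker_evChart K O _ _ T.ev02_eq_zero_iff _

theorem ker_Th20Inf :
    RingHom.ker (Th20Inf K M0 q O) = vCentre (gaussVS K (M0 * q * q) O) (Rinf_le_V20 K M0 q O) :=
  ker_evChart K O _ _ (evG_eq_zero_iff K (M0 * q * q) O) _

theorem ker_Th11Inf :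
    RingHom.ker (Th11Inf K M0 q O T) = vCentre T.V11 (Rinf_le_V11 K M0 q O T) :=
  ker_evChart K O _ _ T.ev11_eq_zero_iff _

theorem ker_Th02Inf :
    RingHom.ker (Th02Inf K M0 q O T) = vCentre T.V02 (Rinf_le_V02 K M0 q O T) :=
  ker_evChart K O _ _ T.ev02_eq_zero_iff _

/-! #### the terms -/

include T ι hqM0 in
/-- **(fin, V20)**. -/
theorem branchFin_V20 : BranchFin K M0 O (Th20Fin K M0 q O) := by
  refine branchFin_of_deg_one K M0 O (gaussVS K (M0 * q * q) O) (evG K (M0 * q * q) O)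
    (evG_eq_zero_iff K (M0 * q * q) O) (Rfin_le_V20 K M0 q O) (aa K M0 q)
    (fun x hx => aa_mem_V20 K M0 q O hx) (ev20_aa K M0 q O) (deg_one_V20_G0 K M0 q O T ι hqM0)
    (aa_algebraMap K M0 q O) (aa_mem_Rfin K M0 q O) ⟨1, ?_⟩
  rw [evChart_apply, pow_one]
  exact theta_jF K (M0 * q * q) O

include ι hqM0 in
/-- **(fin, V11)**. -/
theorem branchFin_V11 : BranchFin K M0 O (Th11Fin K M0 q O T) := by
  refine branchFin_of_deg_one K M0 O T.V11 T.ev11 T.ev11_eq_zero_iff (Rfin_le_V11 K M0 q O T)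
    (aa K M0 q) (fun x hx => aa_mem_V11 K M0 q O T hx) (ev11_aa K M0 q O T)
    (deg_one_V11_G0 K M0 q O T ι hqM0) (aa_algebraMap K M0 q O) (aa_mem_Rfin K M0 q O) ⟨1, ?_⟩
  rw [evChart_apply, pow_one]
  exact (ev_congr T.ev11 (aa_jF K M0 q).symm _
    (aa_mem_V11 K M0 q O T (jF_mem_gaussSubalgebra K M0 O))).trans
      ((ev11_aa K M0 q O T _ _).trans (theta_jF K M0 O))

/-- **(fin, V02)**. -/
theorem branchFin_V02 : BranchFin K M0 O (Th02Fin K M0 q O T) := by
  refine branchFin_of_deg_one K M0 O T.V02 T.ev02 T.ev02_eq_zero_iff (Rfin_le_V02 K M0 q O T)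
    (bb K M0 q) (fun x hx => bb_mem_V02 K M0 q O T hx) (ev02_bb K M0 q O T)
    (deg_one_V02_G0 K M0 q O T) (bb_algebraMap K M0 q O) (bb_mem_Rfin K M0 q O) ⟨q * q, ?_⟩
  rw [evChart_apply]
  refine (ev_congr T.ev02 (aa_jF K M0 q).symm _
    (aa_mem_V02 K M0 q O T (jF_mem_gaussSubalgebra K M0 O))).trans
      ((ev02_aa K M0 q O T (jF K M0) (jF_mem_gaussSubalgebra K M0 O)).trans ?_)
  rw [theta_jF, GaussResidue.qExpand_jqModC_eq_pow, map_pow,
    GaussResidue.qExpand_jqModC_eq_pow, ← pow_mul]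

include T ι hqM0 in
/-- **(inf, V20)**. -/
theorem branchInf_V20 : BranchInf K M0 O (Th20Inf K M0 q O) := by
  refine branchInf_of_deg_one K M0 O (gaussVS K (M0 * q * q) O) (evG K (M0 * q * q) O)
    (evG_eq_zero_iff K (M0 * q * q) O) (Rinf_le_V20 K M0 q O) (aa K M0 q)
    (fun x hx => aa_mem_V20 K M0 q O hx) (ev20_aa K M0 q O) (deg_one_V20_G0 K M0 q O T ι hqM0)
    (aa_algebraMap K M0 q O) (aa_mem_Rinf K M0 q O) ⟨1, ?_⟩
  rw [evChart_apply, pow_one]
  exact theta_jF_inv K (M0 * q * q) O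

include ι hqM0 in
/-- **(inf, V11)**. -/
theorem branchInf_V11 : BranchInf K M0 O (Th11Inf K M0 q O T) := by
  refine branchInf_of_deg_one K M0 O T.V11 T.ev11 T.ev11_eq_zero_iff (Rinf_le_V11 K M0 q O T)
    (aa K M0 q) (fun x hx => aa_mem_V11 K M0 q O T hx) (ev11_aa K M0 q O T)
    (deg_one_V11_G0 K M0 q O T ι hqM0) (aa_algebraMap K M0 q O) (aa_mem_Rinf K M0 q O) ⟨1, ?_⟩
  rw [evChart_apply, pow_one]
  exact (ev_congr T.ev11 (aa_jF_inv K M0 q).symm _
    (aa_mem_V11 K M0 q O T (jF_inv_mem_gaussSubalgebra K M0 O))).trans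
      ((ev11_aa K M0 q O T _ _).trans (theta_jF_inv K M0 O))

end Terms

/-! ### Consequences for the family `fam3` -/

section Consequences

variable (K : Type) [Field K] [CharZero K] (M0 q : ℕ) [NeZero M0] [hq : Fact q.Prime]
  (O : Subring K) [IsDiscreteValuationRing ↥O] [IsFractionRing ↥O K]
  [CharP (IsLocalRing.ResidueField ↥O) q]
  {sv : SecondVal K M0 q O} (T : ThreeVal K M0 q O sv) (ι : K →+* ℂ) (hqM0 : ¬ q ∣ M0)

include ι hqM0 in
/-- **The three branches of the finite chart**: for every `i` the place of `fam3 i` on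
`Rfin K (M₀ q²) O` is a `BranchFin K M0 O` with kernel `vCentre (fam3 i)`. -/
theorem exists_branchFin
    (hV : ∀ (i : Fin 3) (r : ↥(Rfin K (M0 * q * q) O)),
      algebraMap ↥(Rfin K (M0 * q * q) O) (FF K (M0 * q * q)) r ∈ fam3 K M0 q O T.V11 T.V02 i)
    (i : Fin 3) :
    ∃ Θ : ↥(Rfin K (M0 * q * q) O) →+* LaurentSeries (IsLocalRing.ResidueField ↥O),
      BranchFin K M0 O Θ ∧ RingHom.ker Θ = vCentre (fam3 K M0 q O T.V11 T.V02 i) (hV i) := by
  fin_cases i
  · exact ⟨_, branchFin_V20 K M0 q O T ι hqM0, ker_Th20Fin K M0 q O⟩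
  · exact ⟨_, branchFin_V11 K M0 q O T ι hqM0, ker_Th11Fin K M0 q O T⟩
  · exact ⟨_, branchFin_V02 K M0 q O T, ker_Th02Fin K M0 q O T⟩

include ι hqM0 in
/-- **The branches of the chart at infinity**, given the sixth term `(Rinf, V02)` (helper21's
`One/BranchTopInf02`). -/
theorem exists_branchInf
    (h02 : BranchInf K M0 O (Th02Inf K M0 q O T))
    (hV : ∀ (i : Fin 3) (r : ↥(Rinf K (M0 * q * q) O)),
      algebraMap ↥(Rinf K (M0 * q * q) O) (FF K (M0 * q * q)) r ∈ fam3 K M0 q O T.V11 T.V02 i)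
    (i : Fin 3) :
    ∃ Θ : ↥(Rinf K (M0 * q * q) O) →+* LaurentSeries (IsLocalRing.ResidueField ↥O),
      BranchInf K M0 O Θ ∧ RingHom.ker Θ = vCentre (fam3 K M0 q O T.V11 T.V02 i) (hV i) := by
  fin_cases i
  · exact ⟨_, branchInf_V20 K M0 q O T ι hqM0, ker_Th20Inf K M0 q O⟩
  · exact ⟨_, branchInf_V11 K M0 q O T ι hqM0, ker_Th11Inf K M0 q O T⟩
  · exact ⟨_, h02, ker_Th02Inf K M0 q O T⟩

variable (hN : IsUnit ((M0 : ℕ) : ↥O))
  (hA2 : ∀ x : ↥(gaussSubalgebra K M0 O),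
    theta K M0 O x ∈ modularFunctionFieldFullC (IsLocalRing.ResidueField ↥O) M0)

section Fin

variable (hprime : (fibreIdeal K M0 O (Rfin K M0 O)).IsPrime)
  (hDed : IsDedekindDomain (↥(Rfin K M0 O) ⧸ fibreIdeal K M0 O (Rfin K M0 O)))
  (hV : ∀ (i : Fin 3) (r : ↥(Rfin K (M0 * q * q) O)),
    algebraMap ↥(Rfin K (M0 * q * q) O) (FF K (M0 * q * q)) r ∈ fam3 K M0 q O T.V11 T.V02 i)

include ι hqM0 hN hA2 hprime hDed in
/-- `hD` on the finite chart: the three branches are Dedekind domains. -/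
theorem isDedekindDomain_fin (i : Fin 3) :
    IsDedekindDomain (↥(Rfin K (M0 * q * q) O) ⧸ vCentre (fam3 K M0 q O T.V11 T.V02 i) (hV i)) := by
  obtain ⟨Θ, h, hk⟩ := exists_branchFin K M0 q O T ι hqM0 hV i
  exact h.isDedekindDomain_quotient K M0 O hN hprime hDed hA2 hk

include ι hqM0 hN hA2 hprime hDed in
/-- `hnf` on the finite chart: no branch is a field. -/
theorem not_isField_fin (i : Fin 3) :
    ¬ IsField (↥(Rfin K (M0 * q * q) O) ⧸ vCentre (fam3 K M0 q O T.V11 T.V02 i) (hV i)) := by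
  obtain ⟨Θ, h, hk⟩ := exists_branchFin K M0 q O T ι hqM0 hV i
  exact h.not_isField_quotient K M0 O hN hA2 hprime hDed hk

set_option maxHeartbeats 800000 in
include ι hqM0 hN hA2 hprime hDed in
/-- **`(I-R)(R-b)` on the finite chart**, at every prime containing the centre of `fam3 i`. -/
theorem isPrincipalIdealRing_fin [IsFractionRing ↥(Rfin K (M0 * q * q) O) (FF K (M0 * q * q))]
    [IsNoetherianRing ↥(Rfin K (M0 * q * q) O)] (i : Fin 3)
    (𝔫 : Ideal ↥(Rfin K (M0 * q * q) O)) [𝔫.IsPrime]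
    (hle : vCentre (fam3 K M0 q O T.V11 T.V02 i) (hV i) ≤ 𝔫) :
    IsPrincipalIdealRing (locAt (F := FF K (M0 * q * q)) 𝔫 ⧸
      LocalRoot.centre (fam3 K M0 q O T.V11 T.V02 i)
        (algebraMap_locAt_mem (fam3 K M0 q O T.V11 T.V02 i) (hV i) 𝔫 hle)) := by
  obtain ⟨Θ, h, hk⟩ := exists_branchFin K M0 q O T ι hqM0 hV i
  exact h.isPrincipalIdealRing K M0 O hN hprime hDed hA2 _ (hV i) hk 𝔫 hle

set_option maxHeartbeats 800000 in
include ι hqM0 hN hA2 hprime hDed in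
/-- `(I-R)(R-b)` on the finite chart in the `LocalRoot.centre` vocabulary (the `hPID` of
`Descent/LocalRootsInst`, `Cusp/Plug`): ANY proof `hmem` of `locAt 𝔫 ⊆ fam3 i` is accepted. -/
theorem isPrincipalIdealRing_fin_centre
    [IsFractionRing ↥(Rfin K (M0 * q * q) O) (FF K (M0 * q * q))]
    [IsNoetherianRing ↥(Rfin K (M0 * q * q) O)] (i : Fin 3)
    (𝔫 : Ideal ↥(Rfin K (M0 * q * q) O)) [𝔫.IsPrime]
    (hle : LocalRoot.centre (fam3 K M0 q O T.V11 T.V02 i) (hV i) ≤ 𝔫)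
    (hmem : ∀ b : locAt (F := FF K (M0 * q * q)) 𝔫,
      algebraMap (locAt (F := FF K (M0 * q * q)) 𝔫) (FF K (M0 * q * q)) b ∈
        fam3 K M0 q O T.V11 T.V02 i) :
    IsPrincipalIdealRing (locAt (F := FF K (M0 * q * q)) 𝔫 ⧸
      LocalRoot.centre (fam3 K M0 q O T.V11 T.V02 i) hmem) := by
  have hle' : vCentre (fam3 K M0 q O T.V11 T.V02 i) (hV i) ≤ 𝔫 := fun r hr =>
    hle (LocalRoot.mem_centre.2 ((mem_vCentre_iff _ (hV i)).1 hr))
  exact isPrincipalIdealRing_fin K M0 q O T ι hqM0 hN hA2 hprime hDed hV i 𝔫 hle'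

end Fin

section Inf

variable (hprimeInf : (fibreIdeal K M0 O (Rinf K M0 O)).IsPrime)
  (hDedInf : IsDedekindDomain (↥(Rinf K M0 O) ⧸ fibreIdeal K M0 O (Rinf K M0 O)))
  (h02 : BranchInf K M0 O (Th02Inf K M0 q O T))
  (hV : ∀ (i : Fin 3) (r : ↥(Rinf K (M0 * q * q) O)),
    algebraMap ↥(Rinf K (M0 * q * q) O) (FF K (M0 * q * q)) r ∈ fam3 K M0 q O T.V11 T.V02 i)

include ι hqM0 hN hA2 hprimeInf hDedInf h02 in
/-- `hD` on the chart at infinity. -/
theorem isDedekindDomain_inf (i : Fin 3) :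
    IsDedekindDomain (↥(Rinf K (M0 * q * q) O) ⧸ vCentre (fam3 K M0 q O T.V11 T.V02 i) (hV i)) := by
  obtain ⟨Θ, h, hk⟩ := exists_branchInf K M0 q O T ι hqM0 h02 hV i
  exact h.isDedekindDomain_quotient K M0 O hN hprimeInf hDedInf hA2 hk

include ι hqM0 hN hA2 hprimeInf hDedInf h02 in
/-- `hnf` on the chart at infinity. -/
theorem not_isField_inf (i : Fin 3) :
    ¬ IsField (↥(Rinf K (M0 * q * q) O) ⧸ vCentre (fam3 K M0 q O T.V11 T.V02 i) (hV i)) := by
  obtain ⟨Θ, h, hk⟩ := exists_branchInf K M0 q O T ι hqM0 h02 hV i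
  exact h.not_isField_quotient K M0 O hN hA2 hprimeInf hDedInf hk

set_option maxHeartbeats 800000 in
include ι hqM0 hN hA2 hprimeInf hDedInf h02 in
/-- **`(I-R)(R-b)` on the chart at infinity**, at every prime containing the centre of `fam3 i`. -/
theorem isPrincipalIdealRing_inf [IsFractionRing ↥(Rinf K (M0 * q * q) O) (FF K (M0 * q * q))]
    [IsNoetherianRing ↥(Rinf K (M0 * q * q) O)] (i : Fin 3)
    (𝔫 : Ideal ↥(Rinf K (M0 * q * q) O)) [𝔫.IsPrime]
    (hle : vCentre (fam3 K M0 q O T.V11 T.V02 i) (hV i) ≤ 𝔫) :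
    IsPrincipalIdealRing (locAt (F := FF K (M0 * q * q)) 𝔫 ⧸
      LocalRoot.centre (fam3 K M0 q O T.V11 T.V02 i)
        (algebraMap_locAt_mem (fam3 K M0 q O T.V11 T.V02 i) (hV i) 𝔫 hle)) := by
  obtain ⟨Θ, h, hk⟩ := exists_branchInf K M0 q O T ι hqM0 h02 hV i
  exact h.isPrincipalIdealRing K M0 O hN hprimeInf hDedInf hA2 _ (hV i) hk 𝔫 hle

set_option maxHeartbeats 800000 in
include ι hqM0 hN hA2 hprimeInf hDedInf h02 in
/-- `(I-R)(R-b)` on the chart at infinity in the `LocalRoot.centre` vocabulary. -/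
theorem isPrincipalIdealRing_inf_centre
    [IsFractionRing ↥(Rinf K (M0 * q * q) O) (FF K (M0 * q * q))]
    [IsNoetherianRing ↥(Rinf K (M0 * q * q) O)] (i : Fin 3)
    (𝔫 : Ideal ↥(Rinf K (M0 * q * q) O)) [𝔫.IsPrime]
    (hle : LocalRoot.centre (fam3 K M0 q O T.V11 T.V02 i) (hV i) ≤ 𝔫)
    (hmem : ∀ b : locAt (F := FF K (M0 * q * q)) 𝔫,
      algebraMap (locAt (F := FF K (M0 * q * q)) 𝔫) (FF K (M0 * q * q)) b ∈
        fam3 K M0 q O T.V11 T.V02 i) :
    IsPrincipalIdealRing (locAt (F := FF K (M0 * q * q)) 𝔫 ⧸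
      LocalRoot.centre (fam3 K M0 q O T.V11 T.V02 i) hmem) := by
  have hle' : vCentre (fam3 K M0 q O T.V11 T.V02 i) (hV i) ≤ 𝔫 := fun r hr =>
    hle (LocalRoot.mem_centre.2 ((mem_vCentre_iff _ (hV i)).1 hr))
  exact isPrincipalIdealRing_inf K M0 q O T ι hqM0 hN hA2 hprimeInf hDedInf h02 hV i 𝔫 hle'

end Inf

end Consequences

end Fermat.Agent.S36.One.BranchTop
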