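/-
S36 leaf [BRANCH] (helper6), glue: **all six branches of the two charts of `FF K (M₀ q²)`** —
`One/BranchTop` (five formal terms) + helper21's `One/BranchTopInf02` (the sixth term
`(Rinf, V02)`), with the Noetherian / fraction-ring instances of the charts discharged.

For `T : ThreeVal K M0 q O sv`, `V = fam3 K M0 q O T.V11 T.V02`, ANY `hV`, every `i : Fin 3`:

* `hD_fin`, `hnf_fin`, `hPID_fin` on `Rfin K (M₀ q²) O`;
* `hD_inf`, `hnf_inf`, `hPID_inf` on `Rinf K (M₀ q²) O`.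
-/
import Mathlib
import Fermat.Agent.S36.One.BranchTop
import Fermat.Agent.S36.One.BranchTopInf02
import Fermat.Agent.N4F.C.ChartDataLevel

set_option autoImplicit false
set_option linter.unusedSectionVars false
set_option linter.style.haveILetI false

open ModularCurve Fermat.Agent.S28.Gauss Fermat.Agent.N4.Setting Fermat.Agent.N4.FibreEmbedding
open Fermat.Agent.N4.Chart
open Fermat.Agent.N4F.E.DegreeLevelRaise Fermat.Agent.N4F.E.GaussDVR
open Fermat.Agent.N4.Cover.Globalize Fermat.Agent.P3G.Krull Fermat.Agent.S36.Local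
open Fermat.Agent.S36.One.BranchInst Fermat.Agent.S36.One.BranchOfVal
open Fermat.Agent.P3G.SecondValuation Fermat.Agent.S36.V.ThreeVal
open Fermat.Agent.S36.C.ThreeValCover Fermat.Agent.S36.One.BranchTop
open Fermat.Agent.N4F.C.ChartDataLevel

noncomputable section

namespace Fermat.Agent.S36.One.BranchTopAll

variable (K : Type) [Field K] [CharZero K] (M0 q : ℕ) [NeZero M0] [hq : Fact q.Prime]
  (O : Subring K) [IsDiscreteValuationRing ↥O] [IsFractionRing ↥O K]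
  [CharP (IsLocalRing.ResidueField ↥O) q]
  {sv : SecondVal K M0 q O} (T : ThreeVal K M0 q O sv) (ι : K →+* ℂ) (hqM0 : ¬ q ∣ M0)

/-- **The sixth term**, for the place `Th02Inf` of `One/BranchTop`. -/
theorem branchInf_V02 : BranchInf K M0 O (Th02Inf K M0 q O T) := by
  haveI := isNoetherianRing_Rinf K (M0 * q * q) O
  haveI := isFractionRing_Rinf K (M0 * q * q) O
  exact Fermat.Agent.S36.One.BranchTopInf02.branchInf_V02 T

variable (hN : IsUnit ((M0 : ℕ) : ↥O))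
  (hA2 : ∀ x : ↥(gaussSubalgebra K M0 O),
    theta K M0 O x ∈ modularFunctionFieldFullC (IsLocalRing.ResidueField ↥O) M0)

section Fin

variable (hprime : (fibreIdeal K M0 O (Rfin K M0 O)).IsPrime)
  (hDed : IsDedekindDomain (↥(Rfin K M0 O) ⧸ fibreIdeal K M0 O (Rfin K M0 O)))
  (hV : ∀ (i : Fin 3) (r : ↥(Rfin K (M0 * q * q) O)),
    algebraMap ↥(Rfin K (M0 * q * q) O) (FF K (M0 * q * q)) r ∈ fam3 K M0 q O T.V11 T.V02 i)

include ι hqM0 hN hA2 hprime hDed in
/-- `hD` on the finite chart. -/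
theorem hD_fin : ∀ i : Fin 3,
    IsDedekindDomain (↥(Rfin K (M0 * q * q) O) ⧸ vCentre (fam3 K M0 q O T.V11 T.V02 i) (hV i)) :=
  isDedekindDomain_fin K M0 q O T ι hqM0 hN hA2 hprime hDed hV

include ι hqM0 hN hA2 hprime hDed in
/-- `hnf` on the finite chart. -/
theorem hnf_fin : ∀ i : Fin 3,
    ¬ IsField (↥(Rfin K (M0 * q * q) O) ⧸ vCentre (fam3 K M0 q O T.V11 T.V02 i) (hV i)) :=
  not_isField_fin K M0 q O T ι hqM0 hN hA2 hprime hDed hV

set_option maxHeartbeats 800000 in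
include ι hqM0 hN hA2 hprime hDed in
/-- **`hPID` on the finite chart** (`(I-R)(R-b)` at every prime through a branch; any instances). -/
theorem hPID_fin [IsFractionRing ↥(Rfin K (M0 * q * q) O) (FF K (M0 * q * q))]
    [IsNoetherianRing ↥(Rfin K (M0 * q * q) O)]
    (𝔫 : Ideal ↥(Rfin K (M0 * q * q) O)) [𝔫.IsPrime] (i : Fin 3)
    (hle : LocalRoot.centre (fam3 K M0 q O T.V11 T.V02 i) (hV i) ≤ 𝔫)
    (hmem : ∀ b : locAt (F := FF K (M0 * q * q)) 𝔫,
      algebraMap (locAt (F := FF K (M0 * q * q)) 𝔫) (FF K (M0 * q * q)) b ∈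
        fam3 K M0 q O T.V11 T.V02 i) :
    IsPrincipalIdealRing (locAt (F := FF K (M0 * q * q)) 𝔫 ⧸
      LocalRoot.centre (fam3 K M0 q O T.V11 T.V02 i) hmem) :=
  isPrincipalIdealRing_fin_centre K M0 q O T ι hqM0 hN hA2 hprime hDed hV i 𝔫 hle hmem

end Fin

section Inf

variable (hprimeInf : (fibreIdeal K M0 O (Rinf K M0 O)).IsPrime)
  (hDedInf : IsDedekindDomain (↥(Rinf K M0 O) ⧸ fibreIdeal K M0 O (Rinf K M0 O)))
  (hV : ∀ (i : Fin 3) (r : ↥(Rinf K (M0 * q * q) O)),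
    algebraMap ↥(Rinf K (M0 * q * q) O) (FF K (M0 * q * q)) r ∈ fam3 K M0 q O T.V11 T.V02 i)

include ι hqM0 hN hA2 hprimeInf hDedInf in
/-- `hD` on the chart at infinity. -/
theorem hD_inf : ∀ i : Fin 3,
    IsDedekindDomain (↥(Rinf K (M0 * q * q) O) ⧸ vCentre (fam3 K M0 q O T.V11 T.V02 i) (hV i)) :=
  isDedekindDomain_inf K M0 q O T ι hqM0 hN hA2 hprimeInf hDedInf (branchInf_V02 K M0 q O T) hV

include ι hqM0 hN hA2 hprimeInf hDedInf in
/-- `hnf` on the chart at infinity. -/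
theorem hnf_inf : ∀ i : Fin 3,
    ¬ IsField (↥(Rinf K (M0 * q * q) O) ⧸ vCentre (fam3 K M0 q O T.V11 T.V02 i) (hV i)) :=
  not_isField_inf K M0 q O T ι hqM0 hN hA2 hprimeInf hDedInf (branchInf_V02 K M0 q O T) hV

set_option maxHeartbeats 800000 in
include ι hqM0 hN hA2 hprimeInf hDedInf in
/-- **`hPID` on the chart at infinity.** -/
theorem hPID_inf [IsFractionRing ↥(Rinf K (M0 * q * q) O) (FF K (M0 * q * q))]
    [IsNoetherianRing ↥(Rinf K (M0 * q * q) O)]
    (𝔫 : Ideal ↥(Rinf K (M0 * q * q) O)) [𝔫.IsPrime] (i : Fin 3)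
    (hle : LocalRoot.centre (fam3 K M0 q O T.V11 T.V02 i) (hV i) ≤ 𝔫)
    (hmem : ∀ b : locAt (F := FF K (M0 * q * q)) 𝔫,
      algebraMap (locAt (F := FF K (M0 * q * q)) 𝔫) (FF K (M0 * q * q)) b ∈
        fam3 K M0 q O T.V11 T.V02 i) :
    IsPrincipalIdealRing (locAt (F := FF K (M0 * q * q)) 𝔫 ⧸
      LocalRoot.centre (fam3 K M0 q O T.V11 T.V02 i) hmem) :=
  isPrincipalIdealRing_inf_centre K M0 q O T ι hqM0 hN hA2 hprimeInf hDedInf
    (branchInf_V02 K M0 q O T) hV i 𝔫 hle hmem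

end Inf

end Fermat.Agent.S36.One.BranchTopAll
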