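/-
S36 block [ONE] (helper21), file 3: **the closed points lying on exactly one vertical component of
multiplicity one, in the vocabulary of the spine** (ONE-I).

`R` a chart (noetherian domain with fraction field `F`; in the application the finite chart
`chartAlg O F {j}` or the chart at infinity `chartAlg O F {j⁻¹}` of level `q² M₀'`), `O` the base ring
with uniformiser `π`, `V i` the vertical valuation rings, `W = ⋂ V i`.  Inputs in exactly the shapes
produced by the other blocks: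

* `hSG : IsSemiGaussRing W (algebraMap O R π)`           (block [C], `SemiGaussTower`),
* `hT : FamVal π W V E`                                    (block [C], `PowCoverFam` / `FamValOfUnif`),
  or the list of uniformisers `Π i`, `π = u_i Π_i ^ (e i)` of `FamValOfUnif`, with `e i₀ = 1`,
* `Classify.OnlyOne V hV i₀ 𝔫`                            (block [PTS]),
* `IsDedekindDomain (R ⧸ vCentre (V i₀))`, not a field     (block [BRANCH]).

Output: the interface `(I-R)` of block [L] at `𝔫` — `locAt 𝔫` is factorial, and the branch through `𝔫`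
is smooth (`locAt 𝔫 ⧸ centre (V i₀)` is a principal ideal ring); moreover `π` is a prime element of
`locAt 𝔫` generating the centre of `V i₀`.

The statements are chart-agnostic and index-agnostic: they apply to `T(𝔫) = {20}`, `{02}` (both
charts, in particular the cusps on `C20`, `C02`), and to `T(𝔫) = {11}` when `q = 2`
(`e(V11) = q - 1 = 1`).
-/
import Mathlib
import Fermat.Agent.S36.One.OneBranch
import Fermat.Agent.S36.C.FamValOfUnif
import Fermat.Agent.S36.Points.Classify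

set_option autoImplicit false
set_option linter.unusedSectionVars false
set_option linter.style.haveILetI false

namespace Fermat.Agent.S36.One.OneChart

open Fermat.Agent.N4.Cover.Globalize Fermat.Agent.P3G.Krull Fermat.Agent.P3G.Cover.Lift
  Fermat.Agent.P3G.Cover.OfValuations Fermat.Agent.S36.C.PowCoverFam
  Fermat.Agent.S36.One.OneBranch Fermat.Agent.S36.Local.LocalRoot
  Fermat.Agent.S36.Points.Classify

universe u

/-! ### A uniformiser up to a unit -/

section Unif

variable {F : Type*} [Field F]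

/-- If `π = u Π` with `u` a unit of `A` and `Π` a uniformiser of `A`, then `π` is a uniformiser. -/
theorem unif_of_eq_unit_mul (A : ValuationSubring F) {π Pi u : F}
    (hunif : ∀ x ∈ A.nonunits, x * Pi⁻¹ ∈ A) (hu : u⁻¹ ∈ A) (hπ : π = u * Pi) :
    ∀ x ∈ A.nonunits, x * π⁻¹ ∈ A := by
  intro x hx
  have h1 : x * π⁻¹ = x * Pi⁻¹ * u⁻¹ := by
    rw [hπ, mul_inv]; ring
  rw [h1]
  exact A.mul_mem _ _ (hunif x hx) hu

end Unif

/-! ### One-branch points -/

section Chart

variable {O R : Type*} [CommRing O] [CommRing R] [IsDomain R] [IsNoetherianRing R]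
  {F : Type u} [Field F] [Algebra O R] [Algebra R F] [Algebra O F] [IsScalarTower O R F]
  [IsFractionRing R F]
  {ι : Type*} [Finite ι] (V : ι → ValuationSubring F)
  (hV : ∀ i (r : R), algebraMap R F r ∈ V i) {π : O} {W : Subring F} {E : ℕ}

omit [IsDomain R] [IsNoetherianRing R] [IsFractionRing R F] [Finite ι] in
/-- The image of `π` in `F` through `R`. -/
theorem algebraMap_pi (π : O) : algebraMap R F (algebraMap O R π) = algebraMap O F π :=
  (IsScalarTower.algebraMap_apply O R F π).symm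

omit [IsNoetherianRing R] [IsFractionRing R F] [Finite ι] in
/-- The saturation hypothesis of `OneBranch`, from a semilocal Gauss ring `W = ⋂ V i`. -/
theorem hsat_of_semiGauss (hSG : IsSemiGaussRing W (algebraMap O R π)) (hT : FamVal π W V E)
    (r : R)
    (h : ∀ i, algebraMap R F r * (algebraMap R F (algebraMap O R π))⁻¹ ∈ V i) :
    algebraMap O R π ∣ r := by
  refine hSG.sat r ⟨algebraMap R F r * (algebraMap R F (algebraMap O R π))⁻¹,
    (hT.mem_iff _).2 h, ?_⟩
  have h0 : algebraMap R F (algebraMap O R π) ≠ 0 := by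
    rw [algebraMap_pi]; exact hT.pi_ne
  rw [mul_comm (algebraMap R F r), ← mul_assoc, mul_inv_cancel₀ h0, one_mul]

omit [IsDomain R] [IsNoetherianRing R] [IsFractionRing R F] [Finite ι] in
/-- The exponent hypothesis of `OneBranch`, from `FamVal`. -/
theorem hpow_of_famVal (hT : FamVal π W V E) (i : ι) (x : F) (hx : x ∈ (V i).nonunits) :
    x ^ E * (algebraMap R F (algebraMap O R π))⁻¹ ∈ V i := by
  rw [algebraMap_pi]
  exact hT.pow_unif i x hx

variable (𝔫 : Ideal R) [h𝔫 : 𝔫.IsMaximal] (i₀ : ι)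
  (hi₀ : vCentre (V i₀) (hV i₀) ≤ 𝔫)
  (honly : ∀ i, vCentre (V i) (hV i) ≤ 𝔫 → i = i₀)

include honly in
/-- **(I-R) at a closed point on exactly one vertical component of multiplicity one**, from a
semilocal Gauss ring and `FamVal`. -/
theorem one_branch_of_semiGauss (hSG : IsSemiGaussRing W (algebraMap O R π))
    (hT : FamVal π W V E)
    (hunif : ∀ x ∈ (V i₀).nonunits, x * (algebraMap O F π)⁻¹ ∈ V i₀)
    (hD : IsDedekindDomain (R ⧸ vCentre (V i₀) (hV i₀)))
    (hnf : ¬ IsField (R ⧸ vCentre (V i₀) (hV i₀))) :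
    Prime (algebraMap R (locAt (F := F) 𝔫) (algebraMap O R π)) ∧
    centre (V i₀) (OneBranch.mem_of_mem_locAt (V i₀) (hV i₀) 𝔫 hi₀) =
      Ideal.span {algebraMap R (locAt (F := F) 𝔫) (algebraMap O R π)} ∧
    UniqueFactorizationMonoid (locAt (F := F) 𝔫) ∧
    IsPrincipalIdealRing
      (locAt (F := F) 𝔫 ⧸ centre (V i₀) (OneBranch.mem_of_mem_locAt (V i₀) (hV i₀) 𝔫 hi₀)) := by
  refine one_branch V hV (algebraMap O R π) (hsat_of_semiGauss V hSG hT) E
    (hpow_of_famVal V hT) 𝔫 i₀ hi₀ honly ?_ ?_ hD hnf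
  · intro x hx
    rw [algebraMap_pi]
    exact hunif x hx
  · rw [algebraMap_pi]
    exact hT.pi_mem i₀

include honly in
/-- **(I-R) at a closed point on exactly one vertical component of multiplicity one**, from the
list of uniformisers of block [C] (`FamValOfUnif`): `π = u_i Π_i ^ (e i)`, `1 ≤ e i ≤ E`,
`e i₀ = 1`. -/
theorem one_branch_of_uniformisers (hSG : IsSemiGaussRing (iInfSubring V) (algebraMap O R π))
    (Pi : ι → F) (e : ι → ℕ) (he : ∀ i, 1 ≤ e i ∧ e i ≤ E)
    (hPi : ∀ i, Pi i ∈ (V i).nonunits)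
    (hunif : ∀ i, ∀ x ∈ (V i).nonunits, x * (Pi i)⁻¹ ∈ V i)
    (hπ : ∀ i, ∃ u : F, u ∈ V i ∧ u⁻¹ ∈ V i ∧ algebraMap O F π = u * Pi i ^ e i)
    (he₀ : e i₀ = 1)
    (hD : IsDedekindDomain (R ⧸ vCentre (V i₀) (hV i₀)))
    (hnf : ¬ IsField (R ⧸ vCentre (V i₀) (hV i₀))) :
    Prime (algebraMap R (locAt (F := F) 𝔫) (algebraMap O R π)) ∧
    centre (V i₀) (OneBranch.mem_of_mem_locAt (V i₀) (hV i₀) 𝔫 hi₀) =
      Ideal.span {algebraMap R (locAt (F := F) 𝔫) (algebraMap O R π)} ∧
    UniqueFactorizationMonoid (locAt (F := F) 𝔫) ∧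
    IsPrincipalIdealRing
      (locAt (F := F) 𝔫 ⧸ centre (V i₀) (OneBranch.mem_of_mem_locAt (V i₀) (hV i₀) 𝔫 hi₀)) := by
  have hπ0 : algebraMap O F π ≠ 0 := by
    have := hSG.ne_zero
    rwa [algebraMap_pi] at this
  have hT : FamVal π (iInfSubring V) V E :=
    Fermat.Agent.S36.C.FamValOfUnif.famVal_of_uniformisers V π E Pi e he hPi hunif hπ hπ0
  obtain ⟨u, -, hui, hu⟩ := hπ i₀
  rw [he₀, pow_one] at hu
  exact one_branch_of_semiGauss V hV 𝔫 i₀ hi₀ honly hSG hT
    (unif_of_eq_unit_mul (V i₀) (hunif i₀) hui hu) hD hnf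

end Chart

/-! ### The three vertical components of level `q² M₀'` -/

section Three

variable {O R : Type*} [CommRing O] [CommRing R] [IsDomain R] [IsNoetherianRing R]
  {F : Type u} [Field F] [Algebra O R] [Algebra R F] [Algebra O F] [IsScalarTower O R F]
  [IsFractionRing R F]
  (V : Fin 3 → ValuationSubring F) (hV : ∀ i (r : R), algebraMap R F r ∈ V i)
  {π : O} {W : Subring F} {E : ℕ}

omit [IsDomain R] [IsNoetherianRing R] [IsFractionRing R F] in
/-- `OnlyOne` in the form used by `OneBranch`. -/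
theorem honly_of_onlyOne {𝔫 : Ideal R} {i₀ : Fin 3} (h : OnlyOne V hV i₀ 𝔫) :
    ∀ i, vCentre (V i) (hV i) ≤ 𝔫 → i = i₀ := by
  intro i hi
  by_contra hne
  exact h.2 i hne hi

/-- **ONE-I**: `(I-R)` at a point with `T(𝔫) = {i₀}`, `e(i₀) = 1`, in the vocabulary of [PTS]. -/
theorem one_branch_of_onlyOne (𝔫 : Ideal R) [𝔫.IsMaximal] (i₀ : Fin 3)
    (h : OnlyOne V hV i₀ 𝔫) (hSG : IsSemiGaussRing W (algebraMap O R π))
    (hT : FamVal π W V E)
    (hunif : ∀ x ∈ (V i₀).nonunits, x * (algebraMap O F π)⁻¹ ∈ V i₀)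
    (hD : IsDedekindDomain (R ⧸ vCentre (V i₀) (hV i₀)))
    (hnf : ¬ IsField (R ⧸ vCentre (V i₀) (hV i₀))) :
    Prime (algebraMap R (locAt (F := F) 𝔫) (algebraMap O R π)) ∧
    centre (V i₀) (OneBranch.mem_of_mem_locAt (V i₀) (hV i₀) 𝔫 h.1) =
      Ideal.span {algebraMap R (locAt (F := F) 𝔫) (algebraMap O R π)} ∧
    UniqueFactorizationMonoid (locAt (F := F) 𝔫) ∧
    IsPrincipalIdealRing
      (locAt (F := F) 𝔫 ⧸ centre (V i₀) (OneBranch.mem_of_mem_locAt (V i₀) (hV i₀) 𝔫 h.1)) :=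
  one_branch_of_semiGauss V hV 𝔫 i₀ h.1 (honly_of_onlyOne V hV h) hSG hT hunif hD hnf

/-- **ONE-I**, from the list of uniformisers. -/
theorem one_branch_of_onlyOne_of_uniformisers (𝔫 : Ideal R) [𝔫.IsMaximal] (i₀ : Fin 3)
    (h : OnlyOne V hV i₀ 𝔫)
    (hSG : IsSemiGaussRing (iInfSubring V) (algebraMap O R π))
    (Pi : Fin 3 → F) (e : Fin 3 → ℕ) (he : ∀ i, 1 ≤ e i ∧ e i ≤ E)
    (hPi : ∀ i, Pi i ∈ (V i).nonunits)
    (hunif : ∀ i, ∀ x ∈ (V i).nonunits, x * (Pi i)⁻¹ ∈ V i)
    (hπ : ∀ i, ∃ u : F, u ∈ V i ∧ u⁻¹ ∈ V i ∧ algebraMap O F π = u * Pi i ^ e i)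
    (he₀ : e i₀ = 1)
    (hD : IsDedekindDomain (R ⧸ vCentre (V i₀) (hV i₀)))
    (hnf : ¬ IsField (R ⧸ vCentre (V i₀) (hV i₀))) :
    Prime (algebraMap R (locAt (F := F) 𝔫) (algebraMap O R π)) ∧
    centre (V i₀) (OneBranch.mem_of_mem_locAt (V i₀) (hV i₀) 𝔫 h.1) =
      Ideal.span {algebraMap R (locAt (F := F) 𝔫) (algebraMap O R π)} ∧
    UniqueFactorizationMonoid (locAt (F := F) 𝔫) ∧
    IsPrincipalIdealRing
      (locAt (F := F) 𝔫 ⧸ centre (V i₀) (OneBranch.mem_of_mem_locAt (V i₀) (hV i₀) 𝔫 h.1)) :=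
  one_branch_of_uniformisers V hV 𝔫 i₀ h.1 (honly_of_onlyOne V hV h) hSG Pi e he hPi hunif hπ he₀
    hD hnf

end Three

end Fermat.Agent.S36.One.OneChart
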