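/-
S36 block [ONE] (helper21), file 7: **the (R-a) inputs `hUFD0`, `hUFD2` (and `hUFD1` for `q = 2`) of the
point dispatcher `Descent/SpinePoints.hpt_of_blocks`**, from `T : ThreeVal K M0 q O sv` and
`H : ChartHyp V hV π E`.

* `one_branch_of_chartHyp` : `(I-R)` (factoriality of `R_𝔫` and `R_𝔫 ⧸ centre` principal) at a
  closed point `𝔫` of a chart `R` lying on exactly one vertical component `V i₀` of multiplicity one
  (`π` a uniformiser of `V i₀`), in the `ChartHyp` vocabulary of blocks [L]/[D], from the branch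
  being a Dedekind domain which is not a field (block [BRANCH]);
* `hUFD0`, `hUFD2` : the points on `C20` only, resp. `C02` only (`V 0 = gaussVS`, `V 2 = T.V02`;
  uniformiser: `Transport.ram_one_gaussVS`, `T.ram_one_V02`);
* `hUFD1_two` : the points on `C11` only when `q = 2` (`q = w Π^(q-1) = w Π`: `V11` is unramified).

`R` is ANY chart (abstract), so the same theorems serve the finite chart and the chart at infinity.
-/
import Mathlib
import Fermat.Agent.S36.One.OneChart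
import Fermat.Agent.S36.D.ChartRoots
import Fermat.Agent.S36.V.ThreeVal

set_option autoImplicit false
set_option linter.unusedSectionVars false
set_option linter.unusedVariables false
set_option linter.style.haveILetI false

open ModularCurve Fermat.Agent.S28.Gauss Fermat.Agent.N4.Setting Fermat.Agent.N4.FibreEmbedding
open Fermat.Agent.N4F.E.DegreeLevelRaise Fermat.Agent.N4F.E.GaussDVR
open Fermat.Agent.N4.Cover.Globalize Fermat.Agent.P3G.Krull
open Fermat.Agent.S36.Local.LocalRoot Fermat.Agent.S36.Local.Spread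
  Fermat.Agent.S36.Local.ChartSpread Fermat.Agent.S36.D.ChartRoots
open Fermat.Agent.P3G.SecondValuation Fermat.Agent.S36.V.ThreeVal Fermat.Agent.S36.V.MidVal

noncomputable section

namespace Fermat.Agent.S36.One.OneTop

universe u

/-! ### `(I-R)` at a one-branch point, in the `ChartHyp` vocabulary -/

section Abstract

variable {O : Type*} [CommRing O] [IsDomain O] [IsDiscreteValuationRing O]
variable {R : Type*} [CommRing R] [IsDomain R] [IsNoetherianRing R] [Algebra O R]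
variable {F : Type u} [Field F] [Algebra R F] [IsFractionRing R F] [Algebra O F]
  [IsScalarTower O R F]
variable {ι : Type*} [Fintype ι]
variable {V : ι → ValuationSubring F} {hV : ∀ i (r : R), algebraMap R F r ∈ V i}

omit [IsDomain R] [IsNoetherianRing R] [IsFractionRing R F] in
/-- The two centres coincide. -/
theorem vCentre_eq_centre (A : ValuationSubring F) (hA : ∀ r : R, algebraMap R F r ∈ A) :
    vCentre A hA = centre A hA := by
  ext r
  rw [mem_vCentre_iff, mem_centre]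

/-- **`(I-R)` at a closed point on exactly one vertical component of multiplicity one**, from
`ChartHyp` and the branch being a Dedekind domain, not a field. -/
theorem one_branch_of_chartHyp {π : O} {E : ℕ} (H : ChartHyp V hV π E)
    (𝔫 : Ideal R) [𝔫.IsPrime] (h𝔫 : 𝔫.IsMaximal) (i₀ : ι)
    (hi₀ : centre (V i₀) (hV i₀) ≤ 𝔫)
    (honly : ∀ j, j ≠ i₀ → ¬ centre (V j) (hV j) ≤ 𝔫)
    (hunif : ∀ x ∈ (V i₀).nonunits, x * (algebraMap R F (algebraMap O R π))⁻¹ ∈ V i₀)
    (hD : IsDedekindDomain (R ⧸ vCentre (V i₀) (hV i₀)))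
    (hnf : ¬ IsField (R ⧸ vCentre (V i₀) (hV i₀))) :
    UniqueFactorizationMonoid (locAt (F := F) 𝔫) ∧
      IsPrincipalIdealRing (locAt (F := F) 𝔫 ⧸
        centre (V i₀) (fun b => locAt_le 𝔫 (V i₀) (hV i₀) hi₀ b)) := by
  haveI := h𝔫
  have hi₀' : vCentre (V i₀) (hV i₀) ≤ 𝔫 := by rwa [vCentre_eq_centre]
  have honly' : ∀ i, vCentre (V i) (hV i) ≤ 𝔫 → i = i₀ := fun i hi => by
    by_contra hne
    exact honly i hne (by rwa [← vCentre_eq_centre])
  have hϖ0 : algebraMap R F (algebraMap O R π) ≠ 0 := fun h0 =>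
    H.ne ((IsFractionRing.injective R F) (by rw [h0, map_zero]))
  have hsat : ∀ r : R, (∀ i, algebraMap R F r * (algebraMap R F (algebraMap O R π))⁻¹ ∈ V i) →
      algebraMap O R π ∣ r := fun r h =>
    H.sat r fun i => ⟨_, h i, by
      rw [mul_comm (algebraMap R F r), ← mul_assoc, mul_inv_cancel₀ hϖ0, one_mul]⟩
  have hpow : ∀ i (x : F), x ∈ (V i).nonunits →
      x ^ E * (algebraMap R F (algebraMap O R π))⁻¹ ∈ V i := fun i x hx => by
    obtain ⟨w, hw, hxw⟩ := H.pow i x hx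
    rw [hxw, mul_comm, ← mul_assoc, inv_mul_cancel₀ hϖ0, one_mul]
    exact hw
  obtain ⟨-, -, hU, hP⟩ := Fermat.Agent.S36.One.OneBranch.one_branch V hV (algebraMap O R π) hsat E
    hpow 𝔫 i₀ hi₀' honly' hunif (H.mem i₀) hD hnf
  exact ⟨hU, hP⟩

end Abstract

/-! ### The three one-branch cases at level `M0 q q` -/

section Three

variable {K : Type} [Field K] [CharZero K] {M0 q : ℕ} [NeZero M0] [hq : Fact q.Prime]
  {O : Subring K} [IsDiscreteValuationRing ↥O] [IsFractionRing ↥O K]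
  {sv : SecondVal K M0 q O} (T : ThreeVal K M0 q O sv)
variable {R : Type*} [CommRing R] [IsDomain R] [IsNoetherianRing R] [Algebra ↥O R]
  [Algebra R (FF K (M0 * q * q))] [IsFractionRing R (FF K (M0 * q * q))]
  [IsScalarTower ↥O R (FF K (M0 * q * q))]
variable {V : Fin 3 → ValuationSubring (FF K (M0 * q * q))}
  {hV : ∀ i (r : R), algebraMap R (FF K (M0 * q * q)) r ∈ V i} {π : ↥O} {E : ℕ}

omit [IsDomain R] [IsNoetherianRing R] [IsFractionRing R (FF K (M0 * q * q))] in
/-- The image of `π` in `F₂` through the chart. -/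
theorem algebraMap_pi (π : ↥O) :
    algebraMap R (FF K (M0 * q * q)) (algebraMap ↥O R π) =
      algebraMap K (FF K (M0 * q * q)) (π : K) :=
  (IsScalarTower.algebraMap_apply ↥O R (FF K (M0 * q * q)) π).symm

/-- **`hUFD0` of `SpinePoints.hpt_of_blocks`**: the local ring at a closed point lying on `C20` only
is factorial. -/
theorem hUFD0 (H : ChartHyp V hV π E) (hV0 : V 0 = gaussVS K (M0 * q * q) O)
    (hD : IsDedekindDomain (R ⧸ vCentre (V 0) (hV 0)))
    (hnf : ¬ IsField (R ⧸ vCentre (V 0) (hV 0))) :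
    ∀ (𝔫 : Ideal R) [𝔫.IsPrime], 𝔫.IsMaximal → algebraMap ↥O R π ∈ 𝔫 →
      centre (V 0) (hV 0) ≤ 𝔫 → (∀ j, j ≠ 0 → ¬ centre (V j) (hV j) ≤ 𝔫) →
      UniqueFactorizationMonoid (locAt (F := FF K (M0 * q * q)) 𝔫) := by
  intro 𝔫 _ h𝔫 _ hi₀ honly
  refine (one_branch_of_chartHyp H 𝔫 h𝔫 0 hi₀ honly ?_ hD hnf).1
  rw [algebraMap_pi, hV0]
  exact Fermat.Agent.S36.V.Transport.ram_one_gaussVS K O (M0 * q * q) H.irr

/-- **`hUFD2` of `SpinePoints.hpt_of_blocks`**: the local ring at a closed point lying on `C02` only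
is factorial. -/
theorem hUFD2 (H : ChartHyp V hV π E) (hV2 : V 2 = T.V02)
    (hD : IsDedekindDomain (R ⧸ vCentre (V 2) (hV 2)))
    (hnf : ¬ IsField (R ⧸ vCentre (V 2) (hV 2))) :
    ∀ (𝔫 : Ideal R) [𝔫.IsPrime], 𝔫.IsMaximal → algebraMap ↥O R π ∈ 𝔫 →
      centre (V 2) (hV 2) ≤ 𝔫 → (∀ j, j ≠ 2 → ¬ centre (V j) (hV j) ≤ 𝔫) →
      UniqueFactorizationMonoid (locAt (F := FF K (M0 * q * q)) 𝔫) := by
  intro 𝔫 _ h𝔫 _ hi₀ honly
  refine (one_branch_of_chartHyp H 𝔫 h𝔫 2 hi₀ honly ?_ hD hnf).1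
  rw [algebraMap_pi, hV2]
  exact T.ram_one_V02 π H.irr

/-- **`hUFD1` of `SpinePoints.hpt_of_blocks` for `q = 2`**: then `q = w Π` in `V11`, so `V11` is
unramified over `O` and the points on `C11` only are of type [ONE]. -/
theorem hUFD1_two (H : ChartHyp V hV π E) (hV1 : V 1 = T.V11) (hq2 : q = 2)
    (hπ : algebraMap R (FF K (M0 * q * q)) (algebraMap ↥O R π) =
      ((q : ℕ) : FF K (M0 * q * q)))
    (hD : IsDedekindDomain (R ⧸ vCentre (V 1) (hV 1)))
    (hnf : ¬ IsField (R ⧸ vCentre (V 1) (hV 1))) :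
    ∀ (𝔫 : Ideal R) [𝔫.IsPrime], 𝔫.IsMaximal → algebraMap ↥O R π ∈ 𝔫 →
      ∀ hi : centre (V 1) (hV 1) ≤ 𝔫, (∀ j, j ≠ 1 → ¬ centre (V j) (hV j) ≤ 𝔫) →
      IsPrincipalIdealRing (locAt (F := FF K (M0 * q * q)) 𝔫 ⧸
        centre (V 1) (fun b => locAt_le 𝔫 (V 1) (hV 1) hi b)) →
      UniqueFactorizationMonoid (locAt (F := FF K (M0 * q * q)) 𝔫) := by
  intro 𝔫 _ h𝔫 _ hi₀ honly _
  refine (one_branch_of_chartHyp H 𝔫 h𝔫 1 hi₀ honly ?_ hD hnf).1
  obtain ⟨w, hw, hwi, hqw⟩ := T.ram_V11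
  have h1 : q - 1 = 1 := by omega
  rw [h1, pow_one] at hqw
  rw [hV1]
  exact Fermat.Agent.S36.One.OneChart.unif_of_eq_unit_mul T.V11 T.unif_V11 hwi (hπ.trans hqw)

end Three

end Fermat.Agent.S36.One.OneTop
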