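/-
S36 block [ONE] (helper21), file 8: **the (R-a) input `hUFD1` of the point dispatcher
`Descent/SpinePoints.hpt_of_blocks` for EVERY prime `q`** (points lying on `C11` only):

* `q` odd : block [R3] (`R3/GeneratorThreeVal.ufd_of_threeVal`: `Π_t` generates the centre of `V11`;
  consumes (R-b)), side conditions `4 ∣ M0`, `2 ∈ O^×` (the latter derived here from `CharP κ q`);
* `q = 2` : block [ONE] (`One/OneTop.hUFD1_two`: `q = w Π`, `V11` is unramified).
-/
import Mathlib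
import Fermat.Agent.S36.One.OneTop
import Fermat.Agent.S36.R3.GeneratorThreeVal

set_option autoImplicit false
set_option linter.unusedSectionVars false
set_option linter.unusedVariables false
set_option linter.style.haveILetI false

open ModularCurve Fermat.Agent.S28.Gauss Fermat.Agent.N4.Setting Fermat.Agent.N4.FibreEmbedding
open Fermat.Agent.N4F.E.DegreeLevelRaise Fermat.Agent.N4F.E.GaussDVR
open Fermat.Agent.N4.Cover.Globalize Fermat.Agent.P3G.Krull
open Fermat.Agent.S36.Local.LocalRoot Fermat.Agent.S36.Local.Spread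
  Fermat.Agent.S36.Local.ChartSpread Fermat.Agent.S36.D.ChartRoots
open Fermat.Agent.P3G.SecondValuation Fermat.Agent.S36.V.ThreeVal Fermat.Agent.S36.V.MidVal

noncomputable section

namespace Fermat.Agent.S36.One.OneTopMid

/-- In a local ring of residue characteristic `q ≠ 2`, the element `2` is a unit. -/
theorem isUnit_two_of_charP {A : Type*} [CommRing A] [IsLocalRing A] (q : ℕ) [hq : Fact q.Prime]
    [CharP (IsLocalRing.ResidueField A) q] (hq2 : q ≠ 2) : IsUnit (2 : A) := by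
  by_contra h
  have hm : (2 : A) ∈ IsLocalRing.maximalIdeal A := (IsLocalRing.mem_maximalIdeal _).2 h
  have h0 : IsLocalRing.residue A (2 : A) = 0 := (IsLocalRing.residue_eq_zero_iff _).2 hm
  have h1 : ((2 : ℕ) : IsLocalRing.ResidueField A) = 0 := by
    have h2 : IsLocalRing.residue A ((2 : ℕ) : A) = 0 := by
      rw [Nat.cast_ofNat]; exact h0
    rwa [map_natCast] at h2
  rw [CharP.cast_eq_zero_iff (IsLocalRing.ResidueField A) q] at h1
  exact hq2 ((Nat.prime_dvd_prime_iff_eq hq.out Nat.prime_two).1 h1)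

variable {K : Type} [Field K] [CharZero K] {M0 q : ℕ} [NeZero M0] [hq : Fact q.Prime]
  {O : Subring K} [IsDiscreteValuationRing ↥O] [IsFractionRing ↥O K]
  {sv : SecondVal K M0 q O} (T : ThreeVal K M0 q O sv)
variable {R : Type*} [CommRing R] [IsDomain R] [IsNoetherianRing R] [Algebra ↥O R]
  [Algebra R (FF K (M0 * q * q))] [IsFractionRing R (FF K (M0 * q * q))]
  [IsScalarTower ↥O R (FF K (M0 * q * q))]
variable {V : Fin 3 → ValuationSubring (FF K (M0 * q * q))}
  {hV : ∀ i (r : R), algebraMap R (FF K (M0 * q * q)) r ∈ V i} {π : ↥O} {E : ℕ}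

/-- **`hUFD1` of `SpinePoints.hpt_of_blocks`, every `q`**: the local ring at a closed point lying on
`C11` only is factorial. -/
theorem hUFD1 [CharP (IsLocalRing.ResidueField ↥O) q] (H : ChartHyp V hV π E) (hV1 : V 1 = T.V11)
    (hπ : algebraMap R (FF K (M0 * q * q)) (algebraMap ↥O R π) =
      ((q : ℕ) : FF K (M0 * q * q)))
    (h4 : q ≠ 2 → 2 * 2 ∣ M0)
    (hRa : ∀ x : ↥(Rfin K M0 O), ∃ r : R, algebraMap R (FF K (M0 * q * q)) r =
      alphaF K (M0 * q) q (alphaF K M0 q (x : FF K M0)))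
    (hRb : ∀ x : ↥(Rfin K M0 O), ∃ r : R, algebraMap R (FF K (M0 * q * q)) r =
      betaF K (M0 * q) q (betaF K M0 q (x : FF K M0)))
    (hD : IsDedekindDomain (R ⧸ vCentre (V 1) (hV 1)))
    (hnf : ¬ IsField (R ⧸ vCentre (V 1) (hV 1))) :
    ∀ (𝔫 : Ideal R) [𝔫.IsPrime], 𝔫.IsMaximal → algebraMap ↥O R π ∈ 𝔫 →
      ∀ hi : centre (V 1) (hV 1) ≤ 𝔫, (∀ j, j ≠ 1 → ¬ centre (V j) (hV j) ≤ 𝔫) →
      IsPrincipalIdealRing (locAt (F := FF K (M0 * q * q)) 𝔫 ⧸
        centre (V 1) (fun b => locAt_le 𝔫 (V 1) (hV 1) hi b)) →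
      UniqueFactorizationMonoid (locAt (F := FF K (M0 * q * q)) 𝔫) := by
  intro 𝔫 _ h𝔫 hπ𝔫 hi honly hPID
  rcases eq_or_ne q 2 with hq2 | hq2
  · exact Fermat.Agent.S36.One.OneTop.hUFD1_two T H hV1 hq2 hπ hD hnf 𝔫 h𝔫 hπ𝔫 hi honly hPID
  · haveI : NeZero q := ⟨hq.out.ne_zero⟩
    exact (Fermat.Agent.S36.R3.GeneratorThreeVal.ufd_of_threeVal T H hπ 1 hV1 hq2 (h4 hq2)
      (isUnit_two_of_charP q hq2) hRa hRb 𝔫 hi honly hPID).1

end Fermat.Agent.S36.One.OneTopMid
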