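/-
S36 block [ONE] (helper21), file 4: **ONE-I on the charts of level `q² M₀'`**: `OneChart` (the
interface `(I-R)` at a closed point on exactly one vertical component of multiplicity one) fed with
helper6's `BranchInst` (the branch is the Dedekind reduction `RbarFin / RbarInf K N O` of the good
level `N = M₀'`).

`R = chartAlg O F {s}` any chart of any `O`-algebra field `F` (application `F = FF K (N q²)`,
`s = j` or `j⁻¹`), `V : Fin 3 → ValuationSubring F` the vertical valuation rings, `Θ : R → κ((Q))` the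
residue map of the component `V i₀` restricted to the chart (`BranchFin` / `BranchInf`),
`ker Θ = vCentre (V i₀)`.

* `not_isField_quotient_fin/_inf` : the branch `R ⧸ ker Θ` is not a field;
* `one_branch_fin`, `one_branch_inf` : `(I-R)` at every maximal ideal `𝔫` with `T(𝔫) = {i₀}` in the
  sense of [PTS] (`Classify.OnlyOne`), if `π` is a uniformiser of `V i₀`;
* `one_branch_fin_of_uniformisers`, `one_branch_inf_of_uniformisers` : the same from the list of
  uniformisers of block [C] with `e i₀ = 1`.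
-/
import Mathlib
import Fermat.Agent.S36.One.OneChart
import Fermat.Agent.S36.One.BranchInst

set_option autoImplicit false
set_option linter.unusedSectionVars false
set_option linter.style.haveILetI false

open ModularCurve Fermat.Agent.S28.Gauss Fermat.Agent.N4.Setting Fermat.Agent.N4.FibreEmbedding
open Fermat.Agent.N4.Chart
open Fermat.Agent.N4F.E.GaussDVR
open Fermat.Agent.N4F.E IsLocalRing Fermat.Agent.P3G.RbarFin Fermat.Agent.P3G.RbarInf
open Fermat.Agent.N4.Cover.Globalize Fermat.Agent.P3G.Krull Fermat.Agent.P3G.Cover.Lift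
  Fermat.Agent.P3G.Cover.OfValuations Fermat.Agent.S36.C.PowCoverFam
  Fermat.Agent.S36.Local.LocalRoot Fermat.Agent.S36.Points.Classify
  Fermat.Agent.S36.One.BranchDedekind Fermat.Agent.S36.One.BranchInst
  Fermat.Agent.S36.One.OneChart

noncomputable section

namespace Fermat.Agent.S36.One.OneInst

universe u

variable (K : Type) [Field K] [CharZero K] (N : ℕ) [NeZero N]
  (O : Subring K) [IsDiscreteValuationRing ↥O] [IsFractionRing ↥O K]

set_option quotPrecheck false in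
local notation "κ" => IsLocalRing.ResidueField ↥O

variable {F : Type u} [Field F] [Algebra ↥O F] {s : F}

/-! ### The finite chart -/

section Fin

variable (hN : IsUnit ((N : ℕ) : ↥O))
  (hprime : (fibreIdeal K N O (Rfin K N O)).IsPrime)
  (hDed : IsDedekindDomain (↥(Rfin K N O) ⧸ fibreIdeal K N O (Rfin K N O)))
  (hA2 : ∀ x : ↥(gaussSubalgebra K N O),
    theta K N O x ∈ modularFunctionFieldFullC (IsLocalRing.ResidueField ↥O) N)
  {Θ : ↥(chartAlg ↥O F {s}) →+* LaurentSeries (IsLocalRing.ResidueField ↥O)}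

include hN hprime hDed hA2 in
/-- The branch `R ⧸ ker Θ` is not a field. -/
theorem not_isField_quotient_fin (h : BranchFin K N O (F := F) (s := s) Θ)
    {P : Ideal ↥(chartAlg ↥O F {s})} (hP : RingHom.ker Θ = P) :
    ¬ IsField (↥(chartAlg ↥O F {s}) ⧸ P) := by
  intro hf
  have e : (↥(chartAlg ↥O F {s}) ⧸ P) ≃+* ↥(RbarFin K N O) :=
    quotientKerEquiv (S := RbarFin K N O) (h.mem_rbar K N O hN hprime hDed hA2) (h.surj K N O) hP
  exact not_isField_RbarFin K N O hprime (e.symm.toMulEquiv.isField hf)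

variable [IsFractionRing ↥(chartAlg ↥O F {s}) F] [IsNoetherianRing ↥(chartAlg ↥O F {s})]
  (V : Fin 3 → ValuationSubring F)
  (hV : ∀ i (r : ↥(chartAlg ↥O F {s})), algebraMap ↥(chartAlg ↥O F {s}) F r ∈ V i)
  {π : ↥O} {W : Subring F} {E : ℕ}

include hN hprime hDed hA2 in
/-- **ONE-I, finite type**: `(I-R)` at a closed point `𝔫` of the chart with `T(𝔫) = {i₀}`, the
component `V i₀` being of multiplicity one with reduction `Θ`. -/
theorem one_branch_fin (h : BranchFin K N O (F := F) (s := s) Θ) (i₀ : Fin 3)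
    (hker : RingHom.ker Θ = vCentre (V i₀) (hV i₀))
    (𝔫 : Ideal ↥(chartAlg ↥O F {s})) [𝔫.IsMaximal] (h1 : OnlyOne V hV i₀ 𝔫)
    (hSG : IsSemiGaussRing W (algebraMap ↥O ↥(chartAlg ↥O F {s}) π)) (hT : FamVal π W V E)
    (hunif : ∀ x ∈ (V i₀).nonunits, x * (algebraMap ↥O F π)⁻¹ ∈ V i₀) :
    Prime (algebraMap ↥(chartAlg ↥O F {s}) (locAt (F := F) 𝔫)
      (algebraMap ↥O ↥(chartAlg ↥O F {s}) π)) ∧
    centre (B := locAt (F := F) 𝔫) (V i₀)
        (OneBranch.mem_of_mem_locAt (V i₀) (hV i₀) 𝔫 h1.1) =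
      Ideal.span {algebraMap ↥(chartAlg ↥O F {s}) (locAt (F := F) 𝔫)
        (algebraMap ↥O ↥(chartAlg ↥O F {s}) π)} ∧
    UniqueFactorizationMonoid (locAt (F := F) 𝔫) ∧
    IsPrincipalIdealRing
      (locAt (F := F) 𝔫 ⧸ centre (B := locAt (F := F) 𝔫) (V i₀)
        (OneBranch.mem_of_mem_locAt (V i₀) (hV i₀) 𝔫 h1.1)) :=
  one_branch_of_onlyOne V hV 𝔫 i₀ h1 hSG hT hunif
    (h.isDedekindDomain_quotient K N O hN hprime hDed hA2 hker)
    (not_isField_quotient_fin K N O hN hprime hDed hA2 h hker)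

include hN hprime hDed hA2 in
/-- **ONE-I, finite type, from the uniformisers of block [C].** -/
theorem one_branch_fin_of_uniformisers (h : BranchFin K N O (F := F) (s := s) Θ) (i₀ : Fin 3)
    (hker : RingHom.ker Θ = vCentre (V i₀) (hV i₀))
    (𝔫 : Ideal ↥(chartAlg ↥O F {s})) [𝔫.IsMaximal] (h1 : OnlyOne V hV i₀ 𝔫)
    (hSG : IsSemiGaussRing (iInfSubring V) (algebraMap ↥O ↥(chartAlg ↥O F {s}) π))
    (Pi : Fin 3 → F) (e : Fin 3 → ℕ) (he : ∀ i, 1 ≤ e i ∧ e i ≤ E)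
    (hPi : ∀ i, Pi i ∈ (V i).nonunits)
    (hunif : ∀ i, ∀ x ∈ (V i).nonunits, x * (Pi i)⁻¹ ∈ V i)
    (hπ : ∀ i, ∃ u : F, u ∈ V i ∧ u⁻¹ ∈ V i ∧ algebraMap ↥O F π = u * Pi i ^ e i)
    (he₀ : e i₀ = 1) :
    Prime (algebraMap ↥(chartAlg ↥O F {s}) (locAt (F := F) 𝔫)
      (algebraMap ↥O ↥(chartAlg ↥O F {s}) π)) ∧
    centre (B := locAt (F := F) 𝔫) (V i₀)
        (OneBranch.mem_of_mem_locAt (V i₀) (hV i₀) 𝔫 h1.1) =
      Ideal.span {algebraMap ↥(chartAlg ↥O F {s}) (locAt (F := F) 𝔫)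
        (algebraMap ↥O ↥(chartAlg ↥O F {s}) π)} ∧
    UniqueFactorizationMonoid (locAt (F := F) 𝔫) ∧
    IsPrincipalIdealRing
      (locAt (F := F) 𝔫 ⧸ centre (B := locAt (F := F) 𝔫) (V i₀)
        (OneBranch.mem_of_mem_locAt (V i₀) (hV i₀) 𝔫 h1.1)) :=
  one_branch_of_onlyOne_of_uniformisers V hV 𝔫 i₀ h1 hSG Pi e he hPi hunif hπ he₀
    (h.isDedekindDomain_quotient K N O hN hprime hDed hA2 hker)
    (not_isField_quotient_fin K N O hN hprime hDed hA2 h hker)

end Fin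

/-! ### The chart at infinity -/

section Inf

variable (hN : IsUnit ((N : ℕ) : ↥O))
  (hprimeInf : (fibreIdeal K N O (Rinf K N O)).IsPrime)
  (hDedInf : IsDedekindDomain (↥(Rinf K N O) ⧸ fibreIdeal K N O (Rinf K N O)))
  (hA2 : ∀ x : ↥(gaussSubalgebra K N O),
    theta K N O x ∈ modularFunctionFieldFullC (IsLocalRing.ResidueField ↥O) N)
  {Θ : ↥(chartAlg ↥O F {s}) →+* LaurentSeries (IsLocalRing.ResidueField ↥O)}

include hN hprimeInf hDedInf hA2 in
/-- The branch `R ⧸ ker Θ` is not a field. -/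
theorem not_isField_quotient_inf (h : BranchInf K N O (F := F) (s := s) Θ)
    {P : Ideal ↥(chartAlg ↥O F {s})} (hP : RingHom.ker Θ = P) :
    ¬ IsField (↥(chartAlg ↥O F {s}) ⧸ P) := by
  intro hf
  have e : (↥(chartAlg ↥O F {s}) ⧸ P) ≃+* ↥(RbarInf K N O) :=
    quotientKerEquiv (S := RbarInf K N O) (h.mem_rbar K N O hN hprimeInf hDedInf hA2)
      (h.surj K N O) hP
  exact not_isField_RbarInf K N O hprimeInf (e.symm.toMulEquiv.isField hf)

variable [IsFractionRing ↥(chartAlg ↥O F {s}) F] [IsNoetherianRing ↥(chartAlg ↥O F {s})]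
  (V : Fin 3 → ValuationSubring F)
  (hV : ∀ i (r : ↥(chartAlg ↥O F {s})), algebraMap ↥(chartAlg ↥O F {s}) F r ∈ V i)
  {π : ↥O} {W : Subring F} {E : ℕ}

include hN hprimeInf hDedInf hA2 in
/-- **ONE-I at infinity**: `(I-R)` at a closed point `𝔫` of the chart with `T(𝔫) = {i₀}`, the
component `V i₀` being of multiplicity one with reduction `Θ` of type `BranchInf`. -/
theorem one_branch_inf (h : BranchInf K N O (F := F) (s := s) Θ) (i₀ : Fin 3)
    (hker : RingHom.ker Θ = vCentre (V i₀) (hV i₀))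
    (𝔫 : Ideal ↥(chartAlg ↥O F {s})) [𝔫.IsMaximal] (h1 : OnlyOne V hV i₀ 𝔫)
    (hSG : IsSemiGaussRing W (algebraMap ↥O ↥(chartAlg ↥O F {s}) π)) (hT : FamVal π W V E)
    (hunif : ∀ x ∈ (V i₀).nonunits, x * (algebraMap ↥O F π)⁻¹ ∈ V i₀) :
    Prime (algebraMap ↥(chartAlg ↥O F {s}) (locAt (F := F) 𝔫)
      (algebraMap ↥O ↥(chartAlg ↥O F {s}) π)) ∧
    centre (B := locAt (F := F) 𝔫) (V i₀)
        (OneBranch.mem_of_mem_locAt (V i₀) (hV i₀) 𝔫 h1.1) =
      Ideal.span {algebraMap ↥(chartAlg ↥O F {s}) (locAt (F := F) 𝔫)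
        (algebraMap ↥O ↥(chartAlg ↥O F {s}) π)} ∧
    UniqueFactorizationMonoid (locAt (F := F) 𝔫) ∧
    IsPrincipalIdealRing
      (locAt (F := F) 𝔫 ⧸ centre (B := locAt (F := F) 𝔫) (V i₀)
        (OneBranch.mem_of_mem_locAt (V i₀) (hV i₀) 𝔫 h1.1)) :=
  one_branch_of_onlyOne V hV 𝔫 i₀ h1 hSG hT hunif
    (h.isDedekindDomain_quotient K N O hN hprimeInf hDedInf hA2 hker)
    (not_isField_quotient_inf K N O hN hprimeInf hDedInf hA2 h hker)

include hN hprimeInf hDedInf hA2 in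
/-- **ONE-I at infinity, from the uniformisers of block [C].** -/
theorem one_branch_inf_of_uniformisers (h : BranchInf K N O (F := F) (s := s) Θ) (i₀ : Fin 3)
    (hker : RingHom.ker Θ = vCentre (V i₀) (hV i₀))
    (𝔫 : Ideal ↥(chartAlg ↥O F {s})) [𝔫.IsMaximal] (h1 : OnlyOne V hV i₀ 𝔫)
    (hSG : IsSemiGaussRing (iInfSubring V) (algebraMap ↥O ↥(chartAlg ↥O F {s}) π))
    (Pi : Fin 3 → F) (e : Fin 3 → ℕ) (he : ∀ i, 1 ≤ e i ∧ e i ≤ E)
    (hPi : ∀ i, Pi i ∈ (V i).nonunits)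
    (hunif : ∀ i, ∀ x ∈ (V i).nonunits, x * (Pi i)⁻¹ ∈ V i)
    (hπ : ∀ i, ∃ u : F, u ∈ V i ∧ u⁻¹ ∈ V i ∧ algebraMap ↥O F π = u * Pi i ^ e i)
    (he₀ : e i₀ = 1) :
    Prime (algebraMap ↥(chartAlg ↥O F {s}) (locAt (F := F) 𝔫)
      (algebraMap ↥O ↥(chartAlg ↥O F {s}) π)) ∧
    centre (B := locAt (F := F) 𝔫) (V i₀)
        (OneBranch.mem_of_mem_locAt (V i₀) (hV i₀) 𝔫 h1.1) =
      Ideal.span {algebraMap ↥(chartAlg ↥O F {s}) (locAt (F := F) 𝔫)
        (algebraMap ↥O ↥(chartAlg ↥O F {s}) π)} ∧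
    UniqueFactorizationMonoid (locAt (F := F) 𝔫) ∧
    IsPrincipalIdealRing
      (locAt (F := F) 𝔫 ⧸ centre (B := locAt (F := F) 𝔫) (V i₀)
        (OneBranch.mem_of_mem_locAt (V i₀) (hV i₀) 𝔫 h1.1)) :=
  one_branch_of_onlyOne_of_uniformisers V hV 𝔫 i₀ h1 hSG Pi e he hPi hunif hπ he₀
    (h.isDedekindDomain_quotient K N O hN hprimeInf hDedInf hA2 hker)
    (not_isField_quotient_inf K N O hN hprimeInf hDedInf hA2 h hker)

end Inf

end Fermat.Agent.S36.One.OneInst
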